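import Mathlib
import Fermat.Agent.RT.Tower.Datum
import Fermat.Agent.RT.UltraLimit

/-!
# The degeneracy maps of the base as limits

Over all depths the reductions of the degeneracy maps along the augmentations have a limit which
intertwines the base actions, is split, and composes to the value of `tau` at the base point; all
levels of raising exist with this one step.
-/

set_option autoImplicit false

noncomputable section

open IsLocalRing GaloisRep FermatAgent.GaloisBasic Filter Matrix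

namespace FermatAgent.RT.Ladder

variable {𝒪 : Type} [CommRing 𝒪] [IsDomain 𝒪] [IsDiscreteValuationRing 𝒪]
  [IsAdicComplete (maximalIdeal 𝒪) 𝒪] [Finite (ResidueField 𝒪)]

/-- A common limit of two sequences of matrices, approximated at arbitrarily large indices. -/
theorem exists_limit_pair {a b c d : ℕ} (J : ℕ → Matrix (Fin a) (Fin b) 𝒪)
    (T : ℕ → Matrix (Fin c) (Fin d) 𝒪) :
    ∃ (J₀ : Matrix (Fin a) (Fin b) 𝒪) (T₀ : Matrix (Fin c) (Fin d) 𝒪), ∀ k,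
      ∀ᶠ n in (patchFilter : Filter ℕ), k ≤ n ∧
        (J n).map (algebraMap 𝒪 (𝒪 ⧸ maximalIdeal 𝒪 ^ k)) =
          J₀.map (algebraMap 𝒪 (𝒪 ⧸ maximalIdeal 𝒪 ^ k)) ∧
        (T n).map (algebraMap 𝒪 (𝒪 ⧸ maximalIdeal 𝒪 ^ k)) =
          T₀.map (algebraMap 𝒪 (𝒪 ⧸ maximalIdeal 𝒪 ^ k)) := by
  have hfin := fun k => finite_quotient_maximalIdeal_pow (A := 𝒪) k
  choose J₀ hJ₀ using fun i j => exists_isULim (maximalIdeal 𝒪) hfin fun n => J n i j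
  choose T₀ hT₀ using fun i j => exists_isULim (maximalIdeal 𝒪) hfin fun n => T n i j
  refine ⟨J₀, T₀, fun k => ?_⟩
  have h1 : ∀ᶠ n in (patchFilter : Filter ℕ), ∀ i j, J n i j - J₀ i j ∈ maximalIdeal 𝒪 ^ k :=
    eventually_all.mpr fun i => eventually_all.mpr fun j => hJ₀ i j k
  have h2 : ∀ᶠ n in (patchFilter : Filter ℕ), ∀ i j, T n i j - T₀ i j ∈ maximalIdeal 𝒪 ^ k :=
    eventually_all.mpr fun i => eventually_all.mpr fun j => hT₀ i j k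
  filter_upwards [eventually_ge k, h1, h2] with n hn hJ hT
  exact ⟨hn, Matrix.ext fun i j => Ideal.Quotient.eq.mpr (hJ i j),
    Matrix.ext fun i j => Ideal.Quotient.eq.mpr (hT i j)⟩

omit [IsAdicComplete (maximalIdeal 𝒪) 𝒪] [Finite (ResidueField 𝒪)] in
/-- **Splitting of a pair of maps from their reductions.** -/
theorem exists_baseStep {R₀ : Type} [CommRing R₀] [Algebra 𝒪 R₀] {s₁ s₂ : ℕ}
    (ρ₁ : R₀ →ₐ[𝒪] Matrix (Fin s₁) (Fin s₁) 𝒪) (ρ₂ : R₀ →ₐ[𝒪] Matrix (Fin s₂) (Fin s₂) 𝒪)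
    (J : Matrix (Fin s₂) (Fin s₁) 𝒪) (T : Matrix (Fin s₁) (Fin s₂) 𝒪)
    (hJ : ∀ x, J * ρ₁ x = ρ₂ x * J)
    (hinj : ∀ x : Fin s₁ → 𝒪, (∀ i, (J *ᵥ x) i ∈ maximalIdeal 𝒪) → ∀ i, x i ∈ maximalIdeal 𝒪)
    (hsurj : ∀ y : Fin s₁ → 𝒪, ∃ x, ∀ i, (T *ᵥ x) i - y i ∈ maximalIdeal 𝒪) :
    ∃ (sK : ℕ) (S : Raise.BaseStep ρ₁ ρ₂ sK), S.J = J ∧ S.Tr = T := by
  classical
  -- the section of `T`
  choose x hx using fun j => hsurj (Pi.single j 1)
  let Sg₀ : Matrix (Fin s₂) (Fin s₁) 𝒪 := Matrix.of fun i j => x j i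
  have hTS : (T * Sg₀).map (residue 𝒪) = 1 := by
    ext i j
    have h1 := (residue_eq_zero_iff _).mpr (hx j i)
    rw [map_sub, sub_eq_zero] at h1
    rw [Matrix.map_apply, show (T * Sg₀) i j = (T *ᵥ x j) i from rfl, h1, Pi.single_apply,
      Matrix.one_apply, apply_ite (residue 𝒪), map_one, map_zero]
  -- the retraction of `J`
  obtain ⟨L₁, hLJ⟩ := exists_map_mul_eq_one_of_injective J hinj
  let Lam : Matrix (Fin s₁) (Fin s₂) 𝒪 := (L₁ * J)⁻¹ * L₁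
  have hLamJ : Lam * J = 1 := by
    rw [Matrix.mul_assoc]
    exact Matrix.nonsing_inv_mul _ (isUnit_det_of_map_residue hLJ)
  -- the complement
  let K := LinearMap.ker Lam.mulVecLin
  obtain ⟨sK, bK⟩ := Submodule.basisOfPid (Pi.basisFun 𝒪 (Fin s₂)) K
  let sec : (Fin sK → 𝒪) →ₗ[𝒪] (Fin s₂ → 𝒪) := K.subtype.comp bK.equivFun.symm.toLinearMap
  let pr : (Fin s₂ → 𝒪) →ₗ[𝒪] (Fin sK → 𝒪) := bK.equivFun.toLinearMap.comp
    (LinearMap.codRestrict K (LinearMap.id - J.mulVecLin.comp Lam.mulVecLin) fun v => by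
      rw [LinearMap.mem_ker, LinearMap.sub_apply, map_sub, LinearMap.id_apply, LinearMap.comp_apply,
        Matrix.mulVecLin_apply Lam, Matrix.mulVecLin_apply Lam, Matrix.mulVecLin_apply J,
        Matrix.mulVec_mulVec, hLamJ, Matrix.one_mulVec, sub_self])
  have hsec : ∀ c, Lam *ᵥ sec c = 0 := fun c => (bK.equivFun.symm c).2
  have hpr : ∀ v, sec (pr v) = v - J *ᵥ (Lam *ᵥ v) := fun v => by
    simp only [sec, pr, LinearMap.comp_apply, LinearEquiv.coe_coe, LinearEquiv.symm_apply_apply]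
    rfl
  have hsi : Function.Injective sec := fun _ _ h =>
    bK.equivFun.symm.injective (Subtype.ext h)
  refine ⟨sK, {
    J := J
    Lam := Lam
    Tr := T
    Sg := Sg₀ * (T * Sg₀)⁻¹
    Pr := LinearMap.toMatrix' pr
    Sec := LinearMap.toMatrix' sec
    J_comm := hJ
    Lam_J := hLamJ
    Lam_Sec := Matrix.toLin'.injective (LinearMap.ext fun c => by
      rw [Matrix.toLin'_apply, map_zero, LinearMap.zero_apply, ← Matrix.mulVec_mulVec,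
        LinearMap.toMatrix'_mulVec, hsec])
    Pr_J := Matrix.toLin'.injective (LinearMap.ext fun v => hsi (by
      rw [Matrix.toLin'_apply, ← Matrix.mulVec_mulVec, LinearMap.toMatrix'_mulVec, hpr,
        Matrix.mulVec_mulVec v Lam J, hLamJ, Matrix.one_mulVec, sub_self, map_zero,
        LinearMap.zero_apply, map_zero]))
    Pr_Sec := Matrix.toLin'.injective (LinearMap.ext fun c => hsi (by
      rw [Matrix.toLin'_apply, Matrix.toLin'_apply, ← Matrix.mulVec_mulVec,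
        LinearMap.toMatrix'_mulVec, LinearMap.toMatrix'_mulVec, hpr, hsec, Matrix.mulVec_zero,
        sub_zero, Matrix.one_mulVec]))
    split := Matrix.toLin'.injective (LinearMap.ext fun v => by
      rw [Matrix.toLin'_apply, Matrix.toLin'_apply, Matrix.add_mulVec,
        ← Matrix.mulVec_mulVec v J Lam, ← Matrix.mulVec_mulVec v (LinearMap.toMatrix' sec),
        LinearMap.toMatrix'_mulVec, LinearMap.toMatrix'_mulVec, hpr,
        add_sub_cancel, Matrix.one_mulVec])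
    Tr_Sg := by
      rw [← Matrix.mul_assoc]
      exact Matrix.mul_nonsing_inv _ (isUnit_det_of_map_residue hTS) }, rfl, rfl⟩

end FermatAgent.RT.Ladder

namespace FermatAgent.RT.Ladder

open DiamondDatum

variable {𝒪 : Type} [CommRing 𝒪] [IsDomain 𝒪] [IsDiscreteValuationRing 𝒪]
  [IsAdicComplete (maximalIdeal 𝒪) 𝒪] [Finite (ResidueField 𝒪)] [CharZero 𝒪]
variable {σ : Type} [Fintype σ] [DecidableEq σ] {ν : Type} [Fintype ν] [DecidableEq ν]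
variable {R₀ : Type} [CommRing R₀] [IsLocalRing R₀] [Algebra 𝒪 R₀] [IsNoetherianRing R₀]
  [IsAdicComplete (maximalIdeal R₀) R₀] [IsLocalHom (algebraMap 𝒪 R₀)]

/-- A depth below another. -/
lemma depth_le {p a k n : ℕ} (hp : p.Prime) (h : p ^ (n + 1) ≤ a) (hk : k ≤ n) :
    p ^ (k + 1) ≤ a :=
  (Nat.pow_le_pow_right hp.pos (Nat.succ_le_succ hk)).trans h

variable {p : ℕ} {κ : ℕ → Type} [∀ n, Fintype (κ n)] [∀ n, DecidableEq (κ n)]
  {m : ∀ n, κ n → ℕ} [∀ n i, NeZero (m n i)] {D : ℕ → DefProblem 𝒪}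
  [∀ n, IsLocalRing (MonoidAlgebra 𝒪 (CycProd (m n)))] {rk : Finset ν → ℕ}
  {H : ∀ n A, DiamondDatum (D n) (m n) p (rk A)} (Ax : ∀ n A, (H n A).AuxSet)

omit [CharZero 𝒪] [IsAdicComplete (maximalIdeal 𝒪) 𝒪] [Finite (ResidueField 𝒪)] in
/-- Matrices congruent modulo every power of the maximal ideal are equal. -/
private lemma eq_of_forall_map_eq {a b : ℕ} {X Y : Matrix (Fin a) (Fin b) 𝒪}
    (h : ∀ k, X.map (algebraMap 𝒪 (𝒪 ⧸ maximalIdeal 𝒪 ^ (k + 1))) =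
      Y.map (algebraMap 𝒪 (𝒪 ⧸ maximalIdeal 𝒪 ^ (k + 1)))) : X = Y := by
  refine Matrix.ext fun i j =>
    sub_eq_zero.mp (IsHausdorff.haus' (I := maximalIdeal 𝒪) _ fun k => ?_)
  rw [SModEq.zero, smul_eq_mul, Ideal.mul_top]
  exact Ideal.pow_le_pow_right (Nat.le_succ k)
    (Ideal.Quotient.eq.mp (congrFun (congrFun (h k) i) j))

omit [CharZero 𝒪] [IsLocalRing R₀] [IsNoetherianRing R₀] [IsAdicComplete (maximalIdeal R₀) R₀]
  [IsLocalHom (algebraMap 𝒪 R₀)] in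
/-- A matrix intertwines two actions if it does so on traces modulo every power. -/
private lemma intertwines_of_map_eq {D₀ : DefProblem 𝒪} {half : 𝒪} (h2 : 2 * half = 1)
    (hspan : Submodule.span (ResidueField 𝒪) (Set.range D₀.rbar) = ⊤) {c : GQ} (hc : c * c = 1)
    (htc : (D₀.univMat c).trace = 0) {M₀ : MatRep R₀} {π : D₀.UR →ₐ[𝒪] R₀}
    (hπs : Function.Surjective π) (hπtr : ∀ x, π (D₀.univMat x).trace = (M₀ x).trace) {a b : ℕ}
    (ρ₁ : R₀ →ₐ[𝒪] Matrix (Fin a) (Fin a) 𝒪) (ρ₂ : R₀ →ₐ[𝒪] Matrix (Fin b) (Fin b) 𝒪)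
    (J : Matrix (Fin b) (Fin a) 𝒪)
    (h : ∀ k y, (J * ρ₁ (M₀ y).trace).map (algebraMap 𝒪 (𝒪 ⧸ maximalIdeal 𝒪 ^ k)) =
      (ρ₂ (M₀ y).trace * J).map (algebraMap 𝒪 (𝒪 ⧸ maximalIdeal 𝒪 ^ k)))
    (x : R₀) : J * ρ₁ x = ρ₂ x * J := by
  obtain ⟨x, rfl⟩ := hπs x
  refine eq_of_forall_map_eq fun k => ?_
  have := finite_quotient_maximalIdeal_pow (A := 𝒪) (k + 1)
  let qk := algebraMap 𝒪 (𝒪 ⧸ maximalIdeal 𝒪 ^ (k + 1))
  rw [Matrix.map_mul, Matrix.map_mul]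
  exact comm_of_trace h2 hspan hc htc
    ((Algebra.ofId 𝒪 (𝒪 ⧸ maximalIdeal 𝒪 ^ (k + 1))).mapMatrix.comp (ρ₁.comp π))
    ((Algebra.ofId 𝒪 (𝒪 ⧸ maximalIdeal 𝒪 ^ (k + 1))).mapMatrix.comp (ρ₂.comp π)) (J.map qk)
    (fun y => by
      simp only [AlgHom.comp_apply, hπtr]
      show J.map qk * (ρ₁ (M₀ y).trace).map qk = (ρ₂ (M₀ y).trace).map qk * J.map qk
      rw [← Matrix.map_mul, ← Matrix.map_mul]
      exact h (k + 1) y) x

omit [IsAdicComplete (maximalIdeal 𝒪) 𝒪] [Finite (ResidueField 𝒪)] [CharZero 𝒪] [IsLocalRing R₀]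
  [IsNoetherianRing R₀] [IsAdicComplete (maximalIdeal R₀) R₀] [IsLocalHom (algebraMap 𝒪 R₀)] in
/-- A pair congruent to a split pair modulo the maximal ideal is split. -/
private lemma exists_baseStep_of_congr {a b : ℕ} (ρ₁ : R₀ →ₐ[𝒪] Matrix (Fin a) (Fin a) 𝒪)
    (ρ₂ : R₀ →ₐ[𝒪] Matrix (Fin b) (Fin b) 𝒪) {J J' : Matrix (Fin b) (Fin a) 𝒪}
    {T T' : Matrix (Fin a) (Fin b) 𝒪} (hJ : ∀ x, J * ρ₁ x = ρ₂ x * J)
    (hJ' : J'.map (algebraMap 𝒪 (𝒪 ⧸ maximalIdeal 𝒪 ^ 1)) =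
      J.map (algebraMap 𝒪 (𝒪 ⧸ maximalIdeal 𝒪 ^ 1)))
    (hT' : T'.map (algebraMap 𝒪 (𝒪 ⧸ maximalIdeal 𝒪 ^ 1)) =
      T.map (algebraMap 𝒪 (𝒪 ⧸ maximalIdeal 𝒪 ^ 1)))
    (hinj : ∀ x : Fin a → 𝒪, (∀ i, (J' *ᵥ x) i ∈ maximalIdeal 𝒪) → ∀ i, x i ∈ maximalIdeal 𝒪)
    (hsurj : ∀ y : Fin a → 𝒪, ∃ x, ∀ i, (T' *ᵥ x) i - y i ∈ maximalIdeal 𝒪) :
    ∃ (sK : ℕ) (S : Raise.BaseStep ρ₁ ρ₂ sK), S.J = J ∧ S.Tr = T := by
  have hcong : ∀ {a b : ℕ} {X Y : Matrix (Fin a) (Fin b) 𝒪},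
      X.map (algebraMap 𝒪 (𝒪 ⧸ maximalIdeal 𝒪 ^ 1)) =
        Y.map (algebraMap 𝒪 (𝒪 ⧸ maximalIdeal 𝒪 ^ 1)) →
      ∀ (x : Fin b → 𝒪) i, (X *ᵥ x) i - (Y *ᵥ x) i ∈ maximalIdeal 𝒪 := by
    intro a b X Y hXY x i
    refine Ideal.pow_le_self one_ne_zero (Ideal.Quotient.eq.mp ?_)
    show algebraMap 𝒪 (𝒪 ⧸ _) _ = algebraMap 𝒪 (𝒪 ⧸ _) _
    rw [RingHom.map_mulVec, RingHom.map_mulVec, hXY]
  refine exists_baseStep ρ₁ ρ₂ J T hJ (fun x hx => hinj x fun i => ?_) fun y => ?_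
  · simpa using add_mem (hcong hJ' x i) (hx i)
  · obtain ⟨x, hx⟩ := hsurj y
    exact ⟨x, fun i => by simpa using sub_mem (hx i) (hcong hT' x i)⟩

omit [IsDomain 𝒪] [IsDiscreteValuationRing 𝒪] [IsAdicComplete (maximalIdeal 𝒪) 𝒪]
  [Finite (ResidueField 𝒪)] [CharZero 𝒪] [Fintype ν] [IsLocalRing R₀] [IsNoetherianRing R₀]
  [IsAdicComplete (maximalIdeal R₀) R₀] [IsLocalHom (algebraMap 𝒪 R₀)] in
/-- Splittings of all steps form one family indexed by all pairs. -/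
private lemma exists_baseStep_family (ρ₀ : ∀ A, R₀ →ₐ[𝒪] Matrix (Fin (rk A)) (Fin (rk A)) 𝒪)
    {P : ∀ A v, v ∉ A → ∀ (s : ℕ), Raise.BaseStep (ρ₀ A) (ρ₀ (insert v A)) s → Prop}
    (hstep : ∀ A v h, ∃ (s : ℕ) (S : Raise.BaseStep (ρ₀ A) (ρ₀ (insert v A)) s), P A v h s S) :
    ∃ (rkK : Finset ν → ν → ℕ)
      (ρK : ∀ A v, R₀ →ₐ[𝒪] Matrix (Fin (rkK A v)) (Fin (rkK A v)) 𝒪)
      (St : ∀ A v, v ∉ A → Raise.BaseStep (ρ₀ A) (ρ₀ (insert v A)) (rkK A v)),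
      (∀ A v (h : v ∉ A), ρK A v = (St A v h).ρK) ∧ ∀ A v h, P A v h _ (St A v h) := by
  choose sK St₀ hP using hstep
  let rkK : Finset ν → ν → ℕ := fun A v => if h : v ∉ A then sK A v h else 0
  let St : ∀ A v, v ∉ A → Raise.BaseStep (ρ₀ A) (ρ₀ (insert v A)) (rkK A v) := fun A v h =>
    cast (by rw [show rkK A v = sK A v h from dif_pos h]) (St₀ A v h)
  refine ⟨rkK, fun A v => if h : v ∉ A then (St A v h).ρK else
      cast (by rw [show rkK A v = 0 from dif_neg h])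
        ({ toFun := fun _ => 0, map_one' := Subsingleton.elim _ _,
           map_mul' := fun _ _ => Subsingleton.elim _ _, map_zero' := rfl,
           map_add' := fun _ _ => Subsingleton.elim _ _,
           commutes' := fun _ => Subsingleton.elim _ _ } :
          R₀ →ₐ[𝒪] Matrix (Fin 0) (Fin 0) 𝒪),
    St, fun A v h => dif_pos h, fun A v h => ?_⟩
  have key : ∀ (a : ℕ) (e : sK A v h = a), P A v h a
      (cast (by rw [e]) (St₀ A v h) : Raise.BaseStep (ρ₀ A) (ρ₀ (insert v A)) a) := by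
    rintro a rfl; exact hP A v h
  exact key _ (dif_pos h).symm

omit [Fintype ν] [DecidableEq ν] [IsNoetherianRing R₀] [IsLocalHom (algebraMap 𝒪 R₀)] in
/-- The composite of the maps at one depth is the value of `tau` at the base point. -/
private lemma map_composite_eq {half : 𝒪} (h2 : 2 * half = 1) {c : GQ} (hc : c * c = 1)
    {n k r : ℕ} {A : Finset ν} (htc : ((D n).univMat c).trace = 0)
    (e : Fin r ≃ {j // j ∈ (Ax n ∅).sel})
    (hd : ∀ j : {j // j ∈ (Ax n ∅).sel}, p ^ (k + 1) ≤ m n j.1)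
    (hside : CondAt (Ax n A) (specOne (Ax n ∅) e hd)) {M₀ : MatRep R₀}
    {π : (D n).UR →ₐ[𝒪] R₀} [IsLocalHom (π : (D n).UR →+* R₀)]
    (hπ : ∀ x, ((D n).univMat x).map π = M₀ x) (ρ : R₀ →ₐ[𝒪] Matrix (Fin (rk A)) (Fin (rk A)) 𝒪)
    (hbase : ∀ x, ((H n A).Φ ((H n A).td.t x)).map (GroupRing.aug 𝒪 (CycProd (m n))) =
      ρ (M₀ x).trace)
    {z : Fin 3 → (D n).UR} (hz : ∀ i, z i ∈ maximalIdeal (D n).UR) {z₀ : Fin 3 → R₀}
    (hz₀ : ∀ i, z₀ i ∈ maximalIdeal R₀) (he : ∀ i, π (z i) = z₀ i)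
    (τ : MvPowerSeries (Fin 3) 𝒪) {t : (H n A).act.Img}
    (htau : IsValueOn (Ax n A) (specOne (Ax n ∅) e hd) z hz τ t)
    {b : ℕ} {J : Matrix (Fin b) (Fin (rk A)) (MonoidAlgebra 𝒪 (CycProd (m n)))}
    {T : Matrix (Fin (rk A)) (Fin b) (MonoidAlgebra 𝒪 (CycProd (m n)))}
    (ht : T * J = (H n A).act.incl t) :
    (T.map (GroupRing.aug 𝒪 (CycProd (m n)))).map
          (algebraMap 𝒪 (𝒪 ⧸ maximalIdeal 𝒪 ^ (k + 1))) *
        (J.map (GroupRing.aug 𝒪 (CycProd (m n)))).map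
          (algebraMap 𝒪 (𝒪 ⧸ maximalIdeal 𝒪 ^ (k + 1))) =
      (ρ (evalAdic (R := 𝒪) (maximalIdeal R₀) z₀ hz₀ τ)).map
        (algebraMap 𝒪 (𝒪 ⧸ maximalIdeal 𝒪 ^ (k + 1))) := by
  have := finite_quotient_maximalIdeal_pow (A := 𝒪) (k + 1)
  have := finite_quotient_maximalIdeal_pow (A := PatchBase 𝒪 r) (k + 1)
  obtain ⟨f, hf⟩ := (side (Ax n A) _ (p_pow_eq_zero (H n ∅) r k) hside).exists_hom h2 (H n ∅).span
  have hπtr : ∀ x, π ((D n).univMat x).trace = (M₀ x).trace := fun x => by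
    rw [← hπ x]; simp [Matrix.trace_fin_two]
  have hcomp := (Raise.map_levelAug_iff _ _).mp (Raise.compat_of_trace h2 (H n ∅).span hc htc
    π hπ ρ f (fun x => by
      rw [hf]
      show ((sideAction (Ax n A) (specOne (Ax n ∅) e hd)).Φ
          ((H n A).td.t x)).map (Raise.levelAug r (k + 1)) = _
      rw [sideAction_Φ, levelAug_specOne, newPhi_map_aug, incl_mkT, hbase])
    (evalAdic (R := 𝒪) (maximalIdeal (D n).UR) z hz τ))
  rw [htau f hf, levelAug_specOne, newPhi_map_aug, ← ht, Matrix.map_mul,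
    algHom_evalAdic (B := R₀) _ _ _ (maximalIdeal R₀) π
      (Ideal.map_le_iff_le_comap.mpr fun x hx => map_nonunit (π : (D n).UR →+* R₀) x hx),
    Matrix.map_mul] at hcomp
  simp only [funext he] at hcomp
  exact hcomp

omit [DecidableEq σ] in
/-- **All levels of raising from auxiliary data of every depth.** -/
theorem exists_raiseLevels {ϖ half ζ ζ' : 𝒪} (hp : p.Prime) (h2 : 2 * half = 1)
    (hζζ' : ζ * ζ' = 1) {c : GQ} (hc : c * c = 1) (htc : ∀ n, ((D n).univMat c).trace = 0)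
    {M₀ : MatRep R₀} (h₀ : ∀ n, Raise.BasePoint (D n) M₀)
    (hunr₀ : ∀ n j, M₀ ((Ax n ∅).aux j).τ = 1)
    {d : σ → FrameSite 𝒪 GQ} {q : σ → ℕ} {d' : ν → Raise.CoordSite 𝒪} {z₀ : ν → Fin 3 → R₀}
    {g r : ℕ} (Z : ∀ n, Raise.SiteCoords (D n) M₀ ϖ d q z₀ g)
    (ρ₀ : ∀ A, R₀ →ₐ[𝒪] Matrix (Fin (rk A)) (Fin (rk A)) 𝒪)
    (tau : Finset ν → ν → MvPowerSeries (Fin 3) 𝒪)
    (W : ∀ n, SiteWeights (Ax n ∅).sel (m n) σ ϖ ζ)
    (hsite_tr : ∀ n A v, (H n A).Φ ((H n A).td.t (d v).inert) =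
      algebraMap (MonoidAlgebra 𝒪 (CycProd (m n)))
        (Matrix (Fin (rk A)) (Fin (rk A)) (MonoidAlgebra 𝒪 (CycProd (m n))))
        (cycX 𝒪 ((W n).site v) + cycXinv 𝒪 ((W n).site v)))
    (hsel : ∀ n A, (Ax n A).sel = (Ax n ∅).sel)
    (haux : ∀ n A i (h₁ : i ∈ (Ax n A).sel) (h₂ : i ∈ (Ax n ∅).sel),
      (Ax n A).aux ⟨i, h₁⟩ = (Ax n ∅).aux ⟨i, h₂⟩)
    (e : ∀ n, Fin r ≃ {j // j ∈ (Ax n ∅).sel})
    (hdepth : ∀ n (j : {j // j ∈ (Ax n ∅).sel}), p ^ (n + 1) ≤ m n j.1)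
    (hsides : ∀ n k (hk : k ≤ n), LevelSides (Ax n)
      (specOne (Ax n ∅) (e n) fun j => depth_le hp (hdepth n j) hk)
      (spec (Ax n ∅) (e := e n) (fun j => depth_le hp (hdepth n j) hk) (W n).w (W n).w_pow)
      d' (Z n).z (Z n).z_mem)
    (hbase : ∀ n A x, ((H n A).Φ ((H n A).td.t x)).map (GroupRing.aug 𝒪 (CycProd (m n))) =
      ρ₀ A (M₀ x).trace)
    (J : ∀ n A v, v ∉ A →
      Matrix (Fin (rk (insert v A))) (Fin (rk A)) (MonoidAlgebra 𝒪 (CycProd (m n))))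
    (Tr : ∀ n A v, v ∉ A →
      Matrix (Fin (rk A)) (Fin (rk (insert v A))) (MonoidAlgebra 𝒪 (CycProd (m n))))
    (hJ : ∀ n A v h, Intertwines (H n A) (H n (insert v A)) (J n A v h))
    (hTr : ∀ n A v h, Intertwines (H n (insert v A)) (H n A) (Tr n A v h))
    (hinj : ∀ n A v h (x : Fin (rk A) → 𝒪),
      (∀ i, ((J n A v h).map (GroupRing.aug 𝒪 (CycProd (m n))) *ᵥ x) i ∈ maximalIdeal 𝒪) →
        ∀ i, x i ∈ maximalIdeal 𝒪)
    (hsurj : ∀ n A v h (y : Fin (rk A) → 𝒪), ∃ x, ∀ i,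
      ((Tr n A v h).map (GroupRing.aug 𝒪 (CycProd (m n))) *ᵥ x) i - y i ∈ maximalIdeal 𝒪)
    (hTrJ : ∀ n A v h, ∃ t : (H n A).act.Img, Tr n A v h * J n A v h = (H n A).act.incl t ∧
      ∀ k (hk : k ≤ n), IsValueOn (Ax n A)
        (specOne (Ax n ∅) (e n) fun j => depth_le hp (hdepth n j) hk)
        ((Z n).z v) ((Z n).z_mem v) (tau A v) t) :
    ∃ (rkK : Finset ν → ν → ℕ)
      (ρK : ∀ A v, R₀ →ₐ[𝒪] Matrix (Fin (rkK A v)) (Fin (rkK A v)) 𝒪)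
      (St : ∀ A v, v ∉ A → Raise.BaseStep (ρ₀ A) (ρ₀ (insert v A)) (rkK A v)),
      (∀ A v (h : v ∉ A), ρK A v = (St A v h).ρK) ∧
      (∀ A v (h : v ∉ A) (hz₀ : ∀ i, z₀ v i ∈ maximalIdeal R₀), (St A v h).Tr * (St A v h).J =
        ρ₀ A (evalAdic (R := 𝒪) (maximalIdeal R₀) (z₀ v) hz₀ (tau A v))) ∧
      ∀ n, Nonempty (Raise.RaiseLevel ϖ half ζ ζ' d q d' g r M₀ z₀ ρ₀ ρK tau n) := by
  classical
  choose π hπ hπloc hπs using fun n => (h₀ n).exists_hom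
  let aJ : ∀ n A v, v ∉ A → Matrix (Fin (rk (insert v A))) (Fin (rk A)) 𝒪 := fun n A v h =>
    (J n A v h).map (GroupRing.aug 𝒪 (CycProd (m n)))
  let aT : ∀ n A v, v ∉ A → Matrix (Fin (rk A)) (Fin (rk (insert v A))) 𝒪 := fun n A v h =>
    (Tr n A v h).map (GroupRing.aug 𝒪 (CycProd (m n)))
  choose J₀ T₀ hlim using fun A v h =>
    exists_limit_pair (fun n => aJ n A v h) fun n => aT n A v h
  -- the limit intertwines
  have hcomm : ∀ A v h x, J₀ A v h * ρ₀ A x = ρ₀ (insert v A) x * J₀ A v h := fun A v h => by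
    have := hπloc 0
    refine intertwines_of_map_eq h2 (H 0 ∅).span hc (htc 0) (hπs 0)
      (fun x => by rw [← hπ 0 x]; simp [Matrix.trace_fin_two]) _ _ _ fun k y => ?_
    obtain ⟨n, -, hnJ, -⟩ := (hlim A v h k).exists
    rw [Matrix.map_mul, Matrix.map_mul, ← hnJ, ← Matrix.map_mul, ← Matrix.map_mul, ← hbase n,
      ← hbase n]
    refine congrArg (fun X : Matrix _ _ 𝒪 => X.map _) ?_
    show (J n A v h).map _ * _ = _ * (J n A v h).map _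
    rw [← Matrix.map_mul, ← Matrix.map_mul, (hJ n A v h).t]
  -- the limit is split
  obtain ⟨rkK, ρK, St, hρK, hSt⟩ := exists_baseStep_family ρ₀
    (P := fun A v h _ S => S.J = J₀ A v h ∧ S.Tr = T₀ A v h) fun A v h => by
      obtain ⟨n, -, hnJ, hnT⟩ := (hlim A v h 1).exists
      exact exists_baseStep_of_congr _ _ (hcomm A v h) hnJ hnT (hinj n A v h) (hsurj n A v h)
  refine ⟨rkK, ρK, St, hρK, fun A v h hz₀ => eq_of_forall_map_eq fun k => ?_, fun N => ?_⟩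
  · -- the composite
    obtain ⟨n, hkn, hnJ, hnT⟩ := (hlim A v h (k + 1)).exists
    have := hπloc n
    have hk : k ≤ n := by omega
    obtain ⟨t, ht, htau⟩ := hTrJ n A v h
    rw [(hSt A v h).1, (hSt A v h).2, Matrix.map_mul, ← hnJ, ← hnT]
    exact map_composite_eq Ax h2 hc (htc n) (e n) _ ((hsides n k hk).side A) (hπ n) (ρ₀ A)
      (hbase n A) ((Z n).z_mem v) hz₀ ((Z n).π_z (π n) (hπ n) v) (tau A v) (htau k hk) ht
  · -- the levels
    have hlev : ∀ k,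
        Nonempty (Raise.RaiseLevel ϖ half ζ ζ' d q d' g r M₀ z₀ ρ₀ ρK tau (k + 1)) := by
      intro k
      have hlim' : ∀ᶠ n in (patchFilter : Filter ℕ), k ≤ n ∧ ∀ A v h,
          (aJ n A v h).map (algebraMap 𝒪 (𝒪 ⧸ maximalIdeal 𝒪 ^ (k + 1))) =
            (J₀ A v h).map (algebraMap 𝒪 (𝒪 ⧸ maximalIdeal 𝒪 ^ (k + 1))) ∧
          (aT n A v h).map (algebraMap 𝒪 (𝒪 ⧸ maximalIdeal 𝒪 ^ (k + 1))) =
            (T₀ A v h).map (algebraMap 𝒪 (𝒪 ⧸ maximalIdeal 𝒪 ^ (k + 1))) :=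
        (eventually_ge k).and (eventually_all.mpr fun A => eventually_all.mpr fun v =>
          eventually_all.mpr fun h => (hlim A v h (k + 1)).mono fun n hn => hn.2)
      obtain ⟨n, hk, hn⟩ := hlim'.exists
      refine nonempty_raiseLevel_of_datum (Ax n) h2 hζζ' hc (htc n) (h₀ n) (hunr₀ n) (Z n)
        ρ₀ ρK St hρK tau (W n) (hsite_tr n) (hsel n) (haux n) (e n)
        (fun j => depth_le hp (hdepth n j) hk) (hsides n k hk) (hbase n)
        (J n) (Tr n) (hJ n) (hTr n)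
        (fun A v h => by rw [(hSt A v h).1]; exact (hn A v h).1)
        (fun A v h => by rw [(hSt A v h).2]; exact (hn A v h).2)
        fun A v h => ?_
      obtain ⟨t, ht, htau⟩ := hTrJ n A v h
      exact ⟨t, ht, htau k hk⟩
    rcases N with _ | k
    · exact Raise.RaiseLevel.nonempty_lower (Classical.choice (hlev 0))
    · exact hlev k

end FermatAgent.RT.Ladder
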