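import Mathlib
import Fermat.Agent.HM.H1.Auxiliary
import Fermat.Agent.HM.H1.Eigenform
import Fermat.Agent.HM.H1.Bases
import Fermat.Agent.RT.DiamondBase

/-!
# Bases of an auxiliary level lifting bases of the base level

The localised module of auxiliary level with diamond coefficients is free over the group ring, and
a basis of the module of the base level lifts to one in which the Hecke operators away from the
auxiliary primes reduce, along the augmentation, to those of the base level.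
-/

set_option autoImplicit false

noncomputable section

open scoped MatrixGroups
open CongruenceSubgroup MvPolynomial IsLocalRing FermatAgent.HM

namespace FermatAgent.RT.Ladder

/-- Either `3` is invertible or the level has no elliptic points of order three. -/
def NoElliptic (R : Type) [CommRing R] (M : ℕ) : Prop :=
  IsUnit (3 : R) ∨ ∀ γ ∈ Gamma0 M, ((γ : SL(2, ℤ)) : Matrix (Fin 2) (Fin 2) ℤ).trace ≠ 1

/-- Having no elliptic points passes to multiples of the level and along ring maps. -/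
lemma NoElliptic.of_dvd {R R' : Type} [CommRing R] [CommRing R'] {M M' : ℕ} (h : NoElliptic R M)
    (hM : M ∣ M') (f : R →+* R') : NoElliptic R' M' :=
  h.imp (fun h3 => by have h4 := h3.map f; rwa [map_ofNat] at h4) fun h3 γ hγ =>
    h3 γ (gamma0_le_of_dvd hM hγ)

section

variable {p : ℕ} [Fact p.Prime]
variable {𝒪 : Type} [CommRing 𝒪] [IsDomain 𝒪] [IsDiscreteValuationRing 𝒪]
  [IsAdicComplete (maximalIdeal 𝒪) 𝒪] [Finite (ResidueField 𝒪)]
variable {κ : Type} [Fintype κ] {m : κ → ℕ} [∀ i, NeZero (m i)]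
  [IsLocalRing (MonoidAlgebra 𝒪 (CycProd m))]
variable (hm : ∀ i, ∃ k, m i = p ^ k) (hpO : (p : 𝒪) ∈ maximalIdeal 𝒪)
variable {N L : ℕ} {ι : Type} {pr : ι → HPrime L} {δ : (ZMod N)ˣ →* CycProd m}

/-- A system of values as constants of the group ring. -/
abbrev constS (m : κ → ℕ) [∀ i, NeZero (m i)] (c : ι → 𝒪) : ι → MonoidAlgebra 𝒪 (CycProd m) :=
  fun i => algebraMap 𝒪 (MonoidAlgebra 𝒪 (CycProd m)) (c i)

include hm hpO in
/-- The localised module with diamond coefficients is free. -/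
theorem free_diamondLoc {M : ℕ} [NeZero M] {hNM : N ∣ M}
    {a : ι → MonoidAlgebra 𝒪 (CycProd m)}
    (h : NonEis hNM (diamondChar 𝒪 δ) pr (resIdeal a)) :
    Module.Free (MonoidAlgebra 𝒪 (CycProd m))
      (ThetaLoc hNM (diamondChar 𝒪 δ) pr (resIdeal a) (MonoidAlgebra 𝒪 (CycProd m))) := by
  have := GroupRing.isNoetherianRing (O := 𝒪) (Δ := CycProd m)
  have := GroupRing.isAdicComplete (O := 𝒪) (Δ := CycProd m)
  obtain ⟨ϖ, hϖ⟩ := IsDiscreteValuationRing.exists_irreducible 𝒪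
  set x : MonoidAlgebra 𝒪 (CycProd m) := algebraMap 𝒪 _ ϖ
  have hxm : x ∈ maximalIdeal (MonoidAlgebra 𝒪 (CycProd m)) := by
    rw [GroupRing.mem_maximalIdeal_iff (cycProd_isPGroup hm) hpO, AlgHom.commutes]
    exact (mem_maximalIdeal _).mpr hϖ.not_isUnit
  refine free_thetaLoc h hxm (fun r r' hr => ?_) ?_
  · refine MonoidAlgebra.ext (Finsupp.ext fun g => mul_left_cancel₀ hϖ.ne_zero ?_)
    have h2 := congrArg (fun z : MonoidAlgebra 𝒪 (CycProd m) => z.coeff g) hr
    simpa [x, Algebra.smul_def] using h2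
  · have : Finite (𝒪 ⧸ Ideal.span {ϖ}) := by
      rw [← hϖ.maximalIdeal_eq]
      exact ‹Finite (ResidueField 𝒪)›
    have : Module.Finite 𝒪 (MonoidAlgebra 𝒪 (CycProd m) ⧸ Ideal.span {x}) :=
      Module.Finite.of_surjective (Ideal.Quotient.mkₐ 𝒪 _).toLinearMap Ideal.Quotient.mk_surjective
    obtain ⟨d, v, hv⟩ := Module.Finite.exists_fin (R := 𝒪)
      (M := MonoidAlgebra 𝒪 (CycProd m) ⧸ Ideal.span {x})
    have : Finite (MonoidAlgebra 𝒪 (CycProd m) ⧸ Ideal.span {x}) := by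
      refine Finite.of_surjective (fun c : Fin d → 𝒪 ⧸ Ideal.span {ϖ} =>
        ∑ i, (c i).out • v i) fun y => ?_
      have hy : y ∈ Submodule.span 𝒪 (Set.range v) := hv ▸ Submodule.mem_top
      obtain ⟨c, rfl⟩ := (Submodule.mem_span_range_iff_exists_fun 𝒪).mp hy
      refine ⟨fun i => Ideal.Quotient.mk _ (c i), Finset.sum_congr rfl fun i _ => ?_⟩
      have h1 : (Ideal.Quotient.mk (Ideal.span {ϖ}) (c i)).out - c i ∈ Ideal.span {ϖ} :=
        Ideal.Quotient.eq.mp (Quotient.out_eq _)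
      obtain ⟨e, he⟩ := Ideal.mem_span_singleton'.mp h1
      rw [← sub_eq_zero, ← sub_smul, ← he, mul_smul]
      have h0 : ∀ w : MonoidAlgebra 𝒪 (CycProd m) ⧸ Ideal.span {x}, ϖ • w = 0 := fun w => by
        obtain ⟨w, rfl⟩ := Ideal.Quotient.mk_surjective w
        rw [← Ideal.Quotient.mkₐ_eq_mk 𝒪, ← map_smul, Ideal.Quotient.mkₐ_eq_mk, Algebra.smul_def]
        exact Ideal.Quotient.eq_zero_iff_mem.mpr (Ideal.mem_span_singleton.mpr ⟨w, rfl⟩)
      rw [h0, smul_zero]
    exact isFiniteLength_iff_isNoetherian_isArtinian.mpr ⟨inferInstance, inferInstance⟩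

/-- The matrix of a variable of the Hecke ring. -/
abbrev opMat {R : Type} [CommRing R] {N M L : ℕ} {hNM : N ∣ M} {θ : (ZMod N)ˣ →* R}
    {pr : ι → HPrime L} {𝔪 : Ideal (MvPolynomial ι R)} [𝔪.IsPrime] {s : ℕ}
    (b : Module.Basis (Fin s) R (ThetaLoc hNM θ pr 𝔪 R)) (i : ι) : Matrix (Fin s) (Fin s) R :=
  LinearMap.toMatrixAlgEquiv b
    (Algebra.lsmul R R (ThetaLoc hNM θ pr 𝔪 R) (MvPolynomial.X i : MvPolynomial ι R))

include hm hpO in
/-- **Bases lifting those of the base level.** -/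
theorem exists_liftedBasis [DecidableEq ι] {M₀ M' : ℕ} [NeZero M₀] [NeZero M'] {hNM : N ∣ M'}
    (Q : Finset ι) (hq : ∀ i ∈ Q, ¬ ((pr i).1.1 : ℕ) ∣ M₀)
    (hinj : ∀ i ∈ Q, ∀ j, pr j = pr i → j = i)
    (hM' : M' = M₀ * ∏ i ∈ Q, ((pr i).1.1 : ℕ)) (a₀ α β : ι → 𝒪)
    (hroots : ∀ i ∈ Q, TWRoots (1 : (ZMod 1)ˣ →* 𝒪) (pr i).1.1 (a₀ i) (α i) (β i))
    (h : NonEis hNM (diamondChar 𝒪 δ) pr (resIdeal (constS m (Q.piecewise α a₀)))) {s : ℕ}
    (b₀ : Module.Basis (Fin s) 𝒪 (TrivLoc (M := M₀) pr (resIdeal a₀))) :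
    ∃ b : Module.Basis (Fin s) (MonoidAlgebra 𝒪 (CycProd m))
        (ThetaLoc hNM (diamondChar 𝒪 δ) pr (resIdeal (constS m (Q.piecewise α a₀)))
          (MonoidAlgebra 𝒪 (CycProd m))),
      ∀ i, i ∉ Q → (opMat b i).map (GroupRing.aug 𝒪 (CycProd m)) = opMat b₀ i := by
  classical
  have := GroupRing.isNoetherianRing (O := 𝒪) (Δ := CycProd m)
  have := GroupRing.isAdicComplete (O := 𝒪) (Δ := CycProd m)
  have : Module.Free (MonoidAlgebra 𝒪 (CycProd m)) _ := free_diamondLoc hm hpO h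
  have : Module.Finite (MonoidAlgebra 𝒪 (CycProd m))
      (ThetaLoc hNM (diamondChar 𝒪 δ) pr (resIdeal (constS m (Q.piecewise α a₀)))
        (MonoidAlgebra 𝒪 (CycProd m))) := moduleFinite_thetaLoc _
  let : Algebra (MonoidAlgebra 𝒪 (CycProd m)) 𝒪 :=
    (GroupRing.aug 𝒪 (CycProd m)).toRingHom.toAlgebra
  have haug : ∀ x : MonoidAlgebra 𝒪 (CycProd m),
      algebraMap (MonoidAlgebra 𝒪 (CycProd m)) 𝒪 x = GroupRing.aug 𝒪 (CycProd m) x := fun _ => rfl
  have hsurj : Function.Surjective (algebraMap (MonoidAlgebra 𝒪 (CycProd m)) 𝒪) := fun o =>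
    ⟨algebraMap 𝒪 _ o, AlgHom.commutes _ o⟩
  obtain ⟨π, hπs, hπr, hπp, hπk⟩ := exists_auxiliary_quotient (R := MonoidAlgebra 𝒪 (CycProd m))
    (R' := 𝒪) (θ₀ := (1 : (ZMod 1)ˣ →* 𝒪)) hsurj (one_dvd N)
    (MonoidHom.ext fun u => by
      simp only [pushChar, inflateChar, MonoidHom.comp_apply, diamondChar, MonoidHom.one_apply]
      exact GroupRing.aug_of _)
    (one_dvd M₀) hNM Q hq hinj hM' a₀ α β hroots (constS m (Q.piecewise α a₀))
    (fun i => by rw [haug, AlgHom.commutes, Algebra.algebraMap_self, RingHom.id_apply, sub_self]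
                 exact zero_mem _) h
  have hred : IsReduction (algebraMap (MonoidAlgebra 𝒪 (CycProd m)) 𝒪) π
      (RingHom.ker (algebraMap (MonoidAlgebra 𝒪 (CycProd m)) 𝒪)) := ⟨hπs, hπr, hπk⟩
  let b' := Module.finBasis (MonoidAlgebra 𝒪 (CycProd m))
    (ThetaLoc hNM (diamondChar 𝒪 δ) pr (resIdeal (constS m (Q.piecewise α a₀)))
      (MonoidAlgebra 𝒪 (CycProd m)))
  obtain ⟨b₁, -⟩ := hred.exists_basis hsurj rfl b'
  let bS := b'.reindex (b₁.indexEquiv b₀)
  obtain ⟨b₂, hb₂⟩ := hred.exists_basis hsurj rfl bS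
  -- correct by a constant change of basis
  set P : Matrix (Fin s) (Fin s) 𝒪 := b₂.toMatrix b₀ with hP
  set PS := P.map (algebraMap 𝒪 (MonoidAlgebra 𝒪 (CycProd m))) with hPS
  have hdet : IsUnit PS.det := by
    have h1 : IsUnit P.det := by
      rw [hP, ← Module.Basis.det_apply]
      exact b₂.isUnit_det b₀
    rw [hPS, ← RingHom.mapMatrix_apply, ← RingHom.map_det]
    exact h1.map _
  let b := bS.map (Matrix.toLinearEquiv bS PS hdet)
  have hb : ∀ i, π (b i) = b₀ i := fun i => by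
    rw [show b i = ∑ j, PS j i • bS j from Matrix.toLin_self bS bS PS i, hred.map_sum]
    simp only [hPS, Matrix.map_apply, haug, AlgHom.commutes, Algebra.algebraMap_self,
      RingHom.id_apply, ← hb₂]
    exact b₂.sum_toMatrix_smul_self b₀ i
  refine ⟨b, fun i hi => Matrix.ext fun j l => ?_⟩
  simp only [opMat, Matrix.map_apply, LinearMap.toMatrixAlgEquiv_apply, Algebra.lsmul_coe]
  have h1 := hπp (MvPolynomial.X ⟨i, hi⟩) (b l)
  rw [rename_X, MvPolynomial.map_X, rename_X, hb] at h1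
  rw [← h1]
  set y := (MvPolynomial.X i : MvPolynomial ι (MonoidAlgebra 𝒪 (CycProd m))) • b l
  conv_rhs => rw [← b.sum_repr y, hred.map_sum]
  simp only [hb, b₀.repr_sum_self, haug]

end

end FermatAgent.RT.Ladder
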