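import Mathlib
import Fermat.Agent.RT.Ladder.Level
import Fermat.Agent.RT.HeckeModule

/-!
# The data of level raising on localised Hecke modules

A base level with a set of sites to be raised, the auxiliary primes of one depth, the localised
modules and their diamond data.
-/

set_option autoImplicit false

noncomputable section

open scoped MatrixGroups
open CongruenceSubgroup MvPolynomial IsLocalRing FermatAgent.HM FermatAgent.GaloisBasic

namespace FermatAgent.RT.Ladder

section Basic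

variable (p : ℕ) [hp : Fact p.Prime]
variable (𝒪 : Type) [CommRing 𝒪] [IsDomain 𝒪] [IsDiscreteValuationRing 𝒪]

/-- A base level with sites to be raised with prescribed signs. -/
structure RaiseBase (ν ι : Type) (L : ℕ) where
  /-- The family of primes. -/
  pr : ι → HPrime L
  /-- The sites. -/
  site : ν ↪ ι
  /-- The base level. -/
  M : ℕ
  /-- The system of values at the base level. -/
  a₀ : ι → 𝒪
  /-- The signs. -/
  sgn : ν → 𝒪
  /-- The exceptional primes. -/
  Sbad : Finset ℕ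
  pr_inj : Function.Injective pr
  good : ∀ q : ℕ, q.Prime → q ∉ Sbad → ∃ i, ((pr i).1.1 : ℕ) = q
  M_ne : M ≠ 0
  not_dvd : ∀ v, ¬ ((pr (site v)).1.1 : ℕ) ∣ M
  sgn_sq : ∀ v, sgn v * sgn v = 1
  low : ∀ v, a₀ (site v) - sgn v * (1 + ((pr (site v)).1.1 : ℕ)) ∈ maximalIdeal 𝒪
  distinct : ∀ v, IsUnit ((((pr (site v)).1.1 : ℕ) : 𝒪) - 1)
  p_mem : (p : 𝒪) ∈ maximalIdeal 𝒪
  two : IsUnit (2 : 𝒪)
  three : NoElliptic 𝒪 M

variable {p 𝒪} {ν ι : Type} [DecidableEq ι] {L : ℕ}

namespace RaiseBase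

variable (B : RaiseBase p 𝒪 ν ι L)

/-- The prime of a variable. -/
abbrev ell (i : ι) : ℕ := (B.pr i).1.1

/-- The level with sites raised. -/
def lvl (A : Finset ν) : ℕ := B.M * ∏ v ∈ A, B.ell (B.site v)

omit hp [DecidableEq ι] in
lemma lvl_ne (A : Finset ν) : B.lvl A ≠ 0 :=
  mul_ne_zero B.M_ne (Finset.prod_ne_zero_iff.mpr fun _ _ => (B.pr _).1.2.ne_zero)

instance neZero_lvl (A : Finset ν) : NeZero (B.lvl A) := ⟨B.lvl_ne A⟩

omit hp [DecidableEq ι] in
/-- Distinct variables have distinct primes. -/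
lemma ell_inj {i j : ι} (h : B.ell i = B.ell j) : i = j :=
  B.pr_inj (Subtype.ext (Subtype.ext h))

omit hp [DecidableEq ι] in
/-- A site which is not raised does not divide the level. -/
lemma not_dvd_lvl [DecidableEq ν] {A : Finset ν} {v : ν} (h : v ∉ A) :
    ¬ B.ell (B.site v) ∣ B.lvl A := fun hd => by
  rcases (B.pr _).1.2.dvd_mul.mp hd with hd | hd
  · exact B.not_dvd v hd
  · obtain ⟨w, hw, hwd⟩ := (B.pr _).1.2.prime.exists_mem_finset_dvd hd
    exact h (B.site.injective (B.ell_inj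
      ((Nat.prime_dvd_prime_iff_eq (B.pr _).1.2 (B.pr _).1.2).mp hwd)) ▸ hw)

/-- The system of values with sites raised. -/
def aAt (A : Finset ν) : ι → 𝒪 := (A.map B.site).piecewise (Function.extend B.site B.sgn B.a₀) B.a₀

section

omit hp

/-- At a raised site the value is the sign. -/
lemma aAt_site {A : Finset ν} {v : ν} (h : v ∈ A) : B.aAt A (B.site v) = B.sgn v := by
  rw [aAt, Finset.piecewise_eq_of_mem _ _ _ (Finset.mem_map_of_mem _ h),
    B.site.injective.extend_apply]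

/-- Raising at one site updates the eigensystem there. -/
lemma aAt_insert_eq_update [DecidableEq ν] (A : Finset ν) (v : ν) :
    B.aAt (insert v A) = Function.update (B.aAt A) (B.site v) (B.sgn v) := by
  rw [aAt, aAt, Finset.map_insert, Finset.piecewise_insert, B.site.injective.extend_apply]

/-- Away from the raised sites the values are those of the base level. -/
lemma aAt_of_notMem {A : Finset ν} {i : ι} (h : i ∉ A.map B.site) : B.aAt A i = B.a₀ i :=
  Finset.piecewise_eq_of_notMem _ _ _ h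

/-- At primes outside the raised level the values are those of the base level. -/
lemma aAt_of_not_dvd {A : Finset ν} {i : ι} (h : ¬ B.ell i ∣ B.lvl A) : B.aAt A i = B.a₀ i :=
  B.aAt_of_notMem fun hi => by
    obtain ⟨v, hv, rfl⟩ := Finset.mem_map.mp hi
    exact h ((Finset.dvd_prod_of_mem _ hv).mul_left _)

end

/-- The module of the base level with sites raised. -/
abbrev Triv (A : Finset ν) : Type := TrivLoc (M := B.lvl A) B.pr (resIdeal (B.aAt A))

omit hp [DecidableEq ι] in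
/-- Every prime outside the exceptional set is the prime of some variable. -/
lemma good_univ (q : ℕ) (hq : q.Prime) (hqS : q ∉ B.Sbad) :
    ∃ i ∈ (Set.univ : Set ι), ((B.pr i).1.1 : ℕ) = q := by
  obtain ⟨i, hi⟩ := B.good q hq hqS
  exact ⟨i, Set.mem_univ i, hi⟩

/-- The residual traces at good primes are the system of values. -/
def ResTrace (rbar : MatRep (ResidueField 𝒪)) : Prop :=
  ∀ i, ¬ B.ell i ∣ B.M → B.ell i ≠ p → ∀ (P : ValuationSubring Qbar) (σ : GQ),
    P.LiesOverPrime (B.ell i) → P.IsFrobeniusAt σ (B.ell i) →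
      (rbar σ).trace = residue 𝒪 (B.a₀ i)

end RaiseBase

/-- Auxiliary primes with their diamond characters. -/
structure AuxPrimes (B : RaiseBase p 𝒪 ν ι L) [Fintype ν] {κ : Type} [Fintype κ] [DecidableEq κ]
    (m : κ → ℕ) [∀ i, NeZero (m i)] (N : ℕ) where
  /-- The diamond character. -/
  δ : (ZMod N)ˣ →* CycProd m
  /-- The auxiliary primes. -/
  Q : Finset ι
  /-- The chosen roots. -/
  α : ι → 𝒪
  /-- The other roots. -/
  β : ι → 𝒪
  surj : Function.Surjective δ
  neg : δ (-1) = 1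
  pow : ∀ i, ∃ k, m i = p ^ k
  disj : ∀ v, B.site v ∉ Q
  aux_not_dvd : ∀ i ∈ Q, ¬ B.ell i ∣ B.M
  N_dvd : N ∣ B.M * ∏ i ∈ Q, B.ell i
  roots : ∀ i ∈ Q, TWRoots (1 : (ZMod 1)ˣ →* 𝒪) (B.ell i) (B.a₀ i) (α i) (β i)
  witness : ∃ i, ((B.ell i : ℕ) :
      ZMod ((B.M * ∏ v, B.ell (B.site v)) * ∏ i ∈ Q, B.ell i)) = 1 ∧
    IsUnit (B.a₀ i - ((B.ell i : 𝒪) + 1))

namespace AuxPrimes

variable [Fintype ν] [DecidableEq ν] {B : RaiseBase p 𝒪 ν ι L} {κ : Type} [Fintype κ]
  [DecidableEq κ] {m : κ → ℕ} [∀ i, NeZero (m i)] {N : ℕ} (T : AuxPrimes B m N)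

/-- The level with auxiliary primes. -/
def lvlQ (A : Finset ν) : ℕ := B.lvl A * ∏ i ∈ T.Q, B.ell i

omit [DecidableEq ν] hp [DecidableEq ι] in
/-- The auxiliary level is nonzero. -/
lemma lvlQ_ne (A : Finset ν) : T.lvlQ A ≠ 0 :=
  mul_ne_zero (B.lvl_ne A) (Finset.prod_ne_zero_iff.mpr fun i _ => (B.pr i).1.2.ne_zero)

instance neZero_lvlQ (A : Finset ν) : NeZero (T.lvlQ A) := ⟨T.lvlQ_ne A⟩

section

omit hp [DecidableEq ι] [DecidableEq ν]

/-- The diamond level divides the auxiliary level. -/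
lemma dvd_lvlQ (A : Finset ν) : N ∣ T.lvlQ A :=
  T.N_dvd.trans (mul_dvd_mul_right (dvd_mul_right B.M _) _)

/-- The base level divides the auxiliary level. -/
lemma M_dvd_lvlQ (A : Finset ν) : B.M ∣ T.lvlQ A := (dvd_mul_right B.M _).trans (dvd_mul_right _ _)

/-- The raised base level divides the auxiliary level. -/
lemma lvl_dvd_lvlQ (A : Finset ν) : B.lvl A ∣ T.lvlQ A := dvd_mul_right _ _

end

omit hp [DecidableEq ι] in
/-- Raising at a new site multiplies the auxiliary level by its prime. -/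
lemma lvlQ_insert {A : Finset ν} {v : ν} (h : v ∉ A) :
    T.lvlQ (insert v A) = T.lvlQ A * B.ell (B.site v) := by
  simp only [lvlQ, RaiseBase.lvl, Finset.prod_insert h]
  ring

omit hp [DecidableEq ι] in
/-- A site which is not raised does not divide the auxiliary level. -/
lemma not_dvd_lvlQ {A : Finset ν} {v : ν} (h : v ∉ A) :
    ¬ B.ell (B.site v) ∣ T.lvlQ A := fun hd => by
  rcases (B.pr _).1.2.dvd_mul.mp hd with hd | hd
  · exact B.not_dvd_lvl h hd
  · obtain ⟨i, hi, hid⟩ := (B.pr _).1.2.prime.exists_mem_finset_dvd hd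
    exact T.disj v (B.ell_inj ((Nat.prime_dvd_prime_iff_eq (B.pr _).1.2 (B.pr _).1.2).mp hid) ▸ hi)

section

omit hp [DecidableEq ι] [DecidableEq ν]

/-- A prime outside the auxiliary level is prime to the diamond level. -/
lemma not_dvd_N {i : ι} {A : Finset ν} (h : ¬ B.ell i ∣ T.lvlQ A) : ¬ B.ell i ∣ N :=
  fun hd => h (hd.trans (T.dvd_lvlQ A))

/-- Auxiliary primes do not divide the raised base level. -/
lemma aux_not_dvd_lvl (A : Finset ν) {i : ι} (hi : i ∈ T.Q) : ¬ B.ell i ∣ B.lvl A := fun hd => by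
  rcases (B.pr i).1.2.dvd_mul.mp hd with hd | hd
  · exact T.aux_not_dvd i hi hd
  · obtain ⟨v, -, hvd⟩ := (B.pr i).1.2.prime.exists_mem_finset_dvd hd
    exact T.disj v (B.ell_inj ((Nat.prime_dvd_prime_iff_eq (B.pr _).1.2 (B.pr _).1.2).mp hvd) ▸ hi)

/-- A prime outside the auxiliary level is not auxiliary. -/
lemma notMem_of_not_dvd {i : ι} {A : Finset ν} (h : ¬ B.ell i ∣ T.lvlQ A) : i ∉ T.Q :=
  fun hi => h ((Finset.dvd_prod_of_mem _ hi).mul_left _)

end

/-- The system of values at an auxiliary level. -/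
def aQ (A : Finset ν) : ι → 𝒪 := T.Q.piecewise T.α (B.aAt A)

omit [DecidableEq ν] hp in
/-- Outside the auxiliary level the values are those of the base level. -/
lemma aQ_of_not_dvd {i : ι} {A : Finset ν} (h : ¬ B.ell i ∣ T.lvlQ A) : T.aQ A i = B.a₀ i := by
  rw [aQ, Finset.piecewise_eq_of_notMem _ _ _ (T.notMem_of_not_dvd h),
    B.aAt_of_not_dvd fun hd => h (hd.trans (T.lvl_dvd_lvlQ A))]

omit hp in
/-- Raising at a site updates the values there by the sign. -/
lemma aQ_insert {A : Finset ν} {v : ν} :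
    T.aQ (insert v A) = Function.update (T.aQ A) (B.site v) (B.sgn v) := by
  rw [aQ, aQ, B.aAt_insert_eq_update,
    Finset.update_piecewise_of_notMem _ _ _ (T.disj v)]

omit [DecidableEq ι] [DecidableEq ν] in
include T in
/-- The prime is odd. -/
lemma odd_card : Odd (Nat.card (CycProd m)) := by
  obtain ⟨k, hk⟩ := (IsPGroup.iff_card.mp (cycProd_isPGroup T.pow))
  rw [hk]
  refine (hp.out.odd_of_ne_two fun h2 => ?_).pow
  have h2m : (2 : 𝒪) ∈ maximalIdeal 𝒪 := by simpa [h2] using B.p_mem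
  exact (mem_maximalIdeal _).mp h2m B.two

variable [IsLocalRing (MonoidAlgebra 𝒪 (CycProd m))]

/-- The system of values in the group ring. -/
abbrev aS (A : Finset ν) : ι → MonoidAlgebra 𝒪 (CycProd m) := constS m (T.aQ A)

/-- The localised module of an auxiliary level. -/
abbrev Mod (A : Finset ν) : Type :=
  ThetaLoc (T.dvd_lvlQ A) (diamondChar 𝒪 T.δ) B.pr (resIdeal (T.aS A))
    (MonoidAlgebra 𝒪 (CycProd m))

omit [DecidableEq ι] [DecidableEq ν] in
include T in
/-- A group ring element is in the maximal ideal iff its augmentation is. -/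
lemma mem_maximalIdeal_iff {x : MonoidAlgebra 𝒪 (CycProd m)} :
    x ∈ maximalIdeal (MonoidAlgebra 𝒪 (CycProd m)) ↔
      GroupRing.aug 𝒪 (CycProd m) x ∈ maximalIdeal 𝒪 :=
  GroupRing.mem_maximalIdeal_iff (cycProd_isPGroup T.pow) B.p_mem

section

omit [DecidableEq ν]

/-- A prime congruent to one modulo the auxiliary level shows that the system is not Eisenstein. -/
lemma exists_witness (A : Finset ν) : ∃ i, ((B.ell i : ℕ) : ZMod (T.lvlQ A)) = 1 ∧
    (MvPolynomial.X i - C ((B.ell i : MonoidAlgebra 𝒪 (CycProd m)) + 1)) ∉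
      resIdeal (T.aS A) := by
  obtain ⟨i, hi, hu⟩ := T.witness
  have hd : T.lvlQ A ∣ (B.M * ∏ v, B.ell (B.site v)) * ∏ i ∈ T.Q, B.ell i :=
    mul_dvd_mul_right (mul_dvd_mul_left _ (Finset.prod_dvd_prod_of_subset _ _ _ A.subset_univ)) _
  have hi' : ((B.ell i : ℕ) : ZMod (T.lvlQ A)) = 1 := by
    have h1 := congrArg (ZMod.castHom hd (ZMod (T.lvlQ A))) hi
    rwa [map_natCast, map_one] at h1
  have hnd : ¬ B.ell i ∣ T.lvlQ A := fun h => by
    have h1 := congrArg (ZMod.castHom h (ZMod (B.ell i))) hi'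
    have : Fact (B.ell i).Prime := ⟨(B.pr i).1.2⟩
    rw [map_natCast, map_one, ZMod.natCast_self] at h1
    exact zero_ne_one h1
  refine ⟨i, hi', fun hm => ?_⟩
  rw [X_sub_C_mem_resIdeal, T.mem_maximalIdeal_iff, map_sub, map_add, map_natCast, map_one,
    AlgHom.commutes, Algebra.algebraMap_self, RingHom.id_apply, T.aQ_of_not_dvd hnd] at hm
  exact (mem_maximalIdeal _).mp hm hu

/-- The system of an auxiliary level is not Eisenstein. -/
lemma nonEis (A : Finset ν) :
    NonEis (T.dvd_lvlQ A) (diamondChar 𝒪 T.δ) B.pr (resIdeal (T.aS A)) := by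
  obtain ⟨i, hi, hne⟩ := T.exists_witness A
  refine ⟨?_, ?_, B.three.of_dvd (T.M_dvd_lvlQ A) (algebraMap 𝒪 _), i, fun hd => ?_, ?_, hne⟩
  · rw [diamondChar, MonoidHom.comp_apply, T.neg, map_one]
  · have h := B.two.map (algebraMap 𝒪 (MonoidAlgebra 𝒪 (CycProd m)))
    rwa [map_ofNat] at h
  · have h1 := congrArg (ZMod.castHom hd (ZMod (B.ell i))) hi
    have : Fact (B.ell i).Prime := ⟨(B.pr i).1.2⟩
    rw [map_natCast, map_one, ZMod.natCast_self] at h1
    exact zero_ne_one h1
  · have h1 := congrArg (ZMod.castHom (T.dvd_lvlQ A) (ZMod N)) hi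
    rwa [map_natCast, map_one] at h1

/-- The parabolic part is all of the localised module at the residual ideal of an auxiliary
level. -/
lemma hloc (A : Finset ν) : IsLocalizedModule (resIdeal (T.aS A)).primeCompl
    (parToLoc 𝒪 T.δ (T.dvd_lvlQ A) B.pr T.surj (resIdeal (T.aS A))) := by
  obtain ⟨i, hi, hne⟩ := T.exists_witness A
  exact isLocalizedModule_parToLoc T.surj _ T.neg i hi hne

end

end AuxPrimes

end Basic

variable {p : ℕ} [hp : Fact p.Prime] {𝒪 : Type} [CommRing 𝒪] [IsDomain 𝒪]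
  [IsDiscreteValuationRing 𝒪] [Algebra ℤ_[p] 𝒪] [CharZero 𝒪] {ν ι : Type} [DecidableEq ι] {L : ℕ}

/-- The residual facts used by the data. -/
structure ResidualFacts (B : RaiseBase p 𝒪 ν ι L) (D : DefProblem 𝒪) (half : 𝒪) : Prop where
  span : Submodule.span (ResidueField 𝒪) (Set.range D.rbar) = ⊤
  two_half : 2 * half = 1
  det : ∀ g, (D.rbar g).det = residue 𝒪 (algebraMap ℤ_[p] 𝒪 (ES.padCyclo p g))
  trace : B.ResTrace D.rbar

namespace AuxPrimes

variable [Fintype ν] [DecidableEq ν] {B : RaiseBase p 𝒪 ν ι L} {κ : Type} [Fintype κ]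
  [DecidableEq κ] {m : κ → ℕ} [∀ i, NeZero (m i)] {N : ℕ} [NeZero N] (T : AuxPrimes B m N)
  [IsLocalRing (MonoidAlgebra 𝒪 (CycProd m))] {D : DefProblem 𝒪} {half : 𝒪}

/-- The diamond datum of an auxiliary level in a given basis. -/
def datum (hD : ResidualFacts B D half) (A : Finset ν) {s : ℕ}
    (b : Module.Basis (Fin s) (MonoidAlgebra 𝒪 (CycProd m)) (T.Mod A)) (hs : 0 < s) :
    DiamondDatum D m p s :=
  moduleDatum p T.surj T.neg Set.univ (T.aS A) B.p_mem (T.hloc A) B.Sbad B.good_univ b T.pow hs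
    T.odd_card D hD.span half hD.two_half hD.det fun i hiM hip P σ hP hσ => by
      rw [hD.trace i.1 (fun h => hiM (h.trans (T.M_dvd_lvlQ A))) hip P σ hP hσ, resAug_apply,
        AlgHom.commutes, T.aQ_of_not_dvd hiM]
      rfl

end AuxPrimes

end FermatAgent.RT.Ladder
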