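import Mathlib
import Fermat.Agent.HM.H1.DegeneracySubst
import Fermat.Agent.HM.H1.QuadRoot

/-!
# Degeneracy maps between localised modules at a site of level raising

At a prime `q` whose residual Frobenius roots are distinct, restriction gives a map from the
localisation at level `L` to the part of level `L q` where `U_q` has the chosen residual root `α`,
and `t cor W - θ(q) cor` gives a map back; their composite is `t² - θ(q)` for the root `t`.
-/

set_option autoImplicit false

noncomputable section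

open scoped MatrixGroups
open CongruenceSubgroup MvPolynomial IsLocalRing
open FermatAgent.HM FermatAgent.HM.ALData

namespace FermatAgent.RT.Ladder

variable {N L : ℕ} {R : Type} [CommRing R] {ι : Type}

/-- Residual data at a site: distinct roots, one of which is chosen. -/
structure PairRoots [IsLocalRing R] (D : ALData) (θ : (ZMod N)ˣ →* R) (hN : N ∣ D.L)
    (pr : ι → HPrime L) (𝔪 𝔫 : Ideal (HPoly R ι)) (α β : R) : Prop where
  ne_q : ∀ i, ((pr i).1.1 : ℕ) ≠ D.q
  prod_eq : α * β = (D.q : R) * D.thetaQ θ hN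
  unit_alpha : IsUnit α
  distinct : IsUnit (α - β)
  low : MvPolynomial.X none - C (α + β) ∈ 𝔪
  high : MvPolynomial.X none - C α ∈ 𝔫
  others : ∀ p : MvPolynomial ι R, rename some p ∈ 𝔪 ↔ rename some p ∈ 𝔫
  maximal_low : ∀ r ∈ maximalIdeal R, C r ∈ 𝔪
  maximal_high : ∀ r ∈ maximalIdeal R, C r ∈ 𝔫

variable [IsLocalRing R] [IsNoetherianRing R] [IsAdicComplete (maximalIdeal R) R]
variable (D : ALData) [NeZero D.L] {θ : (ZMod N)ˣ →* R} {hN : N ∣ D.L} {hqL : D.q.Coprime L}
variable {pr : ι → HPrime L} {𝔪 𝔫 : Ideal (HPoly R ι)} [𝔪.IsMaximal] [𝔫.IsMaximal] {α β : R}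
variable {X : Type} [AddCommGroup X] [Module R X] [Module.Finite R X]

variable (hqL) in
/-- The localisation at the lower level. -/
abbrev LowLoc (θ : (ZMod N)ˣ →* R) (hN : N ∣ D.L) (pr : ι → HPrime L) (𝔪 : Ideal (HPoly R ι))
    [𝔪.IsMaximal] (X : Type) [AddCommGroup X] [Module R X] : Type :=
  LocalizedModule 𝔪.primeCompl (D.LowMod hN hqL pr θ X)

variable (hqL) in
/-- The localisation at the upper level. -/
abbrev HighLoc (θ : (ZMod N)ˣ →* R) (hN : N ∣ D.L) (pr : ι → HPrime L) (𝔫 : Ideal (HPoly R ι))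
    [𝔫.IsMaximal] (X : Type) [AddCommGroup X] [Module R X] : Type :=
  LocalizedModule 𝔫.primeCompl (D.HighMod hN hqL pr θ X)

variable (hqL) in
/-- An element acting as the chosen root. -/
def IsSiteRoot (θ : (ZMod N)ˣ →* R) (hN : N ∣ D.L) (pr : ι → HPrime L) (𝔪 : Ideal (HPoly R ι))
    [𝔪.IsMaximal] (α : R) (X : Type) [AddCommGroup X] [Module R X] (t : HPoly R ι) : Prop :=
  t - C α ∈ 𝔪 ∧ ∀ x : LowLoc D hqL θ hN pr 𝔪 X,
    (t ^ 2 - MvPolynomial.X none * t + C ((D.q : R) * D.thetaQ θ hN)) • x = 0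

omit [IsLocalRing R] [IsAdicComplete (maximalIdeal R) R] in
/-- The module of the lower level is finite over the coefficients. -/
lemma moduleFinite_lowMod : Module.Finite R (D.LowMod hN hqL pr θ X) :=
  H1.module_finite (resRep (actsIn_gamma0 (L := L) hN) (thetaRep θ X))

omit [IsLocalRing R] [IsAdicComplete (maximalIdeal R) R] [NeZero D.L] in
lemma moduleFinite_highMod : Module.Finite R (D.HighMod hN hqL pr θ X) :=
  haveI : NeZero D.N := ⟨mul_ne_zero D.L_ne_zero D.prime.ne_zero⟩
  H1.module_finite (resRep (actsIn_gamma0 (L := L) (D.dvd_N hN)) (thetaRep θ X))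

/-- Every element of the localisation at the lower level has denominator one. -/
lemma lowLoc_surjective (x : LowLoc D hqL θ hN pr 𝔪 X) :
    ∃ a, LocalizedModule.mk a 1 = x :=
  haveI := moduleFinite_lowMod D (hqL := hqL) (θ := θ) (hN := hN) (pr := pr) (X := X)
  localizedModule_mk_surjective (R := R) 𝔪 x

omit [NeZero D.L] in
/-- Every element of the localisation at the upper level has denominator one. -/
lemma highLoc_surjective (x : HighLoc D hqL θ hN pr 𝔫 X) :
    ∃ c, LocalizedModule.mk c 1 = x :=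
  haveI := moduleFinite_highMod D (hqL := hqL) (θ := θ) (hN := hN) (pr := pr) (X := X)
  localizedModule_mk_surjective (R := R) 𝔫 x

omit [IsLocalRing R] [IsNoetherianRing R] [IsAdicComplete (maximalIdeal R) R] in
/-- An element outside the ideal acts bijectively on the localisation. -/
lemma bijective_of_notMem {J : Ideal (HPoly R ι)} [J.IsMaximal] {H : Type} [AddCommGroup H]
    [Module (HPoly R ι) H] {s : HPoly R ι} (hs : s ∉ J) :
    Function.Bijective fun z : LocalizedModule J.primeCompl H => s • z :=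
  (Module.End.isUnit_iff _).mp (IsLocalizedModule.map_units
    (LocalizedModule.mkLinearMap J.primeCompl H) (⟨s, hs⟩ : J.primeCompl))

variable {D}
variable (h : PairRoots D θ hN pr 𝔪 𝔫 α β)
include h

omit [𝔫.IsMaximal] in
/-- The root exists. -/
theorem exists_siteRoot : ∃ t, IsSiteRoot D hqL θ hN pr 𝔪 α X t := by
  have := moduleFinite_lowMod D (hqL := hqL) (θ := θ) (hN := hN) (pr := pr) (X := X)
  have : Module.Finite R (LowLoc D hqL θ hN pr 𝔪 X) := Module.Finite.of_surjective
    ((LocalizedModule.mkLinearMap 𝔪.primeCompl (D.LowMod hN hqL pr θ X)).restrictScalars R)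
    (localizedModule_mk_surjective (R := R) 𝔪)
  obtain ⟨t, ht, hroot⟩ := exists_quad_root (R := R) (Z := LowLoc D hqL θ hN pr 𝔪 X) 𝔪
    (fun r hr => h.maximal_low r hr) (fun _ hs => bijective_of_notMem hs) (MvPolynomial.X none)
    (C ((D.q : R) * D.thetaQ θ hN)) (C α) (by
      have e : (C α : HPoly R ι) ^ 2 - MvPolynomial.X none * C α +
          C ((D.q : R) * D.thetaQ θ hN) = -(C α * (MvPolynomial.X none - C (α + β))) := by
        rw [← h.prod_eq, map_mul]; simp only [map_add]; ring
      rw [e]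
      exact neg_mem (𝔪.mul_mem_left _ h.low))
    (fun hmem => C_not_mem (J := 𝔪) h.distinct (by
      have h5 := 𝔪.add_mem hmem h.low
      convert h5 using 1
      simp only [map_sub, map_add]; ring))
  exact ⟨t, ht, hroot⟩

variable {t : HPoly R ι}

omit [IsNoetherianRing R] [IsAdicComplete (maximalIdeal R) R] [NeZero D.L] [𝔫.IsMaximal] in
lemma root_notMem (ht : t - C α ∈ 𝔪) : t ∉ 𝔪 := fun h1 =>
  C_not_mem (J := 𝔪) h.unit_alpha (by simpa using 𝔪.sub_mem h1 ht)

omit [IsNoetherianRing R] [IsAdicComplete (maximalIdeal R) R] [NeZero D.L] [𝔪.IsMaximal]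
    [𝔫.IsMaximal] in
lemma mem_high_iff_subst (ht : t - C α ∈ 𝔪) (p : HPoly R ι) : p ∈ 𝔫 ↔ subst t p ∈ 𝔪 := by
  have h1 : p ∈ 𝔫 ↔ subst (C α) p ∈ 𝔫 :=
    ⟨fun hp => by simpa using 𝔫.sub_mem hp (sub_subst_mem 𝔫 h.high p),
      fun hp => by simpa using 𝔫.add_mem (sub_subst_mem 𝔫 h.high p) hp⟩
  obtain ⟨p₀, hp₀⟩ := exists_rename_eq_subst α p
  rw [h1, hp₀, ← h.others p₀, ← hp₀]
  have e : subst t p - subst (C α) p ∈ 𝔪 := by
    have he : (Ideal.Quotient.mkₐ R 𝔪).comp (subst t) =
        (Ideal.Quotient.mkₐ R 𝔪).comp (subst (C α)) := by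
      refine MvPolynomial.algHom_ext fun o => ?_
      rcases o with _ | i
      · simp only [AlgHom.comp_apply, subst_none]
        exact Ideal.Quotient.eq.mpr ht
      · simp [AlgHom.comp_apply, subst_some]
    exact Ideal.Quotient.eq.mp (AlgHom.congr_fun he p)
  exact ⟨fun hp => by simpa using 𝔪.add_mem e hp, fun hp => by simpa using 𝔪.sub_mem hp e⟩

section Up

omit [IsNoetherianRing R] [IsAdicComplete (maximalIdeal R) R] [NeZero D.L] [𝔪.IsMaximal] in
/-- The variable of `q` acts on the upper level through a unit `u` and on the lower one through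
`u + qθ u⁻¹`; elements outside the lower ideal become units. -/
private lemma exists_localHom :
    ∃ (u : (Localization.AtPrime 𝔫)ˣ) (ψ : HPoly R ι →ₐ[R] Localization.AtPrime 𝔫),
      (u : Localization.AtPrime 𝔫) = algebraMap _ _ (MvPolynomial.X none : HPoly R ι) ∧
      ψ (MvPolynomial.X none) = u + algebraMap R _ ((D.q : R) * D.thetaQ θ hN) * ↑u⁻¹ ∧
      (∀ i, ψ (MvPolynomial.X (some i)) = algebraMap _ _ (MvPolynomial.X (some i) : HPoly R ι)) ∧
      (∀ p, ψ p - algebraMap _ _ (subst (C (α + β)) p) ∈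
        maximalIdeal (Localization.AtPrime 𝔫)) ∧
      ∀ s, s ∉ 𝔪 → IsUnit (ψ s) := by
  classical
  let A' := Localization.AtPrime 𝔫
  let aP : HPoly R ι →ₐ[R] A' := IsScalarTower.toAlgHom R (HPoly R ι) A'
  have hX : (MvPolynomial.X none : HPoly R ι) ∉ 𝔫 := fun hX =>
    C_not_mem (J := 𝔫) h.unit_alpha (by simpa using 𝔫.sub_mem hX h.high)
  obtain ⟨u, hu⟩ : IsUnit (aP (MvPolynomial.X none)) :=
    IsLocalization.map_units A' (⟨_, hX⟩ : 𝔫.primeCompl)
  let qθ : R := (D.q : R) * D.thetaQ θ hN
  let Θ : A' := u + algebraMap R A' qθ * ↑u⁻¹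
  let ψ : HPoly R ι →ₐ[R] A' := aeval fun o => o.elim Θ fun i => aP (MvPolynomial.X (some i))
  have hmax : ∀ p : HPoly R ι, aP p ∈ maximalIdeal A' ↔ p ∈ 𝔫 :=
    fun p => IsLocalization.AtPrime.to_map_mem_maximal_iff A' 𝔫 p
  have hαR : ∀ r : R, aP (C r) = algebraMap R A' r := fun r => aP.commutes r
  have hu1 : (u : A') - aP (C α) ∈ maximalIdeal A' := by
    rw [hu, ← map_sub, hmax]; exact h.high
  have hΘ : Θ - aP (C (α + β)) ∈ maximalIdeal A' := by
    have h2 : (Θ - aP (C (α + β))) * u =
        ((u : A') - aP (C α)) * ((u : A') - aP (C β)) := by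
      have hq : algebraMap R A' qθ = aP (C α) * aP (C β) := by
        rw [← map_mul, ← map_mul, h.prod_eq, hαR]
      simp only [Θ, sub_mul, add_mul, mul_assoc, Units.inv_mul, mul_one, map_add, hq]
      ring
    have h3 : (Θ - aP (C (α + β))) * u ∈ maximalIdeal A' := by
      rw [h2]; exact Ideal.mul_mem_right _ _ hu1
    exact (Ideal.mul_unit_mem_iff_mem _ u.isUnit).mp h3
  have hψres : ∀ p : HPoly R ι, ψ p - aP (subst (C (α + β)) p) ∈ maximalIdeal A' := by
    intro p
    have he : (Ideal.Quotient.mkₐ R (maximalIdeal A')).comp ψ =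
        (Ideal.Quotient.mkₐ R (maximalIdeal A')).comp (aP.comp (subst (C (α + β)))) := by
      refine MvPolynomial.algHom_ext fun o => ?_
      rcases o with _ | i
      · simp only [AlgHom.comp_apply, subst_none, ψ, aeval_X]
        exact Ideal.Quotient.eq.mpr hΘ
      · simp [AlgHom.comp_apply, subst_some, ψ]
    exact Ideal.Quotient.eq.mp (AlgHom.congr_fun he p)
  refine ⟨u, ψ, hu, by simp only [ψ, aeval_X, Option.elim_none]; rfl,
    fun i => by simp only [ψ, aeval_X, Option.elim_some]; rfl, hψres, fun s hs => ?_⟩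
  by_contra hc
  refine hs ?_
  have h1 : subst (C (α + β)) s ∈ 𝔫 := (hmax _).mp (by simpa using sub_mem hc (hψres s))
  obtain ⟨p₀, hp₀⟩ := exists_rename_eq_subst (α + β) s
  rw [hp₀, ← h.others p₀, ← hp₀] at h1
  simpa using 𝔪.add_mem (sub_subst_mem 𝔪 h.low s) h1

variable {u : (Localization.AtPrime 𝔫)ˣ} {ψ : HPoly R ι →ₐ[R] Localization.AtPrime 𝔫}
  (hu : (u : Localization.AtPrime 𝔫) = algebraMap _ _ (MvPolynomial.X none : HPoly R ι))
  (hψ : ψ (MvPolynomial.X none) = u + algebraMap R _ ((D.q : R) * D.thetaQ θ hN) * ↑u⁻¹)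

include hu hψ in
omit [IsNoetherianRing R] [IsAdicComplete (maximalIdeal R) R] [NeZero D.L] [𝔪.IsMaximal]
  [Module.Finite R X] in
/-- Restriction intertwines the two actions. -/
private lemma resMod_smul_local
    (hψs : ∀ i, ψ (MvPolynomial.X (some i)) =
      algebraMap _ _ (MvPolynomial.X (some i) : HPoly R ι))
    (p : HPoly R ι) : ∀ a : D.LowMod hN hqL pr θ X,
      LocalizedModule.mkLinearMap 𝔫.primeCompl _ (D.resMod θ hN hqL pr (p • a)) =
        ψ p • LocalizedModule.mkLinearMap 𝔫.primeCompl _ (D.resMod θ hN hqL pr a) := by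
  let H' := D.HighMod hN hqL pr θ X
  let A' := Localization.AtPrime 𝔫
  have hmk : ∀ (p : HPoly R ι) (c : H'), LocalizedModule.mkLinearMap 𝔫.primeCompl H' (p • c) =
      algebraMap _ A' p • LocalizedModule.mkLinearMap 𝔫.primeCompl H' c := fun p c => by
    rw [map_smul, algebraMap_smul]
  have hmkR : ∀ (r : R) (c : H'), LocalizedModule.mkLinearMap 𝔫.primeCompl H' (r • c) =
      r • LocalizedModule.mkLinearMap 𝔫.primeCompl H' c := fun r c =>
    ((LocalizedModule.mkLinearMap 𝔫.primeCompl H').restrictScalars R).map_smul r c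
  induction p using MvPolynomial.induction_on with
  | C r =>
    intro a
    rw [C_smul_eq, map_smul, hmkR, show ψ (C r) = algebraMap R A' r from ψ.commutes r,
      algebraMap_smul]
  | add p p' hp hp' =>
    intro a
    rw [add_smul, map_add, map_add, hp, hp', map_add, add_smul]
  | mul_X p o hp =>
    intro a
    rw [mul_smul, hp, map_mul, mul_smul]
    congr 1
    rcases o with _ | i
    · rw [hψ]
      refine (smul_left_cancel u ?_)
      rw [Units.smul_def, Units.smul_def, ← mul_smul, mul_add, mul_left_comm, Units.mul_inv,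
        mul_one, add_smul, algebraMap_smul, hu, mul_smul, ← hmk, ← hmk, ← hmk, ← hmkR, ← map_add]
      congr 1
      have e1 := D.X_none_res (θ := θ) (hN := hN) (hqL := hqL) (pr := pr) a
      have e2 := D.X_none_deg (θ := θ) (hN := hN) (hqL := hqL) (pr := pr) a
      conv_rhs => rw [e1, smul_sub, e2]
      rw [sub_add_cancel]
    · rw [hψs, D.resMod_X_some h.ne_q, hmk]

include hu in
omit [IsNoetherianRing R] [IsAdicComplete (maximalIdeal R) R] [NeZero D.L] [𝔪.IsMaximal] in
/-- The other root of the quadratic at the root is a unit. -/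
private lemma isUnit_cofactor
    (hψres : ∀ p, ψ p - algebraMap _ _ (subst (C (α + β)) p) ∈
      maximalIdeal (Localization.AtPrime 𝔫))
    {t : HPoly R ι} (ht : t - C α ∈ 𝔪) : IsUnit (ψ t + u - ψ (MvPolynomial.X none)) := by
  let A' := Localization.AtPrime 𝔫
  let aP : HPoly R ι →ₐ[R] A' := IsScalarTower.toAlgHom R (HPoly R ι) A'
  have hmax : ∀ p : HPoly R ι, aP p ∈ maximalIdeal A' ↔ p ∈ 𝔫 :=
    fun p => IsLocalization.AtPrime.to_map_mem_maximal_iff A' 𝔫 p
  have hαR : ∀ r : R, aP (C r) = algebraMap R A' r := fun r => aP.commutes r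
  by_contra hc
  have h1 : ψ t - aP (C α) ∈ maximalIdeal A' := by
    have e : ψ (t - C α) - aP (subst (C (α + β)) (t - C α)) ∈ maximalIdeal A' := hψres _
    have e2 : subst (C (α + β)) (t - C α) ∈ 𝔫 := by
      obtain ⟨p₀, hp₀⟩ := exists_rename_eq_subst (α + β) (t - C α)
      rw [hp₀, ← h.others p₀, ← hp₀]
      have h7 := 𝔪.sub_mem ht (sub_subst_mem 𝔪 h.low (t - C α))
      rwa [sub_sub_cancel] at h7
    have h6 : ψ (t - C α) ∈ maximalIdeal A' := by simpa using add_mem e ((hmax _).mpr e2)
    rwa [map_sub, show ψ (C α) = algebraMap R A' α from ψ.commutes α, ← hαR] at h6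
  have hu1 : (u : A') - aP (C α) ∈ maximalIdeal A' := by
    rw [hu, show algebraMap _ A' (MvPolynomial.X none : HPoly R ι) = aP (MvPolynomial.X none) from
      rfl, ← map_sub, hmax]
    exact h.high
  have hΘ : ψ (MvPolynomial.X none) - aP (C (α + β)) ∈ maximalIdeal A' := by
    have := hψres (MvPolynomial.X none)
    rwa [subst_none] at this
  have h4 : aP (C (α - β)) ∈ maximalIdeal A' := by
    have h5 := sub_mem (add_mem hΘ hc) (add_mem h1 hu1)
    convert h5 using 1
    simp only [map_sub, map_add]; ring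
  exact C_not_mem (J := 𝔫) h.distinct ((hmax _).mp h4)

/-- **The map up.** -/
theorem exists_siteUp (ht : IsSiteRoot D hqL θ hN pr 𝔪 α X t) :
    ∃ f : LowLoc D hqL θ hN pr 𝔪 X →ₗ[R] HighLoc D hqL θ hN pr 𝔫 X,
      (∀ a, f (LocalizedModule.mk a 1) = LocalizedModule.mk (D.resMod θ hN hqL pr a) 1) ∧
      ∀ p x, p • f x = f (subst t p • x) := by
  classical
  let H := D.LowMod hN hqL pr θ X
  let H' := D.HighMod hN hqL pr θ X
  let A' := Localization.AtPrime 𝔫
  obtain ⟨u, ψ, hu, hψ, hψs, hψres, hψunit⟩ := exists_localHom (hN := hN) h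
  have hψR : ∀ r : R, ψ (C r) = algebraMap R A' r := fun r => ψ.commutes r
  let res'' : H →ₗ[R] LocalizedModule 𝔫.primeCompl H' :=
    ((LocalizedModule.mkLinearMap 𝔫.primeCompl H').restrictScalars R).comp
      (D.resMod θ hN hqL pr)
  have hsm : ∀ (p : HPoly R ι) (z : LocalizedModule 𝔫.primeCompl H'),
      algebraMap _ A' p • z = p • z := fun p z => algebraMap_smul A' p z
  have hres : ∀ (p : HPoly R ι) (a : H), res'' (p • a) = ψ p • res'' a :=
    resMod_smul_local h hu hψ hψs
  -- descent to the localisation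
  let mkR : H →ₗ[R] LocalizedModule 𝔪.primeCompl H :=
    (LocalizedModule.mkLinearMap 𝔪.primeCompl H).restrictScalars R
  have hker : LinearMap.ker mkR ≤ LinearMap.ker res'' := fun a ha => by
    obtain ⟨⟨s, hs⟩, hsa⟩ := (IsLocalizedModule.eq_zero_iff 𝔪.primeCompl
      (LocalizedModule.mkLinearMap 𝔪.primeCompl H)).mp ha
    have h1 := congrArg res'' hsa
    rw [Submonoid.smul_def, hres, map_zero] at h1
    exact (hψunit s hs).smul_eq_zero.mp h1
  have hsurj : Function.Surjective mkR := fun x => lowLoc_surjective D x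
  let f : LocalizedModule 𝔪.primeCompl H →ₗ[R] LocalizedModule 𝔫.primeCompl H' :=
    (Submodule.liftQ _ res'' hker).comp (mkR.quotKerEquivOfSurjective hsurj).symm.toLinearMap
  have hf : ∀ a, f (mkR a) = res'' a := fun a => by
    simp [f, mkR.quotKerEquivOfSurjective_symm_apply]
  have hfsm : ∀ (p : HPoly R ι) x, f (p • x) = ψ p • f x := fun p x => by
    obtain ⟨a, rfl⟩ := hsurj x
    rw [hf, show p • mkR a = mkR (p • a) from
      ((LocalizedModule.mkLinearMap 𝔪.primeCompl H).map_smul p a).symm, hf, hres]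
  -- the root acts as `U`
  have htu : ∀ x, ψ t • f x = (u : A') • f x := by
    intro x
    set Θ := ψ (MvPolynomial.X none)
    set qθ := (D.q : R) * D.thetaQ θ hN
    have h0 : (ψ t ^ 2 - Θ * ψ t + algebraMap R A' qθ) • f x = 0 := by
      have h1 := congrArg f (ht.2 x)
      rw [hfsm, map_zero, map_add ψ, map_sub ψ, map_pow ψ, map_mul ψ, hψR] at h1
      exact h1
    have hfac : (ψ t ^ 2 - Θ * ψ t + algebraMap R A' qθ) =
        (ψ t + u - Θ) * (ψ t - u) := by
      have : algebraMap R A' qθ = (Θ - u) * u := by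
        simp only [hψ, add_sub_cancel_left, mul_assoc, Units.inv_mul, mul_one]
        rfl
      rw [this]; ring
    rw [hfac, mul_smul, (isUnit_cofactor h hu hψres ht.1).smul_eq_zero, sub_smul,
      sub_eq_zero] at h0
    exact h0
  refine ⟨f, hf, fun p => ?_⟩
  induction p using MvPolynomial.induction_on with
  | C r =>
    intro x
    rw [show subst t (C r) = C r by simp [subst], hfsm, hψR, algebraMap_smul,
      ← MvPolynomial.algebraMap_eq, algebraMap_smul]
  | add p p' hp hp' => intro x; rw [map_add, add_smul, add_smul, hp, hp', map_add]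
  | mul_X p o hp =>
    intro x
    rw [map_mul, mul_smul, mul_smul, ← hp]
    congr 1
    rcases o with _ | i
    · rw [subst_none, hfsm, htu, hu, hsm]
    · rw [subst_some, hfsm, ← hsm, hψs]

end Up

omit [NeZero D.L] in
/-- **The map down.** -/
theorem exists_siteDown (ht : IsSiteRoot D hqL θ hN pr 𝔪 α X t) :
    ∃ g : HighLoc D hqL θ hN pr 𝔫 X →ₗ[R] LowLoc D hqL θ hN pr 𝔪 X,
      (∀ c, g (LocalizedModule.mk c 1) = t • LocalizedModule.mk (D.cwMod θ hN hqL pr c) 1 -
        D.thetaQ θ hN • LocalizedModule.mk (D.corMod θ hN hqL pr c) 1) ∧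
      ∀ p y, g (p • y) = subst t p • g y := by
  classical
  let H := D.LowMod hN hqL pr θ X
  let H' := D.HighMod hN hqL pr θ X
  let qθ : R := (D.q : R) * D.thetaQ θ hN
  let Ψ : H' →ₗ[R] LocalizedModule 𝔪.primeCompl H :=
    ((DistribSMul.toLinearMap R _ t).comp
      (((LocalizedModule.mkLinearMap 𝔪.primeCompl H).restrictScalars R).comp
        (D.cwMod θ hN hqL pr))) -
      D.thetaQ θ hN • (((LocalizedModule.mkLinearMap 𝔪.primeCompl H).restrictScalars R).comp
        (D.corMod θ hN hqL pr))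
  have hΨ : ∀ c, Ψ c = t • LocalizedModule.mkLinearMap 𝔪.primeCompl H (D.cwMod θ hN hqL pr c) -
      D.thetaQ θ hN • LocalizedModule.mkLinearMap 𝔪.primeCompl H (D.corMod θ hN hqL pr c) :=
    fun c => rfl
  have hΨsm : ∀ (p : HPoly R ι) (c : H'), Ψ (p • c) = subst t p • Ψ c := by
    intro p
    induction p using MvPolynomial.induction_on with
    | C r =>
      intro c
      rw [show subst t (C r) = C r by simp [subst], C_smul_eq, map_smul,
        ← MvPolynomial.algebraMap_eq, algebraMap_smul]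
    | add p p' hp hp' => intro c; rw [add_smul, map_add, hp, hp', map_add, add_smul]
    | mul_X p o hp =>
      intro c
      rw [mul_smul, hp, map_mul, mul_smul]
      congr 1
      rcases o with _ | i
      · rw [subst_none, hΨ, hΨ, D.cwMod_X_none, D.corMod_X_none, map_sub, map_smul,
          LinearMap.map_smul_of_tower, LinearMap.map_smul_of_tower, smul_sub, smul_sub, ← mul_smul,
          ← mul_smul, smul_comm t (D.thetaQ θ hN)]
        have hr := ht.2 (LocalizedModule.mkLinearMap 𝔪.primeCompl H (D.cwMod θ hN hqL pr c))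
        rw [add_smul, sub_smul, ← MvPolynomial.algebraMap_eq, algebraMap_smul, mul_comm
          (MvPolynomial.X none) t, pow_two] at hr
        rw [mul_comm (D.thetaQ θ hN) (D.q : R)]
        linear_combination (norm := module) -hr
      · rw [subst_some, hΨ, hΨ, D.cwMod_X_some h.ne_q, D.corMod_X_some h.ne_q, map_smul, map_smul,
          smul_sub, smul_comm t, smul_comm (D.thetaQ θ hN)]
  let mkR : H' →ₗ[R] LocalizedModule 𝔫.primeCompl H' :=
    (LocalizedModule.mkLinearMap 𝔫.primeCompl H').restrictScalars R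
  have hker : LinearMap.ker mkR ≤ LinearMap.ker Ψ := fun c hc => by
    obtain ⟨⟨s, hs⟩, hsc⟩ := (IsLocalizedModule.eq_zero_iff 𝔫.primeCompl
      (LocalizedModule.mkLinearMap 𝔫.primeCompl H')).mp hc
    have h1 := congrArg Ψ hsc
    rw [Submonoid.smul_def, hΨsm, map_zero] at h1
    exact (bijective_of_notMem (fun hm => hs ((mem_high_iff_subst h ht.1 s).mpr hm))).1
      (h1.trans (smul_zero _).symm)
  have hsurj : Function.Surjective mkR := fun x => highLoc_surjective D x
  let g : LocalizedModule 𝔫.primeCompl H' →ₗ[R] LocalizedModule 𝔪.primeCompl H :=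
    (Submodule.liftQ _ Ψ hker).comp (mkR.quotKerEquivOfSurjective hsurj).symm.toLinearMap
  have hg : ∀ c, g (mkR c) = Ψ c := fun c => by
    simp [g, mkR.quotKerEquivOfSurjective_symm_apply]
  refine ⟨g, hg, fun p y => ?_⟩
  obtain ⟨c, rfl⟩ := hsurj y
  rw [hg, show p • mkR c = mkR (p • c) from
    ((LocalizedModule.mkLinearMap 𝔫.primeCompl H').map_smul p c).symm, hg, hΨsm]

variable {f : LowLoc D hqL θ hN pr 𝔪 X →ₗ[R] HighLoc D hqL θ hN pr 𝔫 X}
  (hf : ∀ a, f (LocalizedModule.mk a 1) = LocalizedModule.mk (D.resMod θ hN hqL pr a) 1)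
  {g : HighLoc D hqL θ hN pr 𝔫 X →ₗ[R] LowLoc D hqL θ hN pr 𝔪 X}
  (hg : ∀ c, g (LocalizedModule.mk c 1) = t • LocalizedModule.mk (D.cwMod θ hN hqL pr c) 1 -
    D.thetaQ θ hN • LocalizedModule.mk (D.corMod θ hN hqL pr c) 1)

omit h in
include hf hg in
/-- **The composite.** -/
theorem siteDown_siteUp (ht : IsSiteRoot D hqL θ hN pr 𝔪 α X t) (x : LowLoc D hqL θ hN pr 𝔪 X) :
    g (f x) = (t ^ 2 - C (D.thetaQ θ hN)) • x := by
  obtain ⟨a, rfl⟩ := lowLoc_surjective D x
  rw [hf, hg, D.cwMod_res, D.corMod_res]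
  set mkL := LocalizedModule.mkLinearMap 𝔪.primeCompl (D.LowMod hN hqL pr θ X)
  have hmk : ∀ a, LocalizedModule.mk a 1 = mkL a := fun _ => rfl
  have hr := ht.2 (mkL a)
  simp only [hmk, map_smul, LinearMap.map_smul_of_tower]
  rw [add_smul, sub_smul, ← MvPolynomial.algebraMap_eq, algebraMap_smul, mul_comm
    (MvPolynomial.X none) t] at hr
  rw [sub_smul, ← MvPolynomial.algebraMap_eq, algebraMap_smul, ← mul_smul, ← mul_smul, mul_add,
    mul_one, add_smul, mul_comm (D.thetaQ θ hN)]
  linear_combination (norm := module) -hr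

include hf hg in
omit h [NeZero D.L] in
/-- **The composite the other way.** -/
theorem siteUp_siteDown (hfsm : ∀ p x, p • f x = f (subst t p • x))
    (y : HighLoc D hqL θ hN pr 𝔫 X) :
    f (g y) = ((MvPolynomial.X none : HPoly R ι) ^ 2 - C (D.thetaQ θ hN)) • y := by
  obtain ⟨c, rfl⟩ := highLoc_surjective D y
  set mkH := LocalizedModule.mkLinearMap 𝔫.primeCompl (D.HighMod hN hqL pr θ X)
  have hR : ∀ (r : R) (z : D.HighMod hN hqL pr θ X), mkH (r • z) = r • mkH z := fun r z =>
    (mkH.restrictScalars R).map_smul r z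
  have e : (Xq R ι) • (Xq R ι) • c =
      (Xq R ι) • D.resMod θ hN hqL pr (D.cwMod θ hN hqL pr c) -
        D.thetaQ θ hN • (D.resMod θ hN hqL pr (D.corMod θ hN hqL pr c) - c) := by
    conv_lhs => rw [D.X_none_eq c, smul_sub, D.X_none_wMod]
  have e' := congrArg mkH e
  simp only [map_smul, map_sub, hR] at e'
  have ht' : f (t • LocalizedModule.mk (D.cwMod θ hN hqL pr c) 1) =
      (MvPolynomial.X none : HPoly R ι) • f (LocalizedModule.mk (D.cwMod θ hN hqL pr c) 1) := by
    rw [hfsm, subst_none]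
  rw [hg, map_sub, ht', map_smul f, hf, hf, sub_smul, pow_two, mul_smul,
    ← MvPolynomial.algebraMap_eq, algebraMap_smul]
  show _ = (Xq R ι) • (Xq R ι) • mkH c - D.thetaQ θ hN • mkH c
  rw [e', smul_sub]
  show (Xq R ι) • mkH _ - D.thetaQ θ hN • mkH _ = _
  abel

include hf in
/-- **Injectivity from the pair of degeneracy maps.** -/
theorem siteUp_injective (ht : IsSiteRoot D hqL θ hN pr 𝔪 α X t)
    (hpair : ∀ a b : D.LowMod hN hqL pr θ X,
      D.resMod θ hN hqL pr a + D.degMod θ hN hqL pr b = 0 →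
        ∃ s : HPoly R ι, s ∉ 𝔪 ∧ s • a = 0 ∧ s • b = 0) :
    Function.Injective f := by
  refine (injective_iff_map_eq_zero f).mpr fun x hx => ?_
  obtain ⟨a, rfl⟩ := lowLoc_surjective D x
  rw [hf, ← LocalizedModule.zero_mk (1 : 𝔫.primeCompl), LocalizedModule.mk_eq] at hx
  obtain ⟨⟨v, hv⟩, hva⟩ := hx
  simp only [Submonoid.smul_def, one_smul, smul_zero] at hva
  set mkL := LocalizedModule.mkLinearMap 𝔪.primeCompl (D.LowMod hN hqL pr θ X) with hmkL
  have hR : ∀ (r : R) (b : D.LowMod hN hqL pr θ X), mkL (r • b) = r • mkL b := fun r b =>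
    (mkL.restrictScalars R).map_smul r b
  let c : R := (D.q : R) * D.thetaQ θ hN
  let lam : D.LowMod hN hqL pr θ X → D.LowMod hN hqL pr θ X → LowLoc D hqL θ hN pr 𝔪 X :=
    fun x y => t • mkL x + c • mkL y
  have key : ∀ (p : HPoly R ι) x y, ∃ x' y',
      p • (D.resMod θ hN hqL pr x + D.degMod θ hN hqL pr y) =
        D.resMod θ hN hqL pr x' + D.degMod θ hN hqL pr y' ∧
      lam x' y' = subst t p • lam x y := by
    intro p
    induction p using MvPolynomial.induction_on with
    | C r =>
      intro x y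
      refine ⟨r • x, r • y, ?_, ?_⟩
      · rw [C_smul_eq, smul_add, map_smul, map_smul]
      · simp only [lam, hR]
        rw [show subst t (C r) = C r by simp [subst], ← MvPolynomial.algebraMap_eq, algebraMap_smul,
          smul_add, smul_comm r t, smul_comm r c]
    | add p p' hp hp' =>
      intro x y
      obtain ⟨x₁, y₁, e₁, f₁⟩ := hp x y
      obtain ⟨x₂, y₂, e₂, f₂⟩ := hp' x y
      refine ⟨x₁ + x₂, y₁ + y₂, ?_, ?_⟩
      · rw [add_smul, e₁, e₂, map_add, map_add]; abel
      · rw [map_add, add_smul, ← f₁, ← f₂]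
        simp only [lam, map_add, smul_add]; abel
    | mul_X p o hp =>
      intro x y
      rcases o with _ | i
      · obtain ⟨x', y', e, f'⟩ := hp ((Xq R ι) • x + c • y) (-x)
        refine ⟨x', y', ?_, ?_⟩
        · rw [mul_smul, ← e]
          congr 1
          rw [smul_add, D.X_none_res, D.X_none_deg, map_add, map_neg, D.resMod_smul_q]
          abel
        · rw [f', map_mul, subst_none]
          refine Eq.trans (congrArg (subst t p • ·) ?_) (mul_smul _ _ _).symm
          change t • mkL (Xq R ι • x + c • y) + c • mkL (-x) = _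
          rw [map_add, map_neg, hR, map_smul]
          have hr := ht.2 (mkL x)
          rw [add_smul, sub_smul, ← MvPolynomial.algebraMap_eq, algebraMap_smul, pow_two,
            mul_smul, mul_smul, smul_comm (MvPolynomial.X none) t] at hr
          rw [smul_add, smul_add, smul_comm t c, smul_neg]
          simp only [c] at hr ⊢
          linear_combination (norm := module) -hr
      · obtain ⟨x', y', e, f'⟩ := hp ((MvPolynomial.X (some i) : HPoly R ι) • x)
          ((MvPolynomial.X (some i) : HPoly R ι) • y)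
        refine ⟨x', y', ?_, ?_⟩
        · rw [mul_smul, ← e]
          congr 1
          have : Fact (pr i).1.1.Prime := ⟨(pr i).1.2⟩
          rw [smul_add, D.resMod_X_some h.ne_q, ALData.degMod, LinearMap.comp_apply,
            LinearMap.comp_apply, D.resMod_X_some h.ne_q]
          congr 1
          simp only [mv_smul_def, heckeHom_X]
          exact D.wOp_comm θ hN hqL (h.ne_q i) (pr i).2 _
        · rw [f', map_mul, mul_smul, subst_some]
          congr 1
          simp only [lam, map_smul, smul_add]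
          rw [smul_comm t, smul_comm c]
  obtain ⟨x', y', e, hlam⟩ := key v a 0
  rw [map_zero, add_zero, hva] at e
  obtain ⟨s, hs, hx', hy'⟩ := hpair x' y' e.symm
  have h0 : lam x' y' = 0 := by
    refine (bijective_of_notMem hs).1 ?_
    show s • lam x' y' = s • (0 : LowLoc D hqL θ hN pr 𝔪 X)
    simp only [lam, smul_add, smul_zero]
    rw [smul_comm s t, smul_comm s c,
      ← map_smul mkL s x', ← map_smul mkL s y', hx', hy',
      map_zero, smul_zero, smul_zero, add_zero]
  rw [h0] at hlam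
  have hv' : subst t v ∉ 𝔪 := fun hm => hv ((mem_high_iff_subst h ht.1 v).mpr hm)
  have h1 : t • mkL a = 0 := by
    have h2 := (bijective_of_notMem hv').1 (hlam.symm.trans (smul_zero _).symm)
    simpa [lam] using h2
  exact (bijective_of_notMem (root_notMem h ht.1)).1 (h1.trans (smul_zero _).symm)

include hg in
/-- **Surjectivity from the pair of transposed maps.** -/
theorem siteDown_surjective (ht : IsSiteRoot D hqL θ hN pr 𝔪 α X t)
    (hsm : ∀ p y, g (p • y) = subst t p • g y)
    (hpair : ∀ a : D.LowMod hN hqL pr θ X, ∃ (c : D.HighMod hN hqL pr θ X) (s : HPoly R ι),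
      s ∉ 𝔪 ∧ D.cwMod θ hN hqL pr c = 0 ∧ D.corMod θ hN hqL pr c = s • a) :
    Function.Surjective g := by
  classical
  have := moduleFinite_lowMod D (hqL := hqL) (θ := θ) (hN := hN) (pr := pr) (X := X)
  have : Module.Finite R (LowLoc D hqL θ hN pr 𝔪 X) := Module.Finite.of_surjective
    ((LocalizedModule.mkLinearMap 𝔪.primeCompl (D.LowMod hN hqL pr θ X)).restrictScalars R)
    (localizedModule_mk_surjective (R := R) 𝔪)
  set mkL := LocalizedModule.mkLinearMap 𝔪.primeCompl (D.LowMod hN hqL pr θ X)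
  have hX : (MvPolynomial.X none : HPoly R ι) ∉ 𝔫 := fun hX =>
    C_not_mem (J := 𝔫) h.unit_alpha (by simpa using 𝔫.sub_mem hX h.high)
  -- the image is stable under the variable of `q`
  have hstab : ∀ (p : HPoly R ι) x, x ∈ LinearMap.range g → p • x ∈ LinearMap.range g := by
    intro p
    induction p using MvPolynomial.induction_on with
    | C r =>
      intro x hx
      rw [← MvPolynomial.algebraMap_eq, algebraMap_smul]
      exact Submodule.smul_mem _ r hx
    | add p p' hp hp' => intro x hx; rw [add_smul]; exact add_mem (hp x hx) (hp' x hx)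
    | mul_X p o hp =>
      intro x hx
      rw [mul_smul]
      refine hp _ ?_
      obtain ⟨y, rfl⟩ := hx
      rcases o with _ | i
      · obtain ⟨y', rfl⟩ := (bijective_of_notMem (J := 𝔫) hX).2 y
        have hr := ht.2 (g y')
        rw [add_smul, sub_smul, ← MvPolynomial.algebraMap_eq, algebraMap_smul, pow_two, mul_smul,
          mul_smul] at hr
        refine ⟨(MvPolynomial.X none : HPoly R ι) • ((MvPolynomial.X none : HPoly R ι) • y') +
          ((D.q : R) * D.thetaQ θ hN) • y', ?_⟩
        show g _ = _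
        rw [map_add, hsm, hsm, map_smul, subst_none]
        linear_combination (norm := module) hr
      · exact ⟨(MvPolynomial.X (some i) : HPoly R ι) • y, by rw [hsm, subst_some]⟩
  let I : Submodule (HPoly R ι) (LowLoc D hqL θ hN pr 𝔪 X) :=
    { (LinearMap.range g).toAddSubmonoid with smul_mem' := fun p x hx => hstab p x hx }
  have : Module.Finite R (LowLoc D hqL θ hN pr 𝔪 X ⧸ I) :=
    Module.Finite.of_surjective (I.mkQ.restrictScalars R) I.mkQ_surjective
  intro x
  suffices hx : x ∈ I from hx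
  obtain ⟨a, rfl⟩ := lowLoc_surjective D x
  obtain ⟨c, s, hs, hc0, hcs⟩ := hpair a
  obtain ⟨w, hw⟩ := D.isUnit_thetaQ θ hN
  have h1 : s • mkL a ∈ I := by
    refine ⟨LocalizedModule.mk (-((w⁻¹ : Rˣ) : R) • c) 1, ?_⟩
    show g _ = _
    rw [hg, map_smul, map_smul, hc0, hcs, smul_zero]
    rw [show ∀ b, LocalizedModule.mk b 1 = mkL b from fun _ => rfl,
      show ∀ b, LocalizedModule.mk b 1 = mkL b from fun _ => rfl, map_zero, smul_zero, zero_sub,
      LinearMap.map_smul_of_tower, map_smul, ← hw, smul_smul, mul_neg, Units.mul_inv, neg_smul,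
      one_smul, neg_neg]
  let e : Module.End R (LowLoc D hqL θ hN pr 𝔪 X ⧸ I) := DistribSMul.toLinearMap R _ s
  have hes : Function.Surjective e := fun z => by
    obtain ⟨z, rfl⟩ := I.mkQ_surjective z
    obtain ⟨z', rfl⟩ := (bijective_of_notMem (J := 𝔪) hs).2 z
    exact ⟨I.mkQ z', (I.mkQ.map_smul s z').symm⟩
  have h2 : e (I.mkQ (mkL a)) = e 0 := by
    rw [map_zero]
    show s • I.mkQ (mkL a) = 0
    rw [← map_smul]
    exact (Submodule.Quotient.mk_eq_zero I).mpr h1
  exact (Submodule.Quotient.mk_eq_zero I).mp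
    (OrzechProperty.injective_of_surjective_endomorphism e hes h2)

end FermatAgent.RT.Ladder
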