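import Mathlib
import Fermat.Agent.HM.H1.DegeneracyMaps
import Fermat.Agent.HM.H1.Transport

/-!
# Change of coefficient system of the degeneracy maps

For two coefficient systems over possibly different rings and nebentype levels which agree
pointwise, the agreement of cohomology commutes with the degeneracy maps.
-/

set_option autoImplicit false

noncomputable section

open scoped MatrixGroups
open CongruenceSubgroup MvPolynomial FermatAgent.HM

namespace FermatAgent.RT.Ladder

variable {R R' : Type} [CommRing R] [CommRing R'] {N N' L : ℕ}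
variable {X : Type} [AddCommGroup X] [Module R X] [Module R' X]

section Degeneracy

variable (D : ALData) {θ : (ZMod N)ˣ →* R} {θ' : (ZMod N')ˣ →* R'} {hN : N ∣ D.L} {hN' : N' ∣ D.L}
  {hqL : D.q.Coprime L} {ι : Type} {pr : ι → HPrime L}
variable (hρ : ∀ (A : sigma0 N L) (B : sigma0 N' L), (A : Mat2) = B → ∀ x : X,
  thetaRep θ X A x = thetaRep θ' X B x)

/-- The lower modules of agreeing systems. -/
def agreeLow : D.LowMod hN hqL pr θ X ≃+ D.LowMod hN' hqL pr θ' X :=
  agreeAdd (hNM := hN) (hN'M := hN') hρ

/-- The upper modules of agreeing systems. -/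
def agreeHigh : D.HighMod hN hqL pr θ X ≃+ D.HighMod hN' hqL pr θ' X :=
  agreeAdd (hNM := D.dvd_N hN) (hN'M := D.dvd_N hN') hρ

/-- The agreement commutes with restriction. -/
lemma agreeHigh_res (z : D.LowMod hN hqL pr θ X) :
    agreeHigh D hρ (D.resMod θ hN hqL pr z) =
      D.resMod θ' hN' hqL pr (agreeLow D (hN' := hN') hρ z) :=
  agreeAdd_op hρ (D.resCorr N L) (D.resCorr N' L) rfl rfl z

lemma agreeHigh_w (z : D.HighMod hN hqL pr θ X) :
    agreeHigh D (hN' := hN') hρ (D.wMod θ hN hqL pr z) =
      D.wMod θ' hN' hqL pr (agreeHigh D hρ z) :=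
  agreeAdd_op hρ (D.wCorr hN hqL) (D.wCorr hN' hqL) rfl rfl z

/-- The agreement commutes with the second degeneracy map. -/
lemma agreeHigh_deg (z : D.LowMod hN hqL pr θ X) :
    agreeHigh D hρ (D.degMod θ hN hqL pr z) =
      D.degMod θ' hN' hqL pr (agreeLow D (hN' := hN') hρ z) := by
  rw [ALData.degMod, ALData.degMod, LinearMap.comp_apply, LinearMap.comp_apply, agreeHigh_w,
    agreeHigh_res]

/-- The agreement commutes with corestriction. -/
lemma agreeLow_cor (z : D.HighMod hN hqL pr θ X) :
    agreeLow D (hN' := hN') hρ (D.corMod θ hN hqL pr z) =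
      D.corMod θ' hN' hqL pr (agreeHigh D hρ z) :=
  agreeAdd_op hρ (D.corCorr hN) (D.corCorr hN') rfl rfl z

/-- The agreement commutes with corestriction after the involution. -/
lemma agreeLow_cw (z : D.HighMod hN hqL pr θ X) :
    agreeLow D (hN' := hN') hρ (D.cwMod θ hN hqL pr z) =
      D.cwMod θ' hN' hqL pr (agreeHigh D hρ z) := by
  rw [ALData.cwMod, ALData.cwMod, LinearMap.comp_apply, LinearMap.comp_apply, agreeLow_cor,
    agreeHigh_w]

variable (f : R →+* R') (hf : ∀ (r : R) (x : X), r • x = f r • x)
include hf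

/-- The agreement is semilinear over the Hecke polynomials. -/
lemma agreeLow_smul (t : MvPolynomial (Option ι) R) (z : D.LowMod hN hqL pr θ X) :
    agreeLow D (hN' := hN') hρ (t • z) = MvPolynomial.map f t • agreeLow D hρ z := by
  induction t using MvPolynomial.induction_on generalizing z with
  | C a =>
    rw [MvPolynomial.map_C, C_smul_eq, C_smul_eq]
    exact agreeAdd_smul hρ f hf a z
  | add t u ht hu => simp only [add_smul, map_add, ht, hu]
  | mul_X t o ht =>
    rw [mul_smul, ht, map_mul, MvPolynomial.map_X, mul_smul]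
    congr 1
    rw [mv_smul_def, mv_smul_def, heckeHom_X, heckeHom_X]
    have : Fact (D.extPr hqL pr o).1.1.Prime := ⟨(D.extPr hqL pr o).1.2⟩
    exact agreeAdd_op hρ (heckeCorr hN (D.extPr hqL pr o).2) (heckeCorr hN' (D.extPr hqL pr o).2)
      rfl rfl z

end Degeneracy

end FermatAgent.RT.Ladder
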