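import Mathlib
import Fermat.Agent.RT.Ladder.SiteMaps
import Fermat.Agent.RT.Ladder.Transport
import Fermat.Agent.HM.H1.TaylorWiles
import Fermat.Agent.BAD.Ihara.Module

/-!
# Degeneracy maps between two levels of one family of primes

From the residual criterion for the pair of degeneracy maps (Ihara's lemma and its dual) over the
residue field, maps between the localised modules at levels `M` and `M q`: the one up is injective
modulo the maximal ideal, the one down is surjective, and the composite is `t² - θ(q)` for the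
root `t` of the Frobenius polynomial at `q`.
-/

set_option autoImplicit false

noncomputable section

open scoped MatrixGroups
open CongruenceSubgroup MvPolynomial IsLocalRing
open FermatAgent.HM FermatAgent.HM.ALData

namespace FermatAgent.RT.Ladder

section Criterion

variable {k : Type} [Field k] {L : ℕ} (D : ALData) (hqL : D.q.Coprime L) {ι ι' : Type}

/-- The residual criterion at a site: the pair of degeneracy maps is injective and the transposed
pair hits the first factor, after inverting polynomials outside the eigensystem. -/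
structure PairCriterion (pr : ι → HPrime L) (c : Option ι → k) : Prop where
  inj : ∀ z, BAD.Ihara.pairDeg D hqL pr z = (0 : D.HighMod (one_dvd D.L) hqL pr
      (1 : (ZMod 1)ˣ →* k) k) →
    ∃ s : MvPolynomial (Option ι) k, aeval c s ≠ 0 ∧ s • z = 0
  surj : ∀ x : BAD.Ihara.Low k D hqL pr,
    ∃ (w : D.HighMod (one_dvd D.L) hqL pr (1 : (ZMod 1)ˣ →* k) k)
      (s : MvPolynomial (Option ι) k), aeval c s ≠ 0 ∧
      D.cwMod (1 : (ZMod 1)ˣ →* k) (one_dvd D.L) hqL pr w = 0 ∧
      D.corMod (1 : (ZMod 1)ˣ →* k) (one_dvd D.L) hqL pr w = s • x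

variable {D hqL}

lemma heckeHom_extPr {R : Type} [CommRing R] {N M : ℕ} (hNM : N ∣ M) {X : Type} [AddCommGroup X]
    [Module R X] (θ : (ZMod N)ˣ →* R) (pr : ι → HPrime L) (g : ι' → ι)
    (s : MvPolynomial (Option ι') R) :
    heckeHom (D.extPr hqL pr) hNM (thetaRep (L := L) θ X) (rename (Option.map g) s) =
      heckeHom (D.extPr hqL (pr ∘ g)) hNM (thetaRep (L := L) θ X) s := by
  rw [heckeHom_rename]
  congr 2
  funext o
  rcases o with _ | i <;> rfl

/-- The criterion for a subfamily gives it for the family. -/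
theorem PairCriterion.mono {pr : ι → HPrime L} {c : Option ι → k} (g : ι' → ι)
    (h : PairCriterion D hqL (pr ∘ g) (c ∘ Option.map g)) : PairCriterion D hqL pr c := by
  have hact : ∀ (s : MvPolynomial (Option ι') k) (z : BAD.Ihara.Low k D hqL pr),
      (rename (Option.map g) s • z : BAD.Ihara.Low k D hqL pr) =
        (s • (show BAD.Ihara.Low k D hqL (pr ∘ g) from z) : BAD.Ihara.Low k D hqL (pr ∘ g)) :=
    fun s z => by
      rw [mv_smul_def, mv_smul_def, heckeHom_extPr]
      rfl
  refine ⟨fun z hz => ?_, fun x => ?_⟩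
  · obtain ⟨s, hs, hsz⟩ := h.inj z hz
    refine ⟨rename (Option.map g) s, by rwa [aeval_rename], ?_⟩
    exact Prod.ext ((hact s z.1).trans (congrArg Prod.fst hsz))
      ((hact s z.2).trans (congrArg Prod.snd hsz))
  · obtain ⟨w, s, hs, hw, hsx⟩ := h.surj x
    exact ⟨w, rename (Option.map g) s, by rwa [aeval_rename], hw,
      hsx.trans (hact s x).symm⟩

end Criterion

section Natural

variable {N L : ℕ} {R : Type} [CommRing R] {ι : Type} {M M' : ℕ}
variable {X Y : Type} [AddCommGroup X] [Module R X] [AddCommGroup Y] [Module R Y]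

lemma heckeMap_op {κ : Type} [Fintype κ] {hNM : N ∣ M} {hNM' : N ∣ M'} (θ : (ZMod N)ˣ →* R)
    (pr : ι → HPrime L) (φ : X →ₗ[R] Y)
    (C : Corr (sigma0 N L) (Gamma0 M') (Gamma0 M) κ)
    (z : HeckeH1 hNM pr (thetaRep (L := L) θ X)) :
    heckeMap pr hNM' _ φ (isHeckeEquiv_thetaRep θ φ)
        (toHeckeH1 pr hNM' (thetaRep θ X) (C.op (actsIn_gamma0 hNM') (actsIn_gamma0 hNM)
          (thetaRep θ X) ((toHeckeH1 pr hNM (thetaRep θ X)).symm z))) =
      toHeckeH1 pr hNM' (thetaRep θ Y) (C.op (actsIn_gamma0 hNM') (actsIn_gamma0 hNM) (thetaRep θ Y)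
        ((toHeckeH1 pr hNM (thetaRep θ Y)).symm (heckeMap pr hNM _ φ
          (isHeckeEquiv_thetaRep θ φ) z))) :=
  Corr.op_natural C (actsIn_gamma0 hNM') (actsIn_gamma0 hNM) _
    (isHeckeEquiv_thetaRep θ φ) _

variable (D : ALData) {θ : (ZMod N)ˣ →* R} {hN : N ∣ D.L} {hqL : D.q.Coprime L}
  {pr : ι → HPrime L} (φ : X →ₗ[R] Y)

local notation "hkL" => heckeMap (D.extPr hqL pr) hN (thetaRep θ X) φ (isHeckeEquiv_thetaRep θ φ)
local notation "hkH" =>
  heckeMap (D.extPr hqL pr) (D.dvd_N hN) (thetaRep θ X) φ (isHeckeEquiv_thetaRep θ φ)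

lemma heckeMap_resMod (z : D.LowMod hN hqL pr θ X) :
    hkH (D.resMod θ hN hqL pr z) = D.resMod θ hN hqL pr (hkL z) :=
  heckeMap_op θ (D.extPr hqL pr) φ (D.resCorr N L) z

lemma heckeMap_corMod (z : D.HighMod hN hqL pr θ X) :
    hkL (D.corMod θ hN hqL pr z) = D.corMod θ hN hqL pr (hkH z) :=
  heckeMap_op θ (D.extPr hqL pr) φ (D.corCorr hN) z

lemma heckeMap_cwMod (z : D.HighMod hN hqL pr θ X) :
    hkL (D.cwMod θ hN hqL pr z) = D.cwMod θ hN hqL pr (hkH z) := by
  rw [ALData.cwMod, ALData.cwMod, LinearMap.comp_apply, LinearMap.comp_apply, heckeMap_corMod]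
  exact congrArg (D.corMod θ hN hqL pr) (heckeMap_op θ (D.extPr hqL pr) φ (D.wCorr hN hqL) z)

end Natural

section Ideal

variable {R : Type} [CommRing R] [IsLocalRing R] {k : Type} [Field k] [Algebra R k]
variable (hk : Function.Surjective (algebraMap R k))
include hk

lemma mem_resIdeal_iff_map {ι : Type} (a : ι → R) (p : MvPolynomial ι R) :
    p ∈ resIdeal a ↔
      aeval (fun i => algebraMap R k (a i)) (MvPolynomial.map (algebraMap R k) p) = 0 := by
  rw [MvPolynomial.aeval_map_algebraMap, ← Function.comp_def (algebraMap R k),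
    MvPolynomial.aeval_algebraMap_apply, mem_resIdeal,
    ← IsLocalRing.ker_eq_maximalIdeal _ hk, RingHom.mem_ker]

variable [IsNoetherianRing R] {N M L : ℕ} [NeZero M] {ι : Type} {hNM : N ∣ M} {θ : (ZMod N)ˣ →* R}
  {pr : ι → HPrime L} {𝔪 : Ideal (MvPolynomial ι R)} [𝔪.IsPrime] (h : NonEis hNM θ pr 𝔪)
include h

/-- The kernel of reduction to the residue field. -/
lemma thetaMap_residue_eq_zero_iff (z : ThetaLoc hNM θ pr 𝔪 R) :
    thetaMap hNM θ pr 𝔪 (Algebra.linearMap R k) z = 0 ↔
      z ∈ maximalIdeal R • (⊤ : Submodule R (ThetaLoc hNM θ pr 𝔪 R)) := by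
  set I := maximalIdeal R
  have hI : LinearMap.ker (Algebra.linearMap R k) = I := IsLocalRing.ker_eq_maximalIdeal _ hk
  let g : (R ⧸ I) →ₗ[R] k := Submodule.liftQ I (Algebra.linearMap R k) hI.ge
  have hg : Function.Injective g :=
    LinearMap.ker_eq_bot.mp (Submodule.ker_liftQ_eq_bot _ _ _ hI.le)
  have hgf : g ∘ₗ Submodule.mkQ I = Algebra.linearMap R k := Submodule.liftQ_mkQ _ _ _
  rw [← ker_thetaMap_mkQ h (IsNoetherian.noetherian I), LinearMap.mem_ker, ← hgf, thetaMap_comp]
  exact map_eq_zero_iff _ (thetaMap_injective h hg)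

end Ideal

lemma mem_smul_top_equiv {R A B : Type} [CommRing R] [AddCommGroup A] [Module R A]
    [AddCommGroup B] [Module R B] (e : A ≃ₗ[R] B) (I : Ideal R) {x : A} :
    e x ∈ I • (⊤ : Submodule R B) ↔ x ∈ I • (⊤ : Submodule R A) := by
  have h : (I • (⊤ : Submodule R A)).map e.toLinearMap = I • ⊤ := by
    rw [Submodule.map_smul'', Submodule.map_top, LinearEquiv.range]
  rw [← h, Submodule.mem_map]
  exact ⟨fun ⟨y, hy, e'⟩ => e.injective e' ▸ hy, fun hx => ⟨x, hx, rfl⟩⟩

section Reindex

variable {R : Type} [CommRing R] [IsLocalRing R] {N L : ℕ} {ι : Type}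

/-- The site as a separate variable: the index map is bijective. -/
private lemma siteIndex_bijective (i₀ : ι) :
    Function.Bijective fun o : Option {i // i ≠ i₀} => o.elim i₀ Subtype.val := by
  constructor
  · rintro (_ | ⟨i, hi⟩) (_ | ⟨j, hj⟩) e
    · rfl
    · exact absurd e.symm hj
    · exact absurd e hi
    · exact congrArg some (Subtype.ext e)
  · intro i
    by_cases hi : i = i₀
    · exact ⟨none, hi.symm⟩
    · exact ⟨some ⟨i, hi⟩, rfl⟩

/-- The non-Eisenstein condition after reindexing the family. -/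
private lemma nonEis_reindex {κ : Type} {g : κ → ι} (hg : Function.Surjective g)
    {θ : (ZMod N)ˣ →* R} {pr : ι → HPrime L} {pr' : κ → HPrime L} (hpr : pr ∘ g = pr')
    {M₀ M₁ : ℕ} {hM₀ : N ∣ M₀} (hM₁ : N ∣ M₁) (hM : M₀ = M₁) {c : ι → R}
    (hc : NonEis hM₀ θ pr (resIdeal c)) : NonEis hM₁ θ pr' (resIdeal (c ∘ g)) := by
  subst hM
  subst hpr
  obtain ⟨i, hi, hi1, hiw⟩ := hc.witness
  obtain ⟨o, rfl⟩ := hg i
  refine ⟨hc.theta_neg_one, hc.two, hc.three, o, hi, hi1, ?_⟩
  rw [← resIdeal_comap_rename g c, Ideal.mem_comap]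
  simpa [rename_X] using hiw

omit [IsLocalRing R] in
/-- The substitution at the site fixes the other variables. -/
private lemma subst_rename_some {κ : Type} (t : HPoly R κ) (p : MvPolynomial κ R) :
    subst t (rename some p) = rename some p :=
  AlgHom.congr_fun (φ₁ := (subst t).comp (rename some)) (φ₂ := rename some)
    (MvPolynomial.algHom_ext fun i => by simp [subst_some]) p

omit [IsLocalRing R] in
/-- Updating the variable of the site is substitution after reindexing. -/
private lemma aeval_update_rename [DecidableEq ι] (i₀ : ι) {g : Option {i // i ≠ i₀} → ι}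
    (hg : g = fun o => o.elim i₀ Subtype.val) (t P : HPoly R {i // i ≠ i₀}) :
    aeval (Function.update MvPolynomial.X i₀ (rename g t)) (rename g P) =
      rename g (subst t P) :=
  AlgHom.congr_fun
    (φ₁ := (aeval (Function.update MvPolynomial.X i₀ (rename g t))).comp (rename g))
    (φ₂ := (rename g).comp (subst t)) (MvPolynomial.algHom_ext fun o => by
      subst hg
      rcases o with _ | ⟨i, hi⟩
      · simp [subst_none]
      · simp [subst_some, Function.update_of_ne hi]) P

end Reindex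

section Residual

variable {R : Type} [CommRing R] [IsLocalRing R] {k : Type} [Field k] [Algebra R k]
  (hk : Function.Surjective (algebraMap R k))
variable {N L : ℕ} {κ : Type} {θ : (ZMod N)ˣ →* R} (hθ : ∀ u, algebraMap R k (θ u) = 1)
variable {D : ALData} {hND : N ∣ D.L} {hqL : D.q.Coprime L} {pr : κ → HPrime L}
  {c : Option κ → R} {𝔫 : Ideal (HPoly R κ)} {α β : R} {t : HPoly R κ}

omit [IsLocalRing R] in
include hθ in
/-- Over the residue field the coefficient system is the trivial one. -/
private lemma thetaRep_residue_eq (A : sigma0 N L) (B : sigma0 1 L) (_ : (A : Mat2) = B) (x : k) :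
    thetaRep θ k A x = thetaRep (1 : (ZMod 1)ˣ →* k) k B x := by
  rw [thetaRep_apply, thetaRep_apply, Algebra.smul_def, hθ, MonoidHom.one_apply, one_smul, one_mul]

include hk in
/-- Polynomials outside the residual eigensystem lift outside its ideal. -/
private lemma exists_lift_notMem_resIdeal {s : HPoly k κ}
    (hs : aeval (fun o => algebraMap R k (c o)) s ≠ 0) :
    ∃ s' : HPoly R κ, s' ∉ resIdeal c ∧ MvPolynomial.map (algebraMap R k) s' = s := by
  obtain ⟨s', rfl⟩ := MvPolynomial.map_surjective (algebraMap R k) hk s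
  exact ⟨s', fun hm => hs ((mem_resIdeal_iff_map hk _ _).mp hm), rfl⟩

variable [IsNoetherianRing R] [IsAdicComplete (maximalIdeal R) R] [NeZero D.L] [𝔫.IsMaximal]
  (hroots : PairRoots D θ hND pr (resIdeal c) 𝔫 α β)
  (hLo : NonEis hND θ (D.extPr hqL pr) (resIdeal c))
  (crit : PairCriterion D hqL pr (fun o => algebraMap R k (c o)))
  (ht : IsSiteRoot D hqL θ hND pr (resIdeal c) α R t)

omit [IsNoetherianRing R] [IsAdicComplete (maximalIdeal R) R] in
include hk hLo ht in
/-- The root reduces to a root over the residue field. -/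
private lemma isSiteRoot_residue : IsSiteRoot D hqL θ hND pr (resIdeal c) α k t :=
  ⟨ht.1, fun y => by
    obtain ⟨x, rfl⟩ := thetaMap_surjective hLo (f := Algebra.linearMap R k) hk y
    let ρL := thetaMap hND θ (D.extPr hqL pr) (resIdeal c) (Algebra.linearMap R k)
    have hρLs : ∀ (p : HPoly R κ) x, ρL (p • x) = p • ρL x :=
      fun p x => (locMap (D.extPr hqL pr) hND _ (Algebra.linearMap R k) _ _).map_smul p x
    show _ • ρL x = 0
    rw [← hρLs, ht.2, map_zero]⟩

variable [Module.Finite R k]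

include hk hθ hroots crit in
/-- Over the residue field the map up is injective. -/
private lemma siteUp_residue_injective
    {f : LowLoc D hqL θ hND pr (resIdeal c) k →ₗ[R] HighLoc D hqL θ hND pr 𝔫 k}
    (hf : ∀ a, f (LocalizedModule.mk a 1) = LocalizedModule.mk (D.resMod θ hND hqL pr a) 1)
    (htk : IsSiteRoot D hqL θ hND pr (resIdeal c) α k t) : Function.Injective f := by
  have hρ := thetaRep_residue_eq (L := L) hθ
  have hsm : ∀ (r : R) (x : k), r • x = algebraMap R k r • x := fun r x => Algebra.smul_def r x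
  refine siteUp_injective hroots hf htk fun x y hxy => ?_
  obtain ⟨s, hs, hsz⟩ := crit.inj
    (agreeLow D (hN' := one_dvd D.L) hρ x, agreeLow D (hN' := one_dvd D.L) hρ y) (by
      rw [BAD.Ihara.pairDeg, ← agreeHigh_res, ← agreeHigh_deg, ← map_add, hxy, map_zero])
  obtain ⟨s', hs', rfl⟩ := exists_lift_notMem_resIdeal hk hs
  refine ⟨s', hs', (agreeLow D (hN' := one_dvd D.L) hρ).injective ?_,
    (agreeLow D (hN' := one_dvd D.L) hρ).injective ?_⟩
  · rw [agreeLow_smul D hρ (algebraMap R k) hsm, map_zero]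
    exact congrArg Prod.fst hsz
  · rw [agreeLow_smul D hρ (algebraMap R k) hsm, map_zero]
    exact congrArg Prod.snd hsz

include hk hθ hroots crit in
/-- Over the residue field the map down is surjective. -/
private lemma siteDown_residue_surjective
    {d : HighLoc D hqL θ hND pr 𝔫 k →ₗ[R] LowLoc D hqL θ hND pr (resIdeal c) k}
    (hd : ∀ z, d (LocalizedModule.mk z 1) =
      t • LocalizedModule.mk (D.cwMod θ hND hqL pr z) 1 -
        D.thetaQ θ hND • LocalizedModule.mk (D.corMod θ hND hqL pr z) 1)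
    (hdsm : ∀ p y, d (p • y) = subst t p • d y)
    (htk : IsSiteRoot D hqL θ hND pr (resIdeal c) α k t) : Function.Surjective d := by
  have hρ := thetaRep_residue_eq (L := L) hθ
  have hsm : ∀ (r : R) (x : k), r • x = algebraMap R k r • x := fun r x => Algebra.smul_def r x
  refine siteDown_surjective hroots hd htk hdsm fun x => ?_
  obtain ⟨w, s, hs, hw, hsx⟩ := crit.surj (agreeLow D (hN' := one_dvd D.L) hρ x)
  obtain ⟨s', hs', rfl⟩ := exists_lift_notMem_resIdeal hk hs
  obtain ⟨w', rfl⟩ := (agreeHigh D (hN := hND) hρ).surjective w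
  refine ⟨w', s', hs', (agreeLow D (hN' := one_dvd D.L) hρ).injective ?_,
    (agreeLow D (hN' := one_dvd D.L) hρ).injective ?_⟩
  · rw [agreeLow_cw, map_zero]; exact hw
  · rw [agreeLow_cor, agreeLow_smul D hρ (algebraMap R k) hsm]; exact hsx

variable (hHi : NonEis (D.dvd_N hND) θ (D.extPr hqL pr) 𝔫) [NeZero D.N]

include hk hθ hroots hLo crit ht hHi in
/-- The map up reflects divisibility by the maximal ideal. -/
private lemma siteUp_reflects
    {f : LowLoc D hqL θ hND pr (resIdeal c) R →ₗ[R] HighLoc D hqL θ hND pr 𝔫 R}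
    (hf : ∀ a, f (LocalizedModule.mk a 1) = LocalizedModule.mk (D.resMod θ hND hqL pr a) 1)
    {x : LowLoc D hqL θ hND pr (resIdeal c) R}
    (hx : f x ∈ maximalIdeal R • (⊤ : Submodule R (HighLoc D hqL θ hND pr 𝔫 R))) :
    x ∈ maximalIdeal R • (⊤ : Submodule R (LowLoc D hqL θ hND pr (resIdeal c) R)) := by
  have htk := isSiteRoot_residue hk hLo ht
  obtain ⟨fk, hfk, -⟩ := exists_siteUp (hqL := hqL) (X := k) hroots htk
  refine (thetaMap_residue_eq_zero_iff hk hLo _).mp
    (siteUp_residue_injective hk hθ hroots crit hfk htk ?_)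
  have h0 := (thetaMap_residue_eq_zero_iff hk hHi _).mpr hx
  obtain ⟨z, rfl⟩ := lowLoc_surjective D x
  rw [hf] at h0
  show fk (thetaMap _ _ _ _ (Algebra.linearMap R k) _) = fk 0
  rw [map_zero, ← h0]
  show _ = thetaMap _ _ _ _ (Algebra.linearMap R k) _
  rw [thetaMap_mk, thetaMap_mk, hfk, heckeMap_resMod]

include hk hθ hroots hLo crit ht hHi in
/-- The map down is surjective. -/
private lemma siteDown_surjective_of_pairCriterion
    {d : HighLoc D hqL θ hND pr 𝔫 R →ₗ[R] LowLoc D hqL θ hND pr (resIdeal c) R}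
    (hd : ∀ z, d (LocalizedModule.mk z 1) =
      t • LocalizedModule.mk (D.cwMod θ hND hqL pr z) 1 -
        D.thetaQ θ hND • LocalizedModule.mk (D.corMod θ hND hqL pr z) 1) :
    Function.Surjective d := by
  have htk := isSiteRoot_residue hk hLo ht
  obtain ⟨dk, hdk, hdksm⟩ := exists_siteDown (hqL := hqL) (X := k) hroots htk
  let ρL := thetaMap hND θ (D.extPr hqL pr) (resIdeal c) (Algebra.linearMap R k)
  have hρLs : ∀ (p : HPoly R κ) x, ρL (p • x) = p • ρL x :=
    fun p x => (locMap (D.extPr hqL pr) hND _ (Algebra.linearMap R k) _ _).map_smul p x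
  have hdnat : ∀ y, ρL (d y) =
      dk (thetaMap (D.dvd_N hND) θ (D.extPr hqL pr) 𝔫 (Algebra.linearMap R k) y) := fun y => by
    obtain ⟨z, rfl⟩ := highLoc_surjective D y
    rw [hd, map_sub, hρLs, map_smul]
    show t • thetaMap _ _ _ _ (Algebra.linearMap R k) _ -
      _ • thetaMap _ _ _ _ (Algebra.linearMap R k) _ = dk (thetaMap _ _ _ _ _ _)
    rw [thetaMap_mk, thetaMap_mk, thetaMap_mk, hdk, heckeMap_cwMod, heckeMap_corMod]
  rw [← LinearMap.range_eq_top]
  have := moduleFinite_lowMod D (hqL := hqL) (θ := θ) (hN := hND) (pr := pr) (X := R)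
  have : Module.Finite R (LowLoc D hqL θ hND pr (resIdeal c) R) :=
    Module.Finite.of_surjective ((LocalizedModule.mkLinearMap (resIdeal c).primeCompl
      (D.LowMod hND hqL pr θ R)).restrictScalars R) (localizedModule_mk_surjective (R := R) _)
  refine top_le_iff.mp (Submodule.le_of_le_smul_of_le_jacobson_bot Module.Finite.fg_top
    (I := maximalIdeal R) (IsLocalRing.jacobson_eq_maximalIdeal ⊥ bot_ne_top).ge fun y _ => ?_)
  obtain ⟨zk, hzk⟩ := siteDown_residue_surjective hk hθ hroots crit hdk hdksm htk (ρL y)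
  obtain ⟨z, rfl⟩ := thetaMap_surjective hHi (f := Algebra.linearMap R k) hk zk
  rw [← add_sub_cancel (d z) y]
  refine Submodule.add_mem_sup ⟨z, rfl⟩ ((thetaMap_residue_eq_zero_iff hk hLo _).mp ?_)
  show ρL (y - d z) = 0
  rw [map_sub, hdnat, sub_eq_zero]
  exact hzk.symm

end Residual

/-- The maps of one step of level raising at the variable `i₀`, with the root `t` near `α` of the
Frobenius polynomial of norm `q` and character value `θq`. -/
structure SiteStep {R : Type} [CommRing R] [IsLocalRing R] {ι : Type} [DecidableEq ι] (i₀ : ι)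
    (a : ι → R) (α θq : R) (q : ℕ) {V W : Type} [AddCommGroup V] [Module R V]
    [Module (MvPolynomial ι R) V] [AddCommGroup W] [Module R W] [Module (MvPolynomial ι R) W]
    (J : V →ₗ[R] W) (Tr : W →ₗ[R] V) (t : MvPolynomial ι R) : Prop where
  near : t - C α ∈ resIdeal a
  root : ∀ x : V, (t ^ 2 - MvPolynomial.X i₀ * t + C ((q : R) * θq)) • x = 0
  J_comm : ∀ (p : MvPolynomial {i // i ≠ i₀} R) x,
    J (rename Subtype.val p • x) = rename Subtype.val p • J x
  Tr_comm : ∀ (p : MvPolynomial {i // i ≠ i₀} R) y,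
    Tr (rename Subtype.val p • y) = rename Subtype.val p • Tr y
  Tr_J : ∀ x, Tr (J x) = (t ^ 2 - C θq) • x
  Tr_surjective : Function.Surjective Tr
  reflects : ∀ x, J x ∈ maximalIdeal R • (⊤ : Submodule R W) →
    x ∈ maximalIdeal R • (⊤ : Submodule R V)
  J_Tr : ∀ y, J (Tr y) = (MvPolynomial.X i₀ ^ 2 - C θq) • y
  eval : ∀ (P : MvPolynomial ι R) x,
    P • J x = J (aeval (Function.update MvPolynomial.X i₀ t) P • x)

section Step

variable {R : Type} [CommRing R] [IsLocalRing R] [IsNoetherianRing R]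
  [IsAdicComplete (maximalIdeal R) R] {k : Type} [Field k] [Algebra R k]
variable {N L : ℕ} {ι : Type} [DecidableEq ι] {θ : (ZMod N)ˣ →* R} {pr : ι → HPrime L}

/-- The residual data at a site: roots `α, β` of the Frobenius polynomial, distinct modulo the
maximal ideal. -/
structure SiteRoots (θ : (ZMod N)ˣ →* R) (q : ℕ) (a α β : R) : Prop where
  sum_eq : a - (α + β) ∈ maximalIdeal R
  prod_eq : α * β = (q : R) * thetaAt θ q
  unit_alpha : IsUnit α
  distinct : IsUnit (α - β)

omit [IsNoetherianRing R] [IsAdicComplete (maximalIdeal R) R] in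
/-- The residual roots at the site, for the family with the site as a separate variable. -/
private lemma pairRoots_of_siteRoots {D : ALData} (hND : N ∣ D.L) (i₀ : ι)
    (hDq : D.q = ((pr i₀).1.1 : ℕ)) (hinj : ∀ j, pr j = pr i₀ → j = i₀) {a : ι → R} {α β : R}
    (hr : SiteRoots θ (pr i₀).1.1 (a i₀) α β) {g : Option {i // i ≠ i₀} → ι}
    (hg : g = fun o => o.elim i₀ Subtype.val) :
    PairRoots D θ hND (fun i : {i // i ≠ i₀} => pr i.1) (resIdeal (a ∘ g))
      (resIdeal (Function.update a i₀ α ∘ g)) α β :=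
  { ne_q := fun i e => i.2 (hinj i.1 (Subtype.ext (Subtype.ext (e.trans hDq))))
    prod_eq := by rw [D.thetaQ_eq, hDq]; exact hr.prod_eq
    unit_alpha := hr.unit_alpha
    distinct := hr.distinct
    low := by subst hg; exact X_sub_C_mem_resIdeal.mpr hr.sum_eq
    high := by subst hg; exact X_sub_C_mem_resIdeal.mpr (by simp)
    others := fun p => by
      rw [mem_resIdeal, mem_resIdeal, aeval_rename, aeval_rename]
      have e : Function.update a i₀ α ∘ g ∘ some = a ∘ g ∘ some := by
        subst hg; exact funext fun i => Function.update_of_ne i.2 _ _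
      rw [Function.comp_assoc, Function.comp_assoc, e]
    maximal_low := fun r hr => C_mem_resIdeal hr
    maximal_high := fun r hr => C_mem_resIdeal hr }

omit [IsNoetherianRing R] [IsAdicComplete (maximalIdeal R) R] [DecidableEq ι] in
/-- Transport of the localised module to a reindexed family at an equal level. -/
private lemma exists_siteTransport {κ : Type} {g : κ → ι} (hg : Function.Bijective g)
    {pr' : κ → HPrime L} (hpr : pr ∘ g = pr') {M₀ M₁ : ℕ} (hM₀ : N ∣ M₀) (hM₁ : N ∣ M₁)
    (hM : M₀ = M₁) (c : ι → R) :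
    ∃ E : ThetaLoc hM₀ θ pr (resIdeal c) R ≃ₗ[R] ThetaLoc hM₁ θ pr' (resIdeal (c ∘ g)) R,
      ∀ (p : MvPolynomial κ R) x, E (rename g p • x) = p • E x := by
  obtain ⟨E, hE⟩ := exists_reindexEquiv_of_eq hM₁ (thetaRep θ R) pr g hg _ hpr (resIdeal c)
    (resIdeal (c ∘ g)) (resIdeal_comap_rename g c)
  obtain ⟨E', hE'⟩ := exists_levelCast hM₀ (thetaRep (L := L) θ R) pr (resIdeal c) hM hM₁
  refine ⟨E'.trans E.symm, fun p x => E.injective ?_⟩
  rw [LinearEquiv.trans_apply, LinearEquiv.apply_symm_apply, hE', hE, LinearEquiv.trans_apply,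
    LinearEquiv.apply_symm_apply]

/-- **One step of level raising on localised modules.** -/
theorem exists_siteStep (hk : Function.Surjective (algebraMap R k))
    (hθ : ∀ u, algebraMap R k (θ u) = 1) {M M' : ℕ} [NeZero M] (hNM : N ∣ M)
    (hNM' : N ∣ M') (i₀ : ι) (hq : ¬ ((pr i₀).1.1 : ℕ) ∣ M)
    (hM' : M' = M * ((pr i₀).1.1 : ℕ)) (hinj : ∀ j, pr j = pr i₀ → j = i₀)
    (a : ι → R) (α β : R) (hr : SiteRoots θ (pr i₀).1.1 (a i₀) α β)
    (h : NonEis hNM θ pr (resIdeal a))
    (h' : NonEis hNM' θ pr (resIdeal (Function.update a i₀ α)))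
    (hcrit : ∀ (D : ALData) (hqL : D.q.Coprime L), D.q = ((pr i₀).1.1 : ℕ) → D.L = M →
      PairCriterion D hqL (fun i : {i // i ≠ i₀} => pr i.1)
        (fun o => algebraMap R k (a (o.elim i₀ Subtype.val)))) :
    ∃ (J : ThetaLoc hNM θ pr (resIdeal a) R →ₗ[R]
          ThetaLoc hNM' θ pr (resIdeal (Function.update a i₀ α)) R)
      (Tr : ThetaLoc hNM' θ pr (resIdeal (Function.update a i₀ α)) R →ₗ[R]
          ThetaLoc hNM θ pr (resIdeal a) R) (t : MvPolynomial ι R),
      SiteStep i₀ a α (thetaAt θ (pr i₀).1.1) (pr i₀).1.1 J Tr t := by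
  obtain ⟨D, hDq, hDL⟩ := ALData.exists_data (pr i₀).1.2 hq (NeZero.ne M)
  have : NeZero D.L := ⟨D.L_ne_zero⟩
  have : NeZero D.N := ⟨mul_ne_zero D.L_ne_zero D.prime.ne_zero⟩
  have : Module.Finite R k := Module.Finite.of_surjective (Algebra.linearMap R k) hk
  have hND : N ∣ D.L := hDL ▸ hNM
  have hDN : D.N = M' := by rw [hM', show D.N = D.L * D.q from rfl, hDL, hDq]
  have hqL : D.q.Coprime L := hDq ▸ (pr i₀).2
  -- the family with the site as a separate variable
  set pr' : {i // i ≠ i₀} → HPrime L := fun i => pr i.1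
  let g : Option {i // i ≠ i₀} → ι := fun o => o.elim i₀ Subtype.val
  have hgb : Function.Bijective g := siteIndex_bijective i₀
  have hpr : pr ∘ g = D.extPr hqL pr' := by
    funext o
    rcases o with _ | i
    · exact Subtype.ext (Subtype.ext hDq.symm)
    · rfl
  have hroots : PairRoots D θ hND pr' (resIdeal (a ∘ g))
      (resIdeal (Function.update a i₀ α ∘ g)) α β := pairRoots_of_siteRoots hND i₀ hDq hinj hr rfl
  have hLo := nonEis_reindex hgb.2 hpr hND hDL.symm h
  have hHi := nonEis_reindex hgb.2 hpr (D.dvd_N hND) hDN.symm h'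
  obtain ⟨El, hEl⟩ := exists_siteTransport (θ := θ) hgb hpr hNM hND hDL.symm a
  obtain ⟨Eh, hEh⟩ := exists_siteTransport (θ := θ) hgb hpr hNM' (D.dvd_N hND) hDN.symm
    (Function.update a i₀ α)
  -- the maps
  obtain ⟨t, ht⟩ := exists_siteRoot (hqL := hqL) (X := R) hroots
  obtain ⟨f, hf, hfsm⟩ := exists_siteUp (hqL := hqL) (X := R) hroots ht
  obtain ⟨d, hd, hdsm⟩ := exists_siteDown (hqL := hqL) (X := R) hroots ht
  have crit := hcrit D hqL hDq hDL
  have hds := siteDown_surjective_of_pairCriterion hk hθ hroots hLo crit ht hHi hd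
  -- conclusion
  have hsub : ∀ p : MvPolynomial {i // i ≠ i₀} R, rename Subtype.val p = rename g (rename some p) :=
    fun p => by rw [rename_rename]; rfl
  refine ⟨(Eh.symm.toLinearMap.comp f).comp El.toLinearMap,
    (El.symm.toLinearMap.comp d).comp Eh.toLinearMap, rename g t, ?_, fun x => El.injective ?_,
    fun p x => Eh.injective ?_, fun p y => El.injective ?_, fun x => El.injective ?_,
    El.symm.surjective.comp (hds.comp Eh.surjective), fun x hx => ?_, fun y => Eh.injective ?_,
    fun P x => ?_⟩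
  · have h1 := ht.1
    rw [← resIdeal_comap_rename g a, Ideal.mem_comap, map_sub, rename_C] at h1
    exact h1
  · have h2 := ht.2 (El x)
    have hc : rename g (t ^ 2 - MvPolynomial.X none * t + C ((D.q : R) * D.thetaQ θ hND)) =
        rename g t ^ 2 - MvPolynomial.X i₀ * rename g t +
          C (((pr i₀).1.1 : ℕ) * thetaAt θ (pr i₀).1.1) := by
      simp only [map_add, map_sub, map_mul, map_pow, rename_X, rename_C, D.thetaQ_eq, hDq]
      rfl
    rw [map_zero, ← hc, hEl]
    exact h2
  · simp only [LinearMap.comp_apply, LinearEquiv.coe_coe, LinearEquiv.apply_symm_apply]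
    rw [hsub, hEl, hEh, LinearEquiv.apply_symm_apply, hfsm, subst_rename_some]
  · simp only [LinearMap.comp_apply, LinearEquiv.coe_coe, LinearEquiv.apply_symm_apply]
    rw [hsub, hEh, hEl, LinearEquiv.apply_symm_apply, hdsm, subst_rename_some]
  · simp only [LinearMap.comp_apply, LinearEquiv.coe_coe, LinearEquiv.apply_symm_apply]
    rw [siteDown_siteUp hf hd ht, ← hEl, map_sub, map_pow, rename_C, D.thetaQ_eq, hDq]
  · rw [← mem_smul_top_equiv El]
    rw [LinearMap.comp_apply, LinearMap.comp_apply, LinearEquiv.coe_coe,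
      mem_smul_top_equiv Eh.symm] at hx
    exact siteUp_reflects hk hθ hroots hLo crit ht hHi hf hx
  · have hc : rename g (MvPolynomial.X none ^ 2 - C (D.thetaQ θ hND)) =
        MvPolynomial.X i₀ ^ 2 - C (thetaAt θ (pr i₀).1.1) := by
      simp only [map_sub, map_pow, rename_X, rename_C, D.thetaQ_eq, hDq]
      rfl
    simp only [LinearMap.comp_apply, LinearEquiv.coe_coe, LinearEquiv.apply_symm_apply]
    rw [← hc, hEh]
    exact siteUp_siteDown hf hd hfsm (Eh y)
  · obtain ⟨P', rfl⟩ := rename_surjective g hgb.2 P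
    refine Eh.injective ?_
    simp only [LinearMap.comp_apply, LinearEquiv.coe_coe, LinearEquiv.apply_symm_apply]
    rw [aeval_update_rename i₀ rfl, hEh, LinearEquiv.apply_symm_apply, hfsm, hEl]

end Step

end FermatAgent.RT.Ladder
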