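import Mathlib
import Fermat.Agent.RT.Ladder.Frame
import Fermat.Agent.RT.Ladder.Sites
import Fermat.Agent.RT.Intertwine.Diamond

/-!
# One step of raising on diamond data

The degeneracy maps between the localised modules of two auxiliary levels, by matrices: they
intertwine the traces, are injective resp. surjective modulo the maximal ideal, and their composite
is `r² - 1` for the root `r` near the sign of the twisted Frobenius polynomial at the site. Every
element of the upper Hecke algebra has a counterpart below: `r` for the twisted operator at the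
site.
-/

set_option autoImplicit false

noncomputable section

open scoped MatrixGroups
open CongruenceSubgroup MvPolynomial IsLocalRing FermatAgent.HM FermatAgent.GaloisBasic Matrix

namespace FermatAgent.RT.Ladder

section Linear

variable {R V W : Type} [CommRing R] [AddCommGroup V] [Module R V] [AddCommGroup W] [Module R W]

lemma mem_smul_top_iff_repr {n : ℕ} (b : Module.Basis (Fin n) R V) (I : Ideal R) {x : V} :
    x ∈ I • (⊤ : Submodule R V) ↔ ∀ i, b.repr x i ∈ I := by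
  refine ⟨fun hx i => ?_, fun h => ?_⟩
  · refine Submodule.smul_induction_on hx (fun r hr v _ => ?_) fun u v hu hv => ?_
    · rw [map_smul, Finsupp.smul_apply, smul_eq_mul]
      exact I.mul_mem_right _ hr
    · rw [map_add, Finsupp.add_apply]
      exact add_mem hu hv
  · rw [← b.sum_repr x]
    exact sum_mem fun i _ => Submodule.smul_mem_smul (h i) Submodule.mem_top

lemma toMatrix_comm {n n' : ℕ} (b : Module.Basis (Fin n) R V) (b' : Module.Basis (Fin n') R W)
    (f : V →ₗ[R] W) {g : V →ₗ[R] V} {g' : W →ₗ[R] W} (h : ∀ x, f (g x) = g' (f x)) :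
    LinearMap.toMatrix b b' f * LinearMap.toMatrix b b g =
      LinearMap.toMatrix b' b' g' * LinearMap.toMatrix b b' f := by
  rw [← LinearMap.toMatrix_comp, ← LinearMap.toMatrix_comp]
  exact congrArg _ (LinearMap.ext h)

lemma mul_algebraMap_comm {n n' : ℕ} (J : Matrix (Fin n') (Fin n) R) (y : R) :
    J * algebraMap R (Matrix (Fin n) (Fin n) R) y =
      algebraMap R (Matrix (Fin n') (Fin n') R) y * J := by
  rw [Algebra.algebraMap_eq_smul_one, Algebra.algebraMap_eq_smul_one, Matrix.mul_smul,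
    Matrix.mul_one, Matrix.smul_mul, Matrix.one_mul]

end Linear

namespace AuxPrimes

variable {p : ℕ} [hp : Fact p.Prime]
variable {𝒪 : Type} [CommRing 𝒪] [IsDomain 𝒪] [IsDiscreteValuationRing 𝒪]
  [IsAdicComplete (maximalIdeal 𝒪) 𝒪] [Algebra ℤ_[p] 𝒪] [CharZero 𝒪]
variable {ν ι : Type} [DecidableEq ι] {L : ℕ} [Fintype ν] [DecidableEq ν]
variable {B : RaiseBase p 𝒪 ν ι L} {κ : Type} [Fintype κ] [DecidableEq κ] {m : κ → ℕ}
  [∀ i, NeZero (m i)] {N : ℕ} [NeZero N] (T : AuxPrimes B m N)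
  [IsLocalRing (MonoidAlgebra 𝒪 (CycProd m))] {D : DefProblem 𝒪} {half : 𝒪}
  (hD : ResidualFacts B D half)

/-- The residual criterion of Ihara's lemma at a step between levels with auxiliary primes. -/
abbrev SiteCriterion (A : Finset ν) (v : ν) : Prop :=
  ∀ (D' : ALData) (hqL : D'.q.Coprime L), D'.q = B.ell (B.site v) → D'.L = T.lvlQ A →
    PairCriterion D' hqL (fun i : {i // i ≠ B.site v} => B.pr i.1)
      (fun o => residue 𝒪 (T.aQ A (o.elim (B.site v) Subtype.val)))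

/-- The square root of the inverse diamond character. -/
def twChar : (ZMod N)ˣ →* MonoidAlgebra 𝒪 (CycProd m) :=
  (MonoidAlgebra.of 𝒪 (CycProd m)).comp
    ((MonoidHom.mk' (fun x : CycProd m => (sqrtHom (CycProd m) x)⁻¹) fun x y => by
      rw [map_mul, mul_inv]).comp T.δ)

/-- The twist at a prime. -/
def tw (i : ι) : MonoidAlgebra 𝒪 (CycProd m) := thetaAt T.twChar (B.ell i)

section

omit [IsAdicComplete (maximalIdeal 𝒪) 𝒪] [Algebra ℤ_[p] 𝒪] [CharZero 𝒪] [DecidableEq ι]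
    [DecidableEq ν] [IsLocalRing (MonoidAlgebra 𝒪 (CycProd m))]

omit [NeZero N] in
lemma tw_mul (i : ι) (h : ¬ B.ell i ∣ N) :
    T.tw i * T.tw i * thetaAt (diamondChar 𝒪 T.δ) (B.ell i) = 1 := by
  have hc : (B.ell i).Coprime N := ((B.pr i).1.2.coprime_iff_not_dvd).mpr h
  rw [tw, thetaAt, thetaAt, dif_pos hc, dif_pos hc]
  simp only [twChar, diamondChar, MonoidHom.comp_apply, MonoidHom.mk'_apply]
  rw [← map_mul, ← mul_inv, sqrtHom_mul_self T.odd_card, ← map_mul, inv_mul_cancel, map_one]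

omit hp [NeZero N] in
/-- The twist at a prime augments to one. -/
lemma aug_tw (i : ι) (h : ¬ B.ell i ∣ N) : GroupRing.aug 𝒪 (CycProd m) (T.tw i) = 1 := by
  have hc : (B.ell i).Coprime N := ((B.pr i).1.2.coprime_iff_not_dvd).mpr h
  rw [tw, thetaAt, dif_pos hc]
  exact GroupRing.aug_of _

omit hp in
/-- The twist at a Frobenius element is the twist of its prime. -/
lemma twistDet_frobenius {i : ι} (h : ¬ B.ell i ∣ N) {P : ValuationSubring Qbar}
    (hP : P.LiesOverPrime (B.ell i)) {σ : GQ} (hσ : P.IsFrobeniusAt σ (B.ell i)) :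
    twistDet (𝒪 := 𝒪) T.δ σ = T.tw i := by
  rw [tw, thetaAt, dif_pos (((B.pr i).1.2.coprime_iff_not_dvd).mpr h),
    ← cycloN_frobenius (B.pr i).1.2 h hP hσ]
  rfl

end

variable (A : Finset ν) {s : ℕ}
  (b : Module.Basis (Fin s) (MonoidAlgebra 𝒪 (CycProd m)) (T.Mod A)) (hs : 0 < s)

/-- The image of a polynomial in the Hecke algebra of the datum. -/
def op : MvPolynomial ι (MonoidAlgebra 𝒪 (CycProd m)) →+* (T.datum hD A b hs).act.Img :=
  ((T.datum hD A b hs).mkT.comp (Ideal.Quotient.mk _ :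
      MvPolynomial (Set.univ : Set ι) (MonoidAlgebra 𝒪 (CycProd m)) →+*
        modT₀ (δ := T.δ) (hNM := T.dvd_lvlQ A) (pr := B.pr) Set.univ (T.aS A))).comp
    (rename fun i => (⟨i, Set.mem_univ i⟩ : (Set.univ : Set ι))).toRingHom

/-- The twisted Hecke operator of a variable. -/
def trOp (i : ι) : (T.datum hD A b hs).act.Img := T.op hD A b hs (C (T.tw i) * X i)

section

omit [DecidableEq ν] [IsAdicComplete (maximalIdeal 𝒪) 𝒪]

/-- The image of a polynomial acts by its matrix on the localised module. -/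
lemma incl_op (P : MvPolynomial ι (MonoidAlgebra 𝒪 (CycProd m))) :
    (T.datum hD A b hs).act.incl (T.op hD A b hs P) =
      LinearMap.toMatrix b b (Algebra.lsmul (MonoidAlgebra 𝒪 (CycProd m))
        (MonoidAlgebra 𝒪 (CycProd m)) (T.Mod A) P) := by
  show endMat b (goodHeckeHom 𝒪 Set.univ (resIdeal (T.aS A))
    (Ideal.Quotient.mk _ (rename (fun i => (⟨i, Set.mem_univ i⟩ : (Set.univ : Set ι))) P))) = _
  rw [goodHeckeHom_mk, (rename_rename (fun i : ι => (⟨i, Set.mem_univ i⟩ : (Set.univ : Set ι)))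
    Subtype.val P).trans (rename_id_apply P)]
  rfl

/-- Scalars pull out of the matrix of a polynomial. -/
lemma incl_op_C_mul (y : MonoidAlgebra 𝒪 (CycProd m))
    (P : MvPolynomial ι (MonoidAlgebra 𝒪 (CycProd m))) :
    (T.datum hD A b hs).act.incl (T.op hD A b hs (C y * P)) =
      y • (T.datum hD A b hs).act.incl (T.op hD A b hs P) := by
  rw [incl_op, incl_op, map_mul, ← MvPolynomial.algebraMap_eq, AlgHom.commutes, ← Algebra.smul_def,
    map_smul]

omit [DecidableEq ν] [IsAdicComplete (maximalIdeal 𝒪) 𝒪] in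
include T in
lemma op_surjective : Function.Surjective (T.op hD A b hs) := by
  refine ((Ideal.Quotient.mk_surjective).comp ?_).comp
    (rename_surjective _ fun i => ⟨i.1, rfl⟩)
  exact Ideal.Quotient.mk_surjective

lemma op_eq_zero {P : MvPolynomial ι (MonoidAlgebra 𝒪 (CycProd m))}
    (h : ∀ x : T.Mod A, P • x = 0) : T.op hD A b hs P = 0 := by
  refine (T.datum hD A b hs).act.incl_injective ?_
  rw [incl_op, map_zero, show Algebra.lsmul (MonoidAlgebra 𝒪 (CycProd m))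
    (MonoidAlgebra 𝒪 (CycProd m)) (T.Mod A) P = 0 from LinearMap.ext h]
  exact LinearEquiv.map_zero _

lemma res_op (P : MvPolynomial ι (MonoidAlgebra 𝒪 (CycProd m))) :
    (T.datum hD A b hs).act.res (T.op hD A b hs P) =
      residue 𝒪 (GroupRing.aug 𝒪 (CycProd m) (aeval (T.aS A) P)) := by
  show resAug ((aeval fun i : (Set.univ : Set ι) => T.aS A i.1)
    (rename (fun i => (⟨i, Set.mem_univ i⟩ : (Set.univ : Set ι))) P)) = _
  rw [resAug_apply, aeval_rename]
  rfl

/-- Outside the auxiliary level the twisted operator has the residual value of the base system. -/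
lemma res_trOp {i : ι} (h : ¬ B.ell i ∣ T.lvlQ A) :
    (T.datum hD A b hs).act.res (T.trOp hD A b hs i) = residue 𝒪 (B.a₀ i) := by
  rw [trOp, res_op, map_mul, aeval_C, aeval_X, map_mul, Algebra.algebraMap_self, RingHom.id_apply,
    T.aug_tw i (T.not_dvd_N h), one_mul, AlgHom.commutes, T.aQ_of_not_dvd h]
  rfl

/-- **The trace at a good Frobenius.** -/
theorem mkT_t_frobenius {i : ι} (h : ¬ B.ell i ∣ T.lvlQ A) (hip : B.ell i ≠ p)
    {P : ValuationSubring Qbar} (hP : P.LiesOverPrime (B.ell i)) {σ : GQ}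
    (hσ : P.IsFrobeniusAt σ (B.ell i)) :
    (T.datum hD A b hs).mkT ((T.datum hD A b hs).td.t σ) = T.trOp hD A b hs i := by
  refine (congrArg (T.datum hD A b hs).mkT (modTd_frobenius (i := ⟨i, Set.mem_univ i⟩) p T.surj
    T.neg Set.univ (T.aS A) (T.hloc A) B.Sbad B.good_univ B.p_mem h hip hP hσ)).trans ?_
  rw [T.twistDet_frobenius (T.not_dvd_N h) hP hσ, trOp, op, RingHom.comp_apply, RingHom.comp_apply]
  refine congrArg (T.datum hD A b hs).mkT ?_
  show _ = Ideal.Quotient.mk _ (rename _ (C (T.tw i) * X i))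
  rw [map_mul, rename_C, rename_X, map_mul]
  rfl

/-- The determinant of a datum. -/
lemma Φ_td_d (g : GQ) :
    (T.datum hD A b hs).Φ ((T.datum hD A b hs).td.d g) =
      algebraMap (MonoidAlgebra 𝒪 (CycProd m)) _
        (algebraMap 𝒪 _ (algebraMap ℤ_[p] 𝒪 (ES.padCyclo p g))) :=
  modPhi_td_d p T.surj T.neg Set.univ (T.aS A) B.p_mem (T.hloc A) B.Sbad B.good_univ b T.odd_card g

end

variable {A}

omit [DecidableEq ν] [IsAdicComplete (maximalIdeal 𝒪) 𝒪] in
/-- A map commuting with good Hecke operators intertwines two data. -/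
theorem intertwines_of_comm {A' : Finset ν} {s' : ℕ}
    (b' : Module.Basis (Fin s') (MonoidAlgebra 𝒪 (CycProd m)) (T.Mod A')) (hs' : 0 < s')
    (f : T.Mod A →ₗ[MonoidAlgebra 𝒪 (CycProd m)] T.Mod A')
    (hf : ∀ i, ¬ B.ell i ∣ T.lvlQ A → ¬ B.ell i ∣ T.lvlQ A' →
      ∀ (y : MonoidAlgebra 𝒪 (CycProd m)) x, f ((C y * X i) • x) = (C y * X i) • f x) :
    DiamondDatum.Intertwines (T.datum hD A b hs) (T.datum hD A' b' hs')
      (LinearMap.toMatrix b b' f) := by
  set H₁ := T.datum hD A b hs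
  set H₂ := T.datum hD A' b' hs'
  have hd : ∀ g, LinearMap.toMatrix b b' f * H₁.Φ (H₁.td.d g) =
      H₂.Φ (H₂.td.d g) * LinearMap.toMatrix b b' f := fun g => by
    rw [T.Φ_td_d hD A b hs, T.Φ_td_d hD A' b' hs', mul_algebraMap_comm]
  refine ⟨fun g => ?_, hd⟩
  have hh : (algebraMap 𝒪 (MonoidAlgebra 𝒪 (CycProd m)) half) * 2 = 1 := by
    rw [← map_ofNat (algebraMap 𝒪 (MonoidAlgebra 𝒪 (CycProd m))) 2, ← map_mul, mul_comm,
      hD.two_half, map_one]
  have hpm : (p : MonoidAlgebra 𝒪 (CycProd m)) ∈ maximalIdeal (MonoidAlgebra 𝒪 (CycProd m)) := by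
    rw [← map_natCast (algebraMap 𝒪 (MonoidAlgebra 𝒪 (CycProd m)))]
    exact map_nonunit (algebraMap 𝒪 (MonoidAlgebra 𝒪 (CycProd m))) _ B.p_mem
  have := GroupRing.isNoetherianRing (O := 𝒪) (Δ := CycProd m)
  have hcont : ∀ {r : ℕ} (H : DiamondDatum D m p r) (k : ℕ),
      ∃ L : IntermediateField ℚ Qbar, FiniteDimensional ℚ L ∧ ∀ σ ∈ L.fixingSubgroup, ∀ g i j,
        H.Φ.toRingHom (H.td.t (g * σ)) i j - H.Φ.toRingHom (H.td.t g) i j ∈
          Ideal.span {(p : MonoidAlgebra 𝒪 (CycProd m)) ^ k} := by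
    intro r H k
    obtain ⟨Lk, hL, h⟩ := H.cont k
    refine ⟨Lk, hL, fun σ hσ g i j => ?_⟩
    obtain ⟨Y, hY⟩ := h σ hσ g
    show H.Φ (H.td.t (g * σ)) i j - H.Φ (H.td.t g) i j ∈ _
    rw [← Matrix.sub_apply, hY, Matrix.smul_apply, Algebra.smul_def, map_pow, map_natCast]
    exact Ideal.mul_mem_right _ _ (Ideal.subset_span rfl)
  refine (comm_of_frobenius H₁.td H₂.td H₁.Φ.toRingHom H₂.Φ.toRingHom _ hh
    (fun k => Ideal.span {(p : MonoidAlgebra 𝒪 (CycProd m)) ^ k})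
    (fun x hx => eq_zero_of_forall_mem_pow fun k => Ideal.span_le.mpr
      (Set.singleton_subset_iff.mpr (Ideal.pow_mem_pow hpm k)) (hx k))
    (hcont H₁) (hcont H₂) (B.Sbad ∪ (T.lvlQ A).primeFactors ∪ (T.lvlQ A').primeFactors ∪ {p})
    (fun q hq hqS P hP σ hσ => ?_) g).1
  refine ⟨?_, hd σ⟩
  simp only [Finset.mem_union, Finset.mem_singleton, not_or, Nat.mem_primeFactors] at hqS
  obtain ⟨i, -, rfl⟩ := B.good_univ q hq hqS.1.1.1
  have h₁ : ¬ B.ell i ∣ T.lvlQ A := fun h => hqS.1.1.2 ⟨hq, h, T.lvlQ_ne A⟩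
  have h₂ : ¬ B.ell i ∣ T.lvlQ A' := fun h => hqS.1.2 ⟨hq, h, T.lvlQ_ne A'⟩
  show LinearMap.toMatrix b b' f * H₁.act.incl (H₁.mkT (H₁.td.t σ)) =
    H₂.act.incl (H₂.mkT (H₂.td.t σ)) * LinearMap.toMatrix b b' f
  rw [T.mkT_t_frobenius hD A b hs h₁ hqS.2 hP hσ, T.mkT_t_frobenius hD A' b' hs' h₂ hqS.2 hP hσ,
    trOp, trOp, incl_op, incl_op]
  exact toMatrix_comm b b' f fun x => hf i h₁ h₂ (T.tw i) x

variable (A)

omit [IsAdicComplete (maximalIdeal 𝒪) 𝒪] in
/-- At a prime away from `p` the composite is a unit multiple of `r² - 1`. -/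
theorem exists_tame_unit {v : ν} (hv : v ∉ A) (r : (T.datum hD A b hs).act.Img)
    (hr : (T.datum hD A b hs).act.res r = residue 𝒪 (B.sgn v))
    (h : r * r - T.trOp hD A b hs (B.site v) * r + (B.ell (B.site v) : _) = 0) :
    ∃ u : (T.datum hD A b hs).act.Img, IsUnit u ∧ u * (r * r - 1) =
      (B.ell (B.site v) : _) + 1 -
        algebraMap 𝒪 _ (B.sgn v) * T.trOp hD A b hs (B.site v) := by
  set t := T.trOp hD A b hs (B.site v)
  set c := algebraMap 𝒪 (T.datum hD A b hs).act.Img (B.sgn v) with hc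
  have hcc : c * c = 1 := by rw [hc, ← map_mul, B.sgn_sq, map_one]
  have hres : (T.datum hD A b hs).act.res c = residue 𝒪 (B.sgn v) := AlgHom.commutes _ _
  have hs0 : residue 𝒪 (B.sgn v) ≠ 0 :=
    ((IsUnit.of_mul_eq_one _ (B.sgn_sq v)).map (residue 𝒪)).ne_zero
  have h2 : IsUnit (r + c) := by
    refine (T.datum hD A b hs).act.isUnit_of_res_ne_zero ?_
    rw [map_add, hr, hres, ← two_mul, ← map_ofNat (residue 𝒪) 2]
    exact mul_ne_zero (B.two.map (residue 𝒪)).ne_zero hs0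
  have h3 : IsUnit (t - r - c) := by
    refine (T.datum hD A b hs).act.isUnit_of_res_ne_zero ?_
    rw [map_sub, map_sub, hr, hres, res_trOp T hD A b hs (T.not_dvd_lvlQ hv),
      show residue 𝒪 (B.a₀ (B.site v)) =
        residue 𝒪 (B.sgn v * (1 + (B.ell (B.site v) : 𝒪))) from
          Ideal.Quotient.eq.mpr (B.low v), ← map_sub, ← map_sub,
      show B.sgn v * (1 + (B.ell (B.site v) : 𝒪)) - B.sgn v - B.sgn v =
        B.sgn v * ((B.ell (B.site v) : 𝒪) - 1) by ring]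
    exact (((IsUnit.of_mul_eq_one _ (B.sgn_sq v)).mul (B.distinct v)).map (residue 𝒪)).ne_zero
  refine ⟨(t - r - c) * (h2.unit⁻¹ : _ˣ), h3.mul (Units.isUnit _), ?_⟩
  calc (t - r - c) * (h2.unit⁻¹ : _ˣ) * (r * r - 1)
      = (t - r - c) * (r - c) * ((r + c) * (h2.unit⁻¹ : _ˣ)) := by
        linear_combination ((t - r - c) * (h2.unit⁻¹ : _ˣ)) * hcc
    _ = (t - r - c) * (r - c) := by rw [h2.mul_val_inv, mul_one]
    _ = _ := by linear_combination (-1 : (T.datum hD A b hs).act.Img) * h + hcc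

variable {A}

omit [NeZero N] [Algebra ℤ_[p] 𝒪] [CharZero 𝒪] in
/-- The degeneracy maps at a site between the modules of two auxiliary levels. -/
theorem exists_siteData {v : ν} (hv : v ∉ A) (hcrit : T.SiteCriterion A v) :
    ∃ (J : T.Mod A →ₗ[MonoidAlgebra 𝒪 (CycProd m)] T.Mod (insert v A))
      (Tr : T.Mod (insert v A) →ₗ[MonoidAlgebra 𝒪 (CycProd m)] T.Mod A)
      (t : MvPolynomial ι (MonoidAlgebra 𝒪 (CycProd m))),
      SiteStep (B.site v) (T.aS A) (algebraMap 𝒪 _ (B.sgn v))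
        (thetaAt (diamondChar 𝒪 T.δ) (B.ell (B.site v))) (B.ell (B.site v)) J Tr t := by
  have := GroupRing.isNoetherianRing (O := 𝒪) (Δ := CycProd m)
  have := GroupRing.isAdicComplete (O := 𝒪) (Δ := CycProd m)
  let : Algebra (MonoidAlgebra 𝒪 (CycProd m)) (ResidueField 𝒪) :=
    (resAug (𝒪 := 𝒪) (m := m)).toRingHom.toAlgebra
  set i₀ := B.site v
  have hiA : ¬ B.ell i₀ ∣ T.lvlQ A := T.not_dvd_lvlQ hv
  have hiN : ¬ B.ell i₀ ∣ N := T.not_dvd_N hiA
  set θ := thetaAt (diamondChar 𝒪 T.δ) (B.ell i₀) with hθdef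
  have hθaug : GroupRing.aug 𝒪 (CycProd m) θ = 1 := by
    rw [hθdef, thetaAt, dif_pos (((B.pr i₀).1.2.coprime_iff_not_dvd).mpr hiN)]
    exact GroupRing.aug_of _
  have hupd : T.aS (insert v A) =
      Function.update (T.aS A) i₀ (algebraMap 𝒪 _ (B.sgn v)) := by
    funext i
    show algebraMap 𝒪 _ (T.aQ (insert v A) i) = _
    rw [T.aQ_insert]
    exact Function.apply_update (fun _ => algebraMap 𝒪 (MonoidAlgebra 𝒪 (CycProd m))) _ _ _ i
  have haug : ∀ x : 𝒪, GroupRing.aug 𝒪 (CycProd m) (algebraMap 𝒪 _ x) = x :=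
    fun x => AlgHom.commutes _ x
  have hs2 : (algebraMap 𝒪 (MonoidAlgebra 𝒪 (CycProd m)) (B.sgn v)) *
      algebraMap 𝒪 _ (B.sgn v) = 1 := by rw [← map_mul, B.sgn_sq, map_one]
  have hroots : SiteRoots (diamondChar 𝒪 T.δ) (B.ell i₀) (T.aS A i₀) (algebraMap 𝒪 _ (B.sgn v))
      (algebraMap 𝒪 _ (B.sgn v) * (B.ell i₀ : _) * θ) := by
    refine ⟨?_, by rw [← mul_assoc, ← mul_assoc, hs2, one_mul],
      IsUnit.of_mul_eq_one _ hs2, ?_⟩
    · rw [T.mem_maximalIdeal_iff, map_sub, map_add, map_mul, map_mul, map_natCast, hθaug, haug,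
        haug, T.aQ_of_not_dvd hiA, mul_one,
        show B.sgn v + B.sgn v * (B.ell i₀ : 𝒪) = B.sgn v * (1 + (B.ell i₀ : 𝒪)) by ring]
      exact B.low v
    · rw [← notMem_maximalIdeal, T.mem_maximalIdeal_iff, notMem_maximalIdeal, map_sub, map_mul,
        map_mul, map_natCast, hθaug, haug, mul_one,
        show B.sgn v - B.sgn v * (B.ell i₀ : 𝒪) = -(B.sgn v * ((B.ell i₀ : 𝒪) - 1)) by ring]
      exact ((IsUnit.of_mul_eq_one _ (B.sgn_sq v)).mul (B.distinct v)).neg
  have hstep := exists_siteStep (k := ResidueField 𝒪) (θ := diamondChar 𝒪 T.δ) (pr := B.pr)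
    (fun y => by
      obtain ⟨o, rfl⟩ := residue_surjective y
      exact ⟨algebraMap 𝒪 _ o, AlgHom.commutes (resAug (𝒪 := 𝒪) (m := m)) o⟩)
    (fun u => (congrArg (residue 𝒪) (GroupRing.aug_of _)).trans (map_one _))
    (T.dvd_lvlQ A) (T.dvd_lvlQ (insert v A)) i₀ hiA (T.lvlQ_insert hv)
    (fun j hj => B.pr_inj hj) (T.aS A) _ _ hroots (T.nonEis A) (hupd ▸ T.nonEis (insert v A))
    (fun D' hqL hq hL => by
      convert hcrit D' hqL hq hL using 2
      exact AlgHom.commutes (resAug (𝒪 := 𝒪) (m := m)) _)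
  rwa [← hupd] at hstep

variable (A)

/-- **The degeneracy matrices at a site.** -/
theorem exists_siteMatrices {v : ν} (hv : v ∉ A) {s' : ℕ}
    (b' : Module.Basis (Fin s') (MonoidAlgebra 𝒪 (CycProd m)) (T.Mod (insert v A))) (hs' : 0 < s')
    (hcrit : T.SiteCriterion A v) :
    ∃ (J : Matrix (Fin s') (Fin s) (MonoidAlgebra 𝒪 (CycProd m)))
      (Tr : Matrix (Fin s) (Fin s') (MonoidAlgebra 𝒪 (CycProd m)))
      (r : (T.datum hD A b hs).act.Img),
      DiamondDatum.Intertwines (T.datum hD A b hs) (T.datum hD (insert v A) b' hs') J ∧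
      DiamondDatum.Intertwines (T.datum hD (insert v A) b' hs') (T.datum hD A b hs) Tr ∧
      (∀ x : Fin s → 𝒪, (∀ i, (J.map (GroupRing.aug 𝒪 (CycProd m)) *ᵥ x) i ∈ maximalIdeal 𝒪) →
        ∀ i, x i ∈ maximalIdeal 𝒪) ∧
      Function.Surjective (Tr *ᵥ ·) ∧
      (T.datum hD A b hs).act.res r = residue 𝒪 (B.sgn v) ∧
      r * r - T.trOp hD A b hs (B.site v) * r + (B.ell (B.site v) : _) = 0 ∧
      Tr * J = (T.datum hD A b hs).act.incl (r * r - 1) ∧
      DiamondDatum.Pairs (T.datum hD A b hs) (T.datum hD (insert v A) b' hs') J r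
        (T.trOp hD (insert v A) b' hs' (B.site v)) ∧
      ∀ y, ∃ x, DiamondDatum.Pairs (T.datum hD A b hs) (T.datum hD (insert v A) b' hs') J x y := by
  have := GroupRing.isNoetherianRing (O := 𝒪) (Δ := CycProd m)
  set i₀ := B.site v
  have hiN : ¬ B.ell i₀ ∣ N := T.not_dvd_N (T.not_dvd_lvlQ hv)
  set θ := thetaAt (diamondChar 𝒪 T.δ) (B.ell i₀) with hθdef
  have haug : ∀ x : 𝒪, GroupRing.aug 𝒪 (CycProd m) (algebraMap 𝒪 _ x) = x :=
    fun x => AlgHom.commutes _ x
  obtain ⟨J₀, Tr₀, t, ht, hteq, hJc, hTc, hTJ, hTs, hJi, -, hP⟩ := T.exists_siteData hv hcrit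
  set w := T.tw i₀
  have hw : w * w * θ = 1 := T.tw_mul i₀ hiN
  set H₁ := T.datum hD A b hs
  set H₂ := T.datum hD (insert v A) b' hs'
  set J := LinearMap.toMatrix b b' J₀
  have hC1 : (C w * C w * C θ : MvPolynomial ι (MonoidAlgebra 𝒪 (CycProd m))) = 1 := by
    rw [← map_mul, ← map_mul, hw, map_one]
  have hpair : ∀ P, DiamondDatum.Pairs H₁ H₂ J
      (T.op hD A b hs (aeval (Function.update X i₀ t) P)) (T.op hD (insert v A) b' hs' P) :=
    fun P => by
      rw [DiamondDatum.Pairs, incl_op, incl_op]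
      exact toMatrix_comm b b' J₀ fun x => (hP P x).symm
  have hfJ : ∀ i, ¬ B.ell i ∣ T.lvlQ (insert v A) → ∃ q : MvPolynomial {i // i ≠ i₀}
      (MonoidAlgebra 𝒪 (CycProd m)), rename Subtype.val q = X i := fun i hi => by
    refine ⟨X ⟨i, fun e => hi ?_⟩, rename_X _ _⟩
    rw [e, T.lvlQ_insert hv]
    exact dvd_mul_left _ _
  refine ⟨J, LinearMap.toMatrix b' b ((w * w) • Tr₀), T.op hD A b hs (C w * t), ?_, ?_,
    fun x hx => ?_, fun y => ?_, ?_, ?_, ?_, ?_, fun y => ?_⟩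
  · refine T.intertwines_of_comm hD b hs b' hs' J₀ fun i _ hi y x => ?_
    obtain ⟨q, hq⟩ := hfJ i hi
    rw [← hq, ← rename_C (Subtype.val : {i // i ≠ i₀} → ι), ← map_mul]
    exact hJc _ x
  · refine T.intertwines_of_comm hD b' hs' b hs _ fun i hi _ y x => ?_
    obtain ⟨q, hq⟩ := hfJ i hi
    rw [LinearMap.smul_apply, LinearMap.smul_apply, ← hq,
      ← rename_C (Subtype.val : {i // i ≠ i₀} → ι), ← map_mul, hTc]
    exact (smul_comm _ _ _).symm
  · set z := b.equivFun.symm fun i => algebraMap 𝒪 (MonoidAlgebra 𝒪 (CycProd m)) (x i)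
    have hz : ∀ i, b.repr z i = algebraMap 𝒪 _ (x i) := fun i => by
      rw [← Module.Basis.equivFun_apply, LinearEquiv.apply_symm_apply]
    have hJz : J₀ z ∈ maximalIdeal (MonoidAlgebra 𝒪 (CycProd m)) •
        (⊤ : Submodule (MonoidAlgebra 𝒪 (CycProd m)) (T.Mod (insert v A))) := by
      refine (mem_smul_top_iff_repr b' _).mpr fun i => ?_
      rw [T.mem_maximalIdeal_iff, ← LinearMap.toMatrix_mulVec_repr b b' J₀ z]
      have e := RingHom.map_mulVec (GroupRing.aug 𝒪 (CycProd m)).toRingHom J (b.repr z) i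
      have e' : (GroupRing.aug 𝒪 (CycProd m)).toRingHom ∘ (b.repr z) = x :=
        _root_.funext fun j => (congrArg _ (hz j)).trans (haug _)
      rw [e'] at e
      exact e.symm ▸ hx i
    intro i
    have h1 := (mem_smul_top_iff_repr b _).mp (hJi z hJz) i
    rwa [hz, T.mem_maximalIdeal_iff, haug] at h1
  · have hwu : IsUnit (w * w) := IsUnit.of_mul_eq_one _ hw
    obtain ⟨z, hz⟩ := hTs ((hwu.unit⁻¹ : _ˣ).1 • b.equivFun.symm y)
    refine ⟨b'.repr z, ?_⟩
    dsimp only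
    rw [LinearMap.toMatrix_mulVec_repr b' b, LinearMap.smul_apply, hz, smul_smul,
      hwu.mul_val_inv, one_smul, ← Module.Basis.equivFun_apply b, LinearEquiv.apply_symm_apply]
  · rw [res_op, map_mul, aeval_C, map_mul, Algebra.algebraMap_self, RingHom.id_apply,
      T.aug_tw i₀ hiN, one_mul]
    have h1 := mem_resIdeal.mp ht
    rw [map_sub, aeval_C, T.mem_maximalIdeal_iff, map_sub, Algebra.algebraMap_self,
      RingHom.id_apply, haug] at h1
    exact Ideal.Quotient.eq.mpr h1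
  · have h0 : T.op hD A b hs (t ^ 2 - X i₀ * t + C ((B.ell i₀ : ℕ) * θ)) = 0 :=
      T.op_eq_zero hD A b hs hteq
    rw [trOp, ← map_natCast (T.op hD A b hs), ← map_mul, ← map_mul, ← map_sub, ← map_add,
      show C w * t * (C w * t) - C w * X i₀ * (C w * t) +
        ((B.ell i₀ : ℕ) : MvPolynomial ι (MonoidAlgebra 𝒪 (CycProd m))) =
        C w * C w * (t ^ 2 - X i₀ * t + C ((B.ell i₀ : ℕ) * θ)) by
          rw [map_mul, map_natCast]
          linear_combination
            (-((B.ell i₀ : ℕ) : MvPolynomial ι (MonoidAlgebra 𝒪 (CycProd m)))) * hC1,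
      map_mul, h0, mul_zero]
  · have hTJm : ((w * w) • Tr₀) ∘ₗ J₀ = (w * w) • (Algebra.lsmul (MonoidAlgebra 𝒪 (CycProd m))
        (MonoidAlgebra 𝒪 (CycProd m)) (T.Mod A) (t ^ 2 - C θ)) :=
      LinearMap.ext fun x => congrArg (fun z => (w * w) • z) (hTJ x)
    rw [← LinearMap.toMatrix_comp, hTJm, map_smul, ← T.incl_op hD A b hs, ← T.incl_op_C_mul,
      ← map_mul (T.op hD A b hs), ← map_one (T.op hD A b hs), ← map_sub]
    refine congrArg (fun P => H₁.act.incl (T.op hD A b hs P)) ?_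
    rw [map_mul]
    linear_combination (-1 : MvPolynomial ι (MonoidAlgebra 𝒪 (CycProd m))) * hC1
  · have h := hpair (C w * X i₀)
    rwa [map_mul, aeval_C, aeval_X, Function.update_self, MvPolynomial.algebraMap_eq] at h
  · obtain ⟨P, rfl⟩ := T.op_surjective hD (insert v A) b' hs' y
    exact ⟨_, hpair P⟩

/-- **One step of raising on diamond data.** -/
theorem exists_step {v : ν} (hv : v ∉ A) {s' : ℕ}
    (b' : Module.Basis (Fin s') (MonoidAlgebra 𝒪 (CycProd m)) (T.Mod (insert v A))) (hs' : 0 < s')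
    (hcrit : T.SiteCriterion A v)
    (tI : (T.datum hD A b hs).act.Img)
    (htI : ∀ r : (T.datum hD A b hs).act.Img,
      (T.datum hD A b hs).act.res r = residue 𝒪 (B.sgn v) →
      r * r - T.trOp hD A b hs (B.site v) * r + (B.ell (B.site v) : _) = 0 →
      ∃ u, IsUnit u ∧ u * (r * r - 1) = tI) :
    ∃ (J : Matrix (Fin s') (Fin s) (MonoidAlgebra 𝒪 (CycProd m)))
      (Tr : Matrix (Fin s) (Fin s') (MonoidAlgebra 𝒪 (CycProd m))),
      DiamondDatum.Intertwines (T.datum hD A b hs) (T.datum hD (insert v A) b' hs') J ∧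
      DiamondDatum.Intertwines (T.datum hD (insert v A) b' hs') (T.datum hD A b hs) Tr ∧
      (∀ x : Fin s → 𝒪, (∀ i, (J.map (GroupRing.aug 𝒪 (CycProd m)) *ᵥ x) i ∈ maximalIdeal 𝒪) →
        ∀ i, x i ∈ maximalIdeal 𝒪) ∧
      (∀ y : Fin s → 𝒪, ∃ x, ∀ i,
        (Tr.map (GroupRing.aug 𝒪 (CycProd m)) *ᵥ x) i - y i ∈ maximalIdeal 𝒪) ∧
      Tr * J = (T.datum hD A b hs).act.incl tI := by
  obtain ⟨J, Tr, r, hJ, hT, hinj, hsurj, hr, hrr, hTJ, -⟩ :=
    T.exists_siteMatrices hD A b hs hv b' hs' hcrit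
  obtain ⟨u, hu, hut⟩ := htI r hr hrr
  set U := (T.datum hD A b hs).act.incl u
  have hUc : ∀ z, U * (T.datum hD A b hs).Φ z = (T.datum hD A b hs).Φ z * U := fun z => by
    rw [← DiamondDatum.incl_mkT, ← map_mul, ← map_mul, mul_comm]
  refine ⟨J, U * Tr, hJ, ⟨fun g => ?_, fun g => ?_⟩, hinj, fun y => ?_, ?_⟩
  · rw [Matrix.mul_assoc, hT.t, ← Matrix.mul_assoc, hUc, Matrix.mul_assoc]
  · rw [Matrix.mul_assoc, hT.d, ← Matrix.mul_assoc, hUc, Matrix.mul_assoc]
  · obtain ⟨u', hu'⟩ := isUnit_iff_exists_inv.mp hu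
    obtain ⟨z, hz⟩ := hsurj ((T.datum hD A b hs).act.incl u' *ᵥ fun j => algebraMap 𝒪 _ (y j))
    dsimp only at hz
    refine ⟨GroupRing.aug 𝒪 (CycProd m) ∘ z, fun i => ?_⟩
    have e := RingHom.map_mulVec (GroupRing.aug 𝒪 (CycProd m)).toRingHom (U * Tr) z i
    rw [← Matrix.mulVec_mulVec, hz, Matrix.mulVec_mulVec, ← map_mul, hu', map_one,
      Matrix.one_mulVec] at e
    rw [show ((U * Tr).map (GroupRing.aug 𝒪 (CycProd m)) *ᵥ
      (GroupRing.aug 𝒪 (CycProd m) ∘ z)) i = y i from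
        e.symm.trans (AlgHom.commutes (GroupRing.aug 𝒪 (CycProd m)) (y i)), sub_self]
    exact zero_mem _
  · rw [Matrix.mul_assoc, hTJ, ← map_mul, hut]

end AuxPrimes

end FermatAgent.RT.Ladder
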