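import Mathlib
import Fermat.Agent.RT.Ladder.Step
import Fermat.Agent.RT.Ladder.Limit

/-!
# The representation of the base ring on the base modules

Bases and ranks of the modules of the base levels, the representation of a base ring whose traces
are the Hecke operators at good Frobenius elements, and its agreement with the reduction of every
diamond datum.
-/

set_option autoImplicit false

noncomputable section

open scoped MatrixGroups
open CongruenceSubgroup MvPolynomial IsLocalRing FermatAgent.HM FermatAgent.GaloisBasic Matrix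

namespace FermatAgent.RT

namespace Ladder

namespace RaiseBase

variable {p : ℕ} [hp : Fact p.Prime]
variable {𝒪 : Type} [CommRing 𝒪] [IsDomain 𝒪] [IsDiscreteValuationRing 𝒪]
  [IsAdicComplete (maximalIdeal 𝒪) 𝒪] [Finite (ResidueField 𝒪)] [Algebra ℤ_[p] 𝒪] [CharZero 𝒪]
variable {ν ι : Type} [DecidableEq ι] {L : ℕ} [Fintype ν] [DecidableEq ν]
variable (B : RaiseBase p 𝒪 ν ι L)

omit hp [Algebra ℤ_[p] 𝒪] [CharZero 𝒪]

/-- A prime witnessing that the eigensystem is not Eisenstein at any level with raised sites. -/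
def Witness : Prop :=
  ∃ i, ((B.ell i : ℕ) : ZMod (B.M * ∏ v, B.ell (B.site v))) = 1 ∧
    IsUnit (B.a₀ i - ((B.ell i : 𝒪) + 1))

variable {B}

omit [IsAdicComplete (maximalIdeal 𝒪) 𝒪] [Finite (ResidueField 𝒪)] [DecidableEq ι]
    [DecidableEq ν] in
/-- A witness against Eisenstein systems serves every raised base level. -/
lemma Witness.exists_at (hw : B.Witness) (A : Finset ν) :
    ∃ i, ¬ B.ell i ∣ B.lvl A ∧ ((B.ell i : ℕ) : ZMod (B.lvl A)) = 1 ∧
      IsUnit (B.a₀ i - ((B.ell i : 𝒪) + 1)) := by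
  obtain ⟨i, hi, hu⟩ := hw
  have hd : B.lvl A ∣ B.M * ∏ v, B.ell (B.site v) :=
    mul_dvd_mul_left _ (Finset.prod_dvd_prod_of_subset _ _ _ A.subset_univ)
  have h1 := congrArg (ZMod.castHom hd (ZMod (B.lvl A))) hi
  rw [map_natCast, map_one] at h1
  refine ⟨i, fun h => ?_, h1, hu⟩
  have h2 := congrArg (ZMod.castHom h (ZMod (B.ell i))) h1
  have : Fact (B.ell i).Prime := ⟨(B.pr i).1.2⟩
  rw [map_natCast, map_one, ZMod.natCast_self] at h2
  exact zero_ne_one h2

omit [DecidableEq ν] [IsAdicComplete (maximalIdeal 𝒪) 𝒪] [Finite (ResidueField 𝒪)] in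
/-- The eigensystem of a base level is not Eisenstein. -/
lemma Witness.nonEis (hw : B.Witness) (A : Finset ν) :
    NonEis (one_dvd (B.lvl A)) (1 : (ZMod 1)ˣ →* 𝒪) B.pr (resIdeal (B.aAt A)) := by
  obtain ⟨i, hi, -, hu⟩ := hw.exists_at A
  refine ⟨rfl, B.two, B.three.of_dvd (dvd_mul_right _ _) (RingHom.id _), i, hi,
    Subsingleton.elim _ _, fun hm => ?_⟩
  rw [X_sub_C_mem_resIdeal, B.aAt_of_not_dvd hi] at hm
  exact (mem_maximalIdeal _).mp hm hu

omit [DecidableEq ν] in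
/-- With a witness the module of each base level is finite free. -/
lemma Witness.free (hw : B.Witness) (A : Finset ν) :
    Module.Free 𝒪 (B.Triv A) ∧ Module.Finite 𝒪 (B.Triv A) := by
  obtain ⟨ϖ, hϖ⟩ := IsDiscreteValuationRing.exists_irreducible 𝒪
  have : Finite (𝒪 ⧸ Ideal.span {ϖ}) := by
    rw [← hϖ.maximalIdeal_eq]
    exact ‹Finite (ResidueField 𝒪)›
  exact ⟨free_thetaLoc (hw.nonEis A) ((mem_maximalIdeal _).mpr hϖ.not_isUnit)
    (mul_right_injective₀ hϖ.ne_zero)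
    (isFiniteLength_iff_isNoetherian_isArtinian.mpr ⟨inferInstance, inferInstance⟩),
    moduleFinite_thetaLoc _⟩

variable (B) in
/-- The residual criteria of Ihara's lemma at all steps between base levels. -/
def BaseCriteria : Prop :=
  ∀ (A : Finset ν) (v : ν), v ∉ A → ∀ (D' : ALData) (hqL : D'.q.Coprime L),
    D'.q = B.ell (B.site v) → D'.L = B.lvl A →
      PairCriterion D' hqL (fun i : {i // i ≠ B.site v} => B.pr i.1)
        (fun o => residue 𝒪 (B.aAt A (o.elim (B.site v) Subtype.val)))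

omit [Finite (ResidueField 𝒪)] in
/-- The maps of one step of raising, with their composite. -/
lemma Witness.exists_step_maps (hw : B.Witness) (hcrit : B.BaseCriteria) {A : Finset ν} {v : ν}
    (hv : v ∉ A) (hlvl : B.lvl (insert v A) = B.lvl A * B.ell (B.site v)) :
    ∃ (Jr : B.Triv A →ₗ[𝒪] B.Triv (insert v A)) (Tr : B.Triv (insert v A) →ₗ[𝒪] B.Triv A),
      (∀ (P : MvPolynomial {i // i ≠ B.site v} 𝒪) x,
        Jr (rename Subtype.val P • x) = rename Subtype.val P • Jr x) ∧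
      (∀ (P : MvPolynomial {i // i ≠ B.site v} 𝒪) y,
        Tr (rename Subtype.val P • y) = rename Subtype.val P • Tr y) ∧
      Function.Surjective Tr ∧
      ∀ y, Jr (Tr y) = ((MvPolynomial.X (B.site v) : MvPolynomial ι 𝒪) ^ 2 - 1) • y := by
  classical
  set i₀ := B.site v
  set q := B.ell i₀
  have hiA : ¬ q ∣ B.lvl A := B.not_dvd_lvl hv
  have hθ : thetaAt (1 : (ZMod 1)ˣ →* 𝒪) q = 1 := by
    rw [thetaAt, dif_pos (Nat.coprime_one_right _), MonoidHom.one_apply]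
  have hupd : B.aAt (insert v A) = Function.update (B.aAt A) i₀ (B.sgn v) :=
    B.aAt_insert_eq_update A v
  have hs2 := B.sgn_sq v
  have hroots : SiteRoots (1 : (ZMod 1)ˣ →* 𝒪) q (B.aAt A i₀) (B.sgn v)
      (B.sgn v * (q : 𝒪)) := by
    refine ⟨?_, by rw [hθ, mul_one, ← mul_assoc, hs2, one_mul], IsUnit.of_mul_eq_one _ hs2, ?_⟩
    · rw [B.aAt_of_not_dvd hiA,
        show B.sgn v + B.sgn v * (q : 𝒪) = B.sgn v * (1 + (q : 𝒪)) by ring]
      exact B.low v
    · rw [show B.sgn v - B.sgn v * (q : 𝒪) = -(B.sgn v * ((q : 𝒪) - 1)) by ring]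
      exact ((IsUnit.of_mul_eq_one _ hs2).mul (B.distinct v)).neg
  have hstep := exists_siteStep (k := ResidueField 𝒪) (θ := (1 : (ZMod 1)ˣ →* 𝒪)) (pr := B.pr)
    residue_surjective (fun u => map_one _) (one_dvd (B.lvl A)) (one_dvd (B.lvl (insert v A)))
    i₀ hiA hlvl (fun j hj => B.pr_inj hj) (B.aAt A) _ _ hroots (hw.nonEis A)
    (hupd ▸ hw.nonEis (insert v A)) (hcrit A v hv)
  rw [← hupd] at hstep
  obtain ⟨Jr, Tr, t, S⟩ := hstep
  exact ⟨Jr, Tr, S.J_comm, S.Tr_comm, S.Tr_surjective, fun y => by rw [S.J_Tr, hθ, map_one]⟩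

omit [Finite (ResidueField 𝒪)] in
/-- **The modules of all base levels are nonzero.** -/
theorem Witness.nontrivial (hw : B.Witness) (hcrit : B.BaseCriteria)
    (h0 : Nontrivial (B.Triv ∅)) (A : Finset ν) : Nontrivial (B.Triv A) := by
  induction A using Finset.induction_on with
  | empty => exact h0
  | @insert v A hv ih =>
    obtain ⟨-, Tr, -, -, hs, -⟩ := hw.exists_step_maps hcrit hv (by
      simp only [lvl, Finset.prod_insert hv]
      ring)
    exact hs.nontrivial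

/-- **Bases of all base levels.** -/
theorem Witness.exists_baseBasis (hw : B.Witness) (hcrit : B.BaseCriteria)
    (h0 : Nontrivial (B.Triv ∅)) :
    ∃ (rk : Finset ν → ℕ) (_ : ∀ A, Module.Basis (Fin (rk A)) 𝒪 (B.Triv A)), ∀ A, 0 < rk A := by
  have := fun A => (hw.free A).1
  have := fun A => (hw.free A).2
  refine ⟨fun A => Module.finrank 𝒪 (B.Triv A), fun A => Module.finBasis 𝒪 (B.Triv A), fun A => ?_⟩
  have := hw.nontrivial hcrit h0 A
  exact Module.finrank_pos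

variable (B) in
/-- The traces of the base ring act as the Hecke operators at good Frobenius elements. -/
def BaseRep {R₀ : Type} [CommRing R₀] [Algebra 𝒪 R₀] (M₀ : MatRep R₀) {rk : Finset ν → ℕ}
    (b₀ : ∀ A, Module.Basis (Fin (rk A)) 𝒪 (B.Triv A))
    (ρ₀ : ∀ A, R₀ →ₐ[𝒪] Matrix (Fin (rk A)) (Fin (rk A)) 𝒪) : Prop :=
  ∀ A i, ¬ B.ell i ∣ B.lvl A → B.ell i ≠ p → ∀ (P : ValuationSubring Qbar) (σ : GQ),
    P.LiesOverPrime (B.ell i) → P.IsFrobeniusAt σ (B.ell i) →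
      ρ₀ A (M₀ σ).trace = opMat (b₀ A) i

end RaiseBase

namespace AuxPrimes

variable {p : ℕ} [hp : Fact p.Prime]
variable {𝒪 : Type} [CommRing 𝒪] [IsDomain 𝒪] [IsDiscreteValuationRing 𝒪] [Finite (ResidueField 𝒪)]
  [Algebra ℤ_[p] 𝒪] [CharZero 𝒪]
variable {ν ι : Type} [DecidableEq ι] {L : ℕ} [Fintype ν]
variable {B : RaiseBase p 𝒪 ν ι L} {κ : Type} [Fintype κ] [DecidableEq κ] {m : κ → ℕ}
  [∀ i, NeZero (m i)] {N : ℕ} [NeZero N] (T : AuxPrimes B m N)
  [IsLocalRing (MonoidAlgebra 𝒪 (CycProd m))] {D : DefProblem 𝒪} {half : 𝒪}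
  (hD : ResidualFacts B D half)
variable (A : Finset ν) {s : ℕ}
  (b : Module.Basis (Fin s) (MonoidAlgebra 𝒪 (CycProd m)) (T.Mod A)) (hs : 0 < s)
  (b₀ : Module.Basis (Fin s) 𝒪 (B.Triv A))
  (hb : ∀ i, i ∉ T.Q → (opMat b i).map (GroupRing.aug 𝒪 (CycProd m)) = opMat b₀ i)

omit hp [Finite (ResidueField 𝒪)] [Algebra ℤ_[p] 𝒪] [CharZero 𝒪] [DecidableEq ι] [NeZero N]
    [IsLocalRing (MonoidAlgebra 𝒪 (CycProd m))] in
include T in
/-- An auxiliary level provides a witness for the base level. -/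
lemma witness_base : B.Witness := by
  obtain ⟨i, hi, hu⟩ := T.witness
  refine ⟨i, ?_, hu⟩
  have h1 := congrArg (ZMod.castHom (dvd_mul_right (B.M * ∏ v, B.ell (B.site v))
    (∏ i ∈ T.Q, B.ell i)) (ZMod (B.M * ∏ v, B.ell (B.site v)))) hi
  rwa [map_natCast, map_one] at h1

omit [Finite (ResidueField 𝒪)] in
include hb in
/-- The reduction of the trace at a good Frobenius. -/
lemma map_aug_frobenius {i : ι} (h : ¬ B.ell i ∣ T.lvlQ A) (hip : B.ell i ≠ p)
    {P : ValuationSubring Qbar} (hP : P.LiesOverPrime (B.ell i)) {σ : GQ}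
    (hσ : P.IsFrobeniusAt σ (B.ell i)) :
    ((T.datum hD A b hs).Φ ((T.datum hD A b hs).td.t σ)).map (GroupRing.aug 𝒪 (CycProd m)) =
      opMat b₀ i := by
  rw [← DiamondDatum.incl_mkT, T.mkT_t_frobenius hD A b hs h hip hP hσ, trOp, incl_op_C_mul,
    incl_op, ← hb i (T.notMem_of_not_dvd h)]
  ext a c
  rw [Matrix.map_apply, Matrix.smul_apply, smul_eq_mul, map_mul, T.aug_tw i (T.not_dvd_N h),
    one_mul]
  rfl

include hb in
/-- **The reduction of a datum is the representation of the base ring.** -/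
theorem map_aug_td_t {R₀ : Type} [CommRing R₀] [IsLocalRing R₀] [Algebra 𝒪 R₀]
    [IsNoetherianRing R₀] {M₀ : MatRep R₀} (hM₀ : MatContinuous R₀ M₀)
    (hdet₀ : ∀ g, (M₀ g).det = algebraMap 𝒪 R₀ (algebraMap ℤ_[p] 𝒪 (ES.padCyclo p g)))
    (ρ : R₀ →ₐ[𝒪] Matrix (Fin s) (Fin s) 𝒪)
    (hρ : ∀ i, ¬ B.ell i ∣ B.lvl A → B.ell i ≠ p → ∀ (P : ValuationSubring Qbar) (σ : GQ),
      P.LiesOverPrime (B.ell i) → P.IsFrobeniusAt σ (B.ell i) →
        ρ (M₀ σ).trace = opMat b₀ i) (g : GQ) :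
    ((T.datum hD A b hs).Φ ((T.datum hD A b hs).td.t g)).map (GroupRing.aug 𝒪 (CycProd m)) =
      ρ (M₀ g).trace := by
  set H := T.datum hD A b hs
  let Φ₁ : H.T₀ →+* Matrix (Fin s) (Fin s) 𝒪 :=
    (GroupRing.aug 𝒪 (CycProd m)).toRingHom.mapMatrix.comp H.Φ.toRingHom
  have hd : ∀ x, Φ₁ (H.td.d x) = ρ (M₀ x).det := fun x => by
    show (H.Φ (H.td.d x)).map (GroupRing.aug 𝒪 (CycProd m)) = _
    rw [T.Φ_td_d hD A b hs, hdet₀, AlgHom.commutes, Matrix.algebraMap_eq_diagonal,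
      Matrix.diagonal_map (map_zero _), Matrix.algebraMap_eq_diagonal]
    exact congrArg Matrix.diagonal (funext fun _ => AlgHom.commutes (GroupRing.aug 𝒪 (CycProd m)) _)
  have := (comm_of_frobenius H.td (traceDetRep M₀) Φ₁ ρ.toRingHom 1
    (half := half) (by rw [mul_comm]; exact hD.two_half)
    (fun k => maximalIdeal 𝒪 ^ k) (fun x hx => eq_zero_of_forall_mem_pow hx)
    (fun k => by
      obtain ⟨L₀, hL, h⟩ := H.cont k
      refine ⟨L₀, hL, fun σ hσ g' i j => ?_⟩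
      obtain ⟨Y, hY⟩ := h σ hσ g'
      show GroupRing.aug 𝒪 (CycProd m) (H.Φ (H.td.t (g' * σ)) i j) -
        GroupRing.aug 𝒪 (CycProd m) (H.Φ (H.td.t g') i j) ∈ _
      rw [← map_sub, ← Matrix.sub_apply, hY, Matrix.smul_apply, map_smul, smul_eq_mul]
      exact Ideal.mul_mem_right _ _ (Ideal.pow_mem_pow B.p_mem _))
    (fun k => by
      have := finite_quotient_maximalIdeal_pow (A := 𝒪) k
      set ψ := (Ideal.Quotient.mk (maximalIdeal 𝒪 ^ k)).mapMatrix.comp ρ.toRingHom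
      have : Finite (Matrix (Fin s) (Fin s) (𝒪 ⧸ maximalIdeal 𝒪 ^ k)) :=
        inferInstanceAs (Finite (Fin s → Fin s → _))
      obtain ⟨L₀, hL, h⟩ := hM₀ (Nat.card (Matrix (Fin s) (Fin s) (𝒪 ⧸ maximalIdeal 𝒪 ^ k)))
      refine ⟨L₀, hL, fun σ hσ g' i j => Ideal.Quotient.eq.mp ?_⟩
      have hmem : (M₀ (g' * σ)).trace - (M₀ g').trace ∈ maximalIdeal R₀ ^
          Nat.card (Matrix (Fin s) (Fin s) (𝒪 ⧸ maximalIdeal 𝒪 ^ k)) := by
        rw [← Matrix.trace_sub,
          show M₀ (g' * σ) - M₀ g' = M₀ g' * (M₀ σ - 1) by rw [map_mul, mul_sub, mul_one]]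
        exact sum_mem fun a _ => by
          rw [Matrix.diag_apply, Matrix.mul_apply]
          exact sum_mem fun c _ => Ideal.mul_mem_left _ _ (h σ hσ c a)
      have h0 := pow_natCard_le_ker ψ hmem
      rw [RingHom.mem_ker, map_sub, sub_eq_zero] at h0
      exact congrFun (congrFun h0 i) j)
    (B.Sbad ∪ (T.lvlQ A).primeFactors ∪ {p})
    (fun q hq hqS P hP σ hσ => ?_) g).1
  · rw [Matrix.one_mul, Matrix.mul_one] at this
    exact this
  refine ⟨?_, by rw [Matrix.one_mul, Matrix.mul_one]; exact hd σ⟩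
  simp only [Finset.mem_union, Finset.mem_singleton, not_or, Nat.mem_primeFactors] at hqS
  obtain ⟨i, -, rfl⟩ := B.good_univ q hq hqS.1.1
  have hi : ¬ B.ell i ∣ T.lvlQ A := fun h => hqS.1.2 ⟨hq, h, T.lvlQ_ne A⟩
  rw [Matrix.one_mul, Matrix.mul_one]
  exact (T.map_aug_frobenius hD A b hs b₀ hb hi hqS.2 hP hσ).trans
    (hρ i (fun h => hi (h.trans (T.lvl_dvd_lvlQ A))) hqS.2 P σ hP hσ).symm

end AuxPrimes

end Ladder

end FermatAgent.RT
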