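import Mathlib
import Fermat.Agent.RT.Ladder.Step
import Fermat.Agent.RT.Cond.ModuleAct
import Fermat.Agent.RT.Tower.TameSide
import Fermat.Agent.BAD.Diamond.Main

/-!
# Tame elements on the data of raising

The traces of inertia at raised sites and at auxiliary primes, the auxiliary sets of the data, and
the composite of the degeneracy maps at a site prime to `p`.
-/

set_option autoImplicit false

noncomputable section

open scoped MatrixGroups
open CongruenceSubgroup MvPolynomial IsLocalRing FermatAgent.HM FermatAgent.GaloisBasic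

namespace FermatAgent.RT.Ladder.AuxPrimes

variable {p : ℕ} [hp : Fact p.Prime]
variable {𝒪 : Type} [CommRing 𝒪] [IsDomain 𝒪] [IsDiscreteValuationRing 𝒪] [Algebra ℤ_[p] 𝒪]
  [CharZero 𝒪]
variable {ν ι : Type} [DecidableEq ι] {L : ℕ} [Fintype ν] [DecidableEq ν]
variable {B : RaiseBase p 𝒪 ν ι L} {κ : Type} [Fintype κ] [DecidableEq κ] {m : κ → ℕ}
  [∀ i, NeZero (m i)] {N : ℕ} [NeZero N] (T : AuxPrimes B m N)
  [IsLocalRing (MonoidAlgebra 𝒪 (CycProd m))] {D : DefProblem 𝒪} {half : 𝒪}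
  (hD : ResidualFacts B D half)
variable (A : Finset ν) {s : ℕ}
  (b : Module.Basis (Fin s) (MonoidAlgebra 𝒪 (CycProd m)) (T.Mod A)) (hs : 0 < s)

/-- The Galois action on a datum. -/
def galAct : DiamondDatum.GalAct (T.datum hD A b hs) :=
  moduleGalAct p T.surj T.neg Set.univ (T.aS A) B.p_mem (T.hloc A) B.Sbad B.good_univ b T.pow hs
    T.odd_card D hD.span half hD.two_half hD.det _

omit [DecidableEq ν] in
lemma galAct_ρ (g : GQ) : (T.galAct hD A b hs).ρ g =
    modRho p T.surj T.neg (T.aS A) (T.hloc A) b g := rfl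

omit [NeZero N] [IsLocalRing (MonoidAlgebra 𝒪 (CycProd m))] hp [Algebra ℤ_[p] 𝒪] [CharZero 𝒪]
    [DecidableEq ι] in
include T in
lemma not_dvd_N_site (v : ν) : ¬ B.ell (B.site v) ∣ N :=
  fun h => T.not_dvd_lvlQ (A := ∅) (Finset.notMem_empty v) (h.trans (T.dvd_lvlQ ∅))

omit [NeZero N] [IsLocalRing (MonoidAlgebra 𝒪 (CycProd m))] hp [Algebra ℤ_[p] 𝒪] [CharZero 𝒪]
    [DecidableEq ι] in
lemma sq_not_dvd_lvlQ {A : Finset ν} {v : ν} (hv : v ∈ A) :
    B.ell (B.site v) ∣ T.lvlQ A ∧ ¬ B.ell (B.site v) ^ 2 ∣ T.lvlQ A := by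
  have e := T.lvlQ_insert (A := A.erase v) (Finset.notMem_erase v A)
  rw [Finset.insert_erase hv] at e
  rw [e]
  refine ⟨dvd_mul_left _ _, fun h => ?_⟩
  rw [pow_two] at h
  exact T.not_dvd_lvlQ (Finset.notMem_erase v A)
    (Nat.dvd_of_mul_dvd_mul_right (B.pr _).1.2.pos h)

/-- Inertia at a site outside the raised set acts trivially. -/
theorem galAct_inertia {A : Finset ν} {s : ℕ}
    (b : Module.Basis (Fin s) (MonoidAlgebra 𝒪 (CycProd m)) (T.Mod A)) (hs : 0 < s) {v : ν}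
    (hv : v ∉ A) (hvp : B.ell (B.site v) ≠ p) {P : ValuationSubring Qbar}
    (hP : P.LiesOverPrime (B.ell (B.site v))) {τ : GQ} (hτ : τ ∈ P.inertiaSubgroupIn ℚ) :
    (T.galAct hD A b hs).ρ τ = 1 :=
  modRho_eq_one_of_inertia p T.surj T.neg (T.aS A) (T.hloc A) b (B.pr _).1.2 (T.not_dvd_lvlQ hv)
    hvp hP hτ

/-- **Inertia at every site has trace two.** -/
theorem trace_site_two (v : ν) (hvp : B.ell (B.site v) ≠ p) {P : ValuationSubring Qbar}
    (hP : P.LiesOverPrime (B.ell (B.site v))) {τ : GQ} (hτ : τ ∈ P.inertiaSubgroupIn ℚ) :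
    (T.datum hD A b hs).Φ ((T.datum hD A b hs).td.t τ) = 2 := by
  have hcyc := ES.padCyclo_inertia p (B.pr _).1.2 hvp hP hτ
  show modPhi Set.univ (T.aS A) b _ = _
  refine (modPhi_td_t p T.surj T.neg Set.univ (T.aS A) B.p_mem (T.hloc A) B.Sbad B.good_univ b
    T.odd_card τ).trans ?_
  rw [modPhi_td_d_eq_one p T.surj T.neg Set.univ (T.aS A) B.p_mem (T.hloc A) B.Sbad B.good_univ b
    T.odd_card hcyc, one_mul]
  by_cases hv : v ∈ A
  · obtain ⟨h1, h2⟩ := T.sq_not_dvd_lvlQ hv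
    have hN : cycloN N τ = 1 := BAD.cycloN_of_inertia (B.pr _).1.2 (T.not_dvd_N_site v) hP hτ
    have hu : T.δ (cycloN N τ) = 1 * 1 := by rw [hN, map_one, mul_one]
    have hdet : detChar p 𝒪 T.δ τ = 1 := by
      show MonoidAlgebra.single _ _ = _
      rw [hN, hcyc, map_one, map_one, MonoidAlgebra.one_def]
    rw [quadratic_of_relation p T.surj T.neg (T.aS A) (T.hloc A) b hu hcyc T.odd_card
      (by
        rw [hdet, map_one, map_one]
        exact BAD.galLoc_unipotent (p := p) 𝒪 T.surj T.neg (resIdeal (T.aS A)) (T.hloc A)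
          (B.pr _).1.2 h1 h2 (T.not_dvd_N_site v) hvp hP hτ),
      inv_one, map_one, one_add_one_eq_two, map_ofNat]
  · rw [← T.galAct_ρ hD A b hs, ← T.galAct_ρ hD A b hs, T.galAct_inertia hD b hs hv hvp hP hτ,
      T.galAct_inertia hD b hs hv hvp hP (inv_mem hτ), one_add_one_eq_two]

omit [DecidableEq ν] in
/-- The trace at a tame element acting by a diamond. -/
theorem trace_diamond {τ : GQ} {j : κ}
    (hu : T.δ (cycloN N τ) = cycGen (m := m) j * cycGen (m := m) j) (hcyc : ES.padCyclo p τ = 1)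
    (hrel : (galLoc p 𝒪 T.surj T.neg (resIdeal (T.aS A)) (T.hloc A) τ - 1) *
      (galLoc p 𝒪 T.surj T.neg (resIdeal (T.aS A)) (T.hloc A) τ -
        algebraMap (MvPolynomial ι (MonoidAlgebra 𝒪 (CycProd m))) _
          (C (detChar p 𝒪 T.δ τ))) = 0) :
    (T.datum hD A b hs).Φ ((T.datum hD A b hs).td.t τ) =
        algebraMap (MonoidAlgebra 𝒪 (CycProd m)) _ (cycX 𝒪 j + cycXinv 𝒪 j) ∧
      (T.datum hD A b hs).Φ ((T.datum hD A b hs).td.d τ) = 1 :=
  ⟨modPhi_td_t_of_relation p T.surj T.neg Set.univ (T.aS A) B.p_mem (T.hloc A) B.Sbad B.good_univ b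
      T.odd_card hu hcyc hrel,
    modPhi_td_d_eq_one p T.surj T.neg Set.univ (T.aS A) B.p_mem (T.hloc A) B.Sbad B.good_univ b
      T.odd_card hcyc⟩

/-- The tame auxiliary primes of a selection, acting by the squares of its generators. -/
def TameRel (sel : Finset κ) (aux : {j // j ∈ sel} → TameAux p D.rbar) (A : Finset ν) : Prop :=
  ∀ j, (galLoc p 𝒪 T.surj T.neg (resIdeal (T.aS A)) (T.hloc A) (aux j).τ - 1) *
    (galLoc p 𝒪 T.surj T.neg (resIdeal (T.aS A)) (T.hloc A) (aux j).τ -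
      algebraMap (MvPolynomial ι (MonoidAlgebra 𝒪 (CycProd m))) _
        (C (detChar p 𝒪 T.δ (aux j).τ))) = 0

variable (sel : Finset κ) (aux : {j // j ∈ sel} → TameAux p D.rbar)
  (hu : ∀ j, T.δ (cycloN N (aux j).τ) = cycGen (m := m) j.1 * cycGen (m := m) j.1)
  (h1 : ∀ j ∈ sel, 1 < m j)
  (hrel : T.TameRel sel aux A)

/-- **The auxiliary set of a datum.** -/
def auxSet : (T.datum hD A b hs).AuxSet where
  sel := sel
  aux := aux
  trace_eq j := (T.trace_diamond hD A b hs (hu j)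
    (ES.padCyclo_inertia p (aux j).prime (aux j).ne (aux j).lies (aux j).gen.mem) (hrel j)).1
  det_eq j := (T.trace_diamond hD A b hs (hu j)
    (ES.padCyclo_inertia p (aux j).prime (aux j).ne (aux j).lies (aux j).gen.mem) (hrel j)).2
  three_le j := by
    obtain ⟨k, hk⟩ := T.pow j.1
    have hk1 : 1 ≤ k := Nat.one_le_iff_ne_zero.mpr fun h0 => by
      have := h1 j.1 j.2
      rw [hk, h0, pow_zero] at this
      exact lt_irrefl _ this
    have hp2 : p ≠ 2 := fun h2 => by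
      have h2m : (2 : 𝒪) ∈ maximalIdeal 𝒪 := by simpa [h2] using B.p_mem
      exact (mem_maximalIdeal _).mp h2m B.two
    calc 3 ≤ p := by have := hp.out.two_le; omega
      _ = p ^ 1 := (pow_one p).symm
      _ ≤ m j.1 := hk ▸ Nat.pow_le_pow_right hp.out.pos hk1
  odd j := by
    obtain ⟨k, hk⟩ := T.pow j.1
    rw [hk]
    refine (hp.out.odd_of_ne_two fun h2 => ?_).pow
    have h2m : (2 : 𝒪) ∈ maximalIdeal 𝒪 := by simpa [h2] using B.p_mem
    exact (mem_maximalIdeal _).mp h2m B.two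

/-- The composite at a site prime to `p` is a unit multiple of `r² - 1`. -/
theorem exists_unit_tauImg {v : ν} (hv : v ∉ A) (hvp : B.ell (B.site v) ≠ p)
    (ds : Raise.RaiseSite 𝒪 GQ) (hq : ds.q = B.ell (B.site v)) (hsgn : ds.sgn = B.sgn v)
    {P : ValuationSubring Qbar} (hP : P.LiesOverPrime (B.ell (B.site v)))
    (hF : P.IsFrobeniusAt ds.frob (B.ell (B.site v))) (r : (T.datum hD A b hs).act.Img)
    (hr : (T.datum hD A b hs).act.res r = residue 𝒪 (B.sgn v))
    (hrr : r * r - T.trOp hD A b hs (B.site v) * r + (B.ell (B.site v) : _) = 0) :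
    ∃ u : (T.datum hD A b hs).act.Img, IsUnit u ∧
      u * (r * r - 1) = DiamondDatum.tauImg (T.datum hD A b hs) ds 1 := by
  obtain ⟨u, hu', he⟩ := T.exists_tame_unit hD A b hs hv r hr hrr
  refine ⟨u, hu', he.trans ?_⟩
  rw [DiamondDatum.tauImg, map_one, one_mul, hq, hsgn,
    T.mkT_t_frobenius hD A b hs (T.not_dvd_lvlQ hv) hvp hP hF]

end FermatAgent.RT.Ladder.AuxPrimes
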