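import Mathlib
import Fermat.Agent.RT.Ladder.BaseRep
import Fermat.Agent.RT.Ladder.Tame

/-!
# All levels of raising from localised Hecke modules

For auxiliary primes of every depth the diamond data in lifted bases, the degeneracy maps between
them and the representation of the base ring give every level of raising with one base step.  The
local inputs are the residual pair criteria, the tame relations and the conditions on the sides.
-/

set_option autoImplicit false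

noncomputable section

open scoped MatrixGroups
open CongruenceSubgroup MvPolynomial IsLocalRing FermatAgent.HM FermatAgent.GaloisBasic Matrix
  FermatAgent.RT.DiamondDatum

namespace FermatAgent.RT.Ladder

variable {p : ℕ} [hp : Fact p.Prime]
variable {𝒪 : Type} [CommRing 𝒪] [IsDomain 𝒪] [IsDiscreteValuationRing 𝒪]
  [IsAdicComplete (maximalIdeal 𝒪) 𝒪] [Finite (ResidueField 𝒪)] [Algebra ℤ_[p] 𝒪] [CharZero 𝒪]
variable {ν ι : Type} [DecidableEq ι] {L : ℕ} [Fintype ν] [DecidableEq ν]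
variable {B : RaiseBase p 𝒪 ν ι L}

namespace AuxPrimes

variable {κ : Type} [Fintype κ] [DecidableEq κ] {m : κ → ℕ} [∀ i, NeZero (m i)] {N : ℕ}
  [NeZero N] (T : AuxPrimes B m N) [IsLocalRing (MonoidAlgebra 𝒪 (CycProd m))]

omit [NeZero N] [DecidableEq ν] [Algebra ℤ_[p] 𝒪] [CharZero 𝒪] in
/-- **A basis of an auxiliary level lifting one of its base level.** -/
theorem exists_basis (A : Finset ν) {s : ℕ} (b₀ : Module.Basis (Fin s) 𝒪 (B.Triv A)) :
    ∃ b : Module.Basis (Fin s) (MonoidAlgebra 𝒪 (CycProd m)) (T.Mod A),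
      ∀ i, i ∉ T.Q → (opMat b i).map (GroupRing.aug 𝒪 (CycProd m)) = opMat b₀ i :=
  exists_liftedBasis (M₀ := B.lvl A) (M' := T.lvlQ A) (hNM := T.dvd_lvlQ A) T.pow B.p_mem T.Q
    (fun _ hi => T.aux_not_dvd_lvl A hi)
    (fun _ _ _ h => B.pr_inj h) rfl (B.aAt A) T.α T.β
    (fun i hi => by rw [B.aAt_of_not_dvd (T.aux_not_dvd_lvl A hi)]; exact T.roots i hi)
    (T.nonEis A) b₀

/-- A selection of auxiliary primes with tame elements acting by the squares of the generators. -/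
structure TameSel (D : DefProblem 𝒪) where
  /-- the selection -/
  sel : Finset κ
  /-- the tame data -/
  aux : {j // j ∈ sel} → TameAux p D.rbar
  gen_sq : ∀ j, T.δ (cycloN N (aux j).τ) = cycGen (m := m) j.1 * cycGen (m := m) j.1
  one_lt : ∀ j ∈ sel, 1 < m j
  rel : ∀ A, T.TameRel sel aux A

/-- The auxiliary sets for all sets of raised sites. -/
abbrev TameSel.auxSets {T : AuxPrimes B m N} {D : DefProblem 𝒪} (S : T.TameSel D) {half : 𝒪}
    (hD : ResidualFacts B D half) {rk : Finset ν → ℕ}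
    (b : ∀ A, Module.Basis (Fin (rk A)) (MonoidAlgebra 𝒪 (CycProd m)) (T.Mod A))
    (hrk : ∀ A, 0 < rk A) (A : Finset ν) : (T.datum hD A (b A) (hrk A)).AuxSet :=
  T.auxSet hD A (b A) (hrk A) S.sel S.aux S.gen_sq S.one_lt (S.rel A)

variable {D : DefProblem 𝒪} {half : 𝒪} (hD : ResidualFacts B D half) (A : Finset ν) {s : ℕ}
  (b : Module.Basis (Fin s) (MonoidAlgebra 𝒪 (CycProd m)) (T.Mod A)) (hs : 0 < s)
variable {sel : Finset κ} {aux : {j // j ∈ sel} → TameAux p D.rbar}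
  (hu : ∀ j, T.δ (cycloN N (aux j).τ) = cycGen (m := m) j.1 * cycGen (m := m) j.1)
  (h1 : ∀ j ∈ sel, 1 < m j) (hrel : T.TameRel sel aux A)
variable {R : Type} [CommRing R] [Algebra 𝒪 R] [Finite R] [Nontrivial R]
  (φ : MonoidAlgebra 𝒪 (CycProd m) →ₐ[𝒪] R) {v : ν} (hvp : B.ell (B.site v) ≠ p)
  {ds : Raise.RaiseSite 𝒪 GQ} (hshape : Raise.SiteShape D.univMat ds)
  {P : ValuationSubring Qbar} (hP : P.LiesOverPrime (B.ell (B.site v)))
  (hI : ds.inert ∈ P.inertiaSubgroupIn ℚ)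
  (f : D.UR →ₐ[𝒪] Matrix (Fin s) (Fin s) R)
  (hf : ∀ g, f (D.univMat g).trace = (sideAction (T.auxSet hD A b hs sel aux hu h1 hrel) φ).Φ
    ((T.datum hD A b hs).td.t g))

omit [Finite R] [Nontrivial R] in
include hvp hP hI hf in
/-- The equations of a site prime to `p` hold on every side. -/
theorem site_eqs (x : MvPowerSeries (Fin 3) 𝒪) (hx : x ∈ ds.coord.eqs) :
    f (evalAdic (R := 𝒪) (maximalIdeal D.UR) (Raise.siteVals D.univMat ds) hshape.vals_mem x) = 0 :=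
  map_eqs_of_trace_two (T.auxSet hD A b hs sel aux hu h1 hrel) hshape φ f hf
    (T.trace_site_two hD A b hs v hvp hP hI) x hx

include hvp hP hI hf in
/-- The inertia coordinates of an unraised site die on every side. -/
theorem site_unram (hv : v ∉ A) {c : GQ} (hc : c * c = 1) (htc : (D.univMat c).trace = 0) {k : ℕ}
    (hk : (p : R) ^ k = 0) (hcond : CondAt (T.auxSet hD A b hs sel aux hu h1 hrel) φ) :
    f (Raise.siteVals D.univMat ds 1) = 0 ∧ f (Raise.siteVals D.univMat ds 2) = 0 :=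
  map_siteVals_eq_zero (T.auxSet hD A b hs sel aux hu h1 hrel) φ f hf hc htc hk hcond
    (T.galAct hD A b hs) (T.galAct_inertia hD b hs hv hvp hP hI)

end AuxPrimes

variable {κ : ℕ → Type} [∀ n, Fintype (κ n)] [∀ n, DecidableEq (κ n)]
  {m : ∀ n, κ n → ℕ} [∀ n i, NeZero (m n i)] {N : ℕ → ℕ} [∀ n, NeZero (N n)]
  {D : ℕ → DefProblem 𝒪} [∀ n, IsLocalRing (MonoidAlgebra 𝒪 (CycProd (m n)))]
  {rk : Finset ν → ℕ}

/-- **All levels of raising from the localised Hecke modules.** -/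
theorem exists_raiseLevels_of_modules {σ : Type} [Fintype σ]
    {R₀ : Type} [CommRing R₀] [IsLocalRing R₀] [Algebra 𝒪 R₀] [IsNoetherianRing R₀]
    [IsAdicComplete (maximalIdeal R₀) R₀] [IsLocalHom (algebraMap 𝒪 R₀)]
    {ϖ half ζ ζ' : 𝒪} (hζζ' : ζ * ζ' = 1) {c : GQ} (hc : c * c = 1)
    (htc : ∀ n, ((D n).univMat c).trace = 0)
    -- the auxiliary primes and the modules
    (T : ∀ n, AuxPrimes B (m n) (N n)) (hD : ∀ n, ResidualFacts B (D n) half)
    (hrk : ∀ A, 0 < rk A) (b₀ : ∀ A, Module.Basis (Fin (rk A)) 𝒪 (B.Triv A))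
    (b : ∀ n A, Module.Basis (Fin (rk A)) (MonoidAlgebra 𝒪 (CycProd (m n))) ((T n).Mod A))
    (hb : ∀ n A i, i ∉ (T n).Q →
      (opMat (b n A) i).map (GroupRing.aug 𝒪 (CycProd (m n))) = opMat (b₀ A) i)
    (hcrit : ∀ n A v, v ∉ A → (T n).SiteCriterion A v)
    -- the base ring
    {M₀ : MatRep R₀} (h₀ : ∀ n, Raise.BasePoint (D n) M₀)
    (hdet₀ : ∀ g, (M₀ g).det = algebraMap 𝒪 R₀ (algebraMap ℤ_[p] 𝒪 (ES.padCyclo p g)))
    (ρ₀ : ∀ A, R₀ →ₐ[𝒪] Matrix (Fin (rk A)) (Fin (rk A)) 𝒪) (hρ₀ : B.BaseRep M₀ b₀ ρ₀)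
    -- the tame primes
    (S : ∀ n, (T n).TameSel (D n)) (hunr₀ : ∀ n j, M₀ ((S n).aux j).τ = 1)
    {d : σ → FrameSite 𝒪 GQ} {q : σ → ℕ} (W : ∀ n, SiteWeights (S n).sel (m n) σ ϖ ζ)
    (hsite_u : ∀ n v, (T n).δ (cycloN (N n) (d v).inert) =
      cycGen (m := m n) ((W n).site v) * cycGen (m := m n) ((W n).site v))
    (hsite_cyc : ∀ v, ES.padCyclo p (d v).inert = 1)
    (hsite_rel : ∀ n A v,
      (galLoc p 𝒪 (T n).surj (T n).neg (resIdeal ((T n).aS A)) ((T n).hloc A) (d v).inert - 1) *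
        (galLoc p 𝒪 (T n).surj (T n).neg (resIdeal ((T n).aS A)) ((T n).hloc A) (d v).inert -
          algebraMap (MvPolynomial ι (MonoidAlgebra 𝒪 (CycProd (m n)))) _
            (C (detChar p 𝒪 (T n).δ (d v).inert))) = 0)
    {r : ℕ} (e : ∀ n, Fin r ≃ {j // j ∈ (S n).sel})
    (hdepth : ∀ n (j : {j // j ∈ (S n).sel}), p ^ (n + 1) ≤ m n j.1)
    -- the unframed sites
    {d' : ν → Raise.CoordSite 𝒪} {z₀ : ν → Fin 3 → R₀} {g : ℕ}
    (Z : ∀ n, Raise.SiteCoords (D n) M₀ ϖ d q z₀ g)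
    (tau : Finset ν → ν → MvPowerSeries (Fin 3) 𝒪)
    (tI : ∀ n A, ν → ((T n).datum (hD n) A (b n A) (hrk A)).act.Img)
    (htI : ∀ n A v, v ∉ A → ∀ r' : ((T n).datum (hD n) A (b n A) (hrk A)).act.Img,
      ((T n).datum (hD n) A (b n A) (hrk A)).act.res r' = residue 𝒪 (B.sgn v) →
      r' * r' - (T n).trOp (hD n) A (b n A) (hrk A) (B.site v) * r' +
        (B.ell (B.site v) : _) = 0 →
      ∃ u, IsUnit u ∧ u * (r' * r' - 1) = tI n A v)
    -- the sides
    (hsides : ∀ n k (hk : k ≤ n), LevelSides ((S n).auxSets (hD n) (b n) hrk)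
      (specOne ((S n).auxSets (hD n) (b n) hrk ∅) (e n) fun j => depth_le hp.out (hdepth n j) hk)
      (spec ((S n).auxSets (hD n) (b n) hrk ∅) (e := e n)
        (fun j => depth_le hp.out (hdepth n j) hk) (W n).w (W n).w_pow)
      d' (Z n).z (Z n).z_mem)
    (htau : ∀ n k (hk : k ≤ n) A v, v ∉ A → IsValueOn ((S n).auxSets (hD n) (b n) hrk A)
      (specOne ((S n).auxSets (hD n) (b n) hrk ∅) (e n) fun j => depth_le hp.out (hdepth n j) hk)
      ((Z n).z v) ((Z n).z_mem v) (tau A v) (tI n A v)) :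
    ∃ (rkK : Finset ν → ν → ℕ)
      (ρK : ∀ A v, R₀ →ₐ[𝒪] Matrix (Fin (rkK A v)) (Fin (rkK A v)) 𝒪)
      (St : ∀ A v, v ∉ A → Raise.BaseStep (ρ₀ A) (ρ₀ (insert v A)) (rkK A v)),
      (∀ A v (h : v ∉ A), ρK A v = (St A v h).ρK) ∧
      (∀ A v (h : v ∉ A) (hz₀ : ∀ i, z₀ v i ∈ maximalIdeal R₀), (St A v h).Tr * (St A v h).J =
        ρ₀ A (evalAdic (R := 𝒪) (maximalIdeal R₀) (z₀ v) hz₀ (tau A v))) ∧
      ∀ n, Nonempty (Raise.RaiseLevel ϖ half ζ ζ' d q d' g r M₀ z₀ ρ₀ ρK tau n) := by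
  choose J Tr hJ hTr hinj hsurj hTJ using fun n A v (h : v ∉ A) =>
    (T n).exists_step (hD n) A (b n A) (hrk A) h (b n (insert v A)) (hrk (insert v A))
      (hcrit n A v h) (tI n A v) (htI n A v h)
  exact exists_raiseLevels (H := fun n A => (T n).datum (hD n) A (b n A) (hrk A))
    (fun n => (S n).auxSets (hD n) (b n) hrk) hp.out (hD 0).two_half hζζ' hc htc h₀ hunr₀ Z ρ₀ tau W
    (fun n A v => ((T n).trace_diamond (hD n) A (b n A) (hrk A) (hsite_u n v) (hsite_cyc v)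
      (hsite_rel n A v)).1)
    (fun n A => rfl) (fun n A i h₁ h₂ => rfl) e hdepth hsides
    (fun n A x => (T n).map_aug_td_t (hD n) A (b n A) (hrk A) (b₀ A) (hb n A) (h₀ 0).continuous
      hdet₀ (ρ₀ A) (hρ₀ A) x)
    J Tr hJ hTr hinj hsurj
    fun n A v h => ⟨tI n A v, hTJ n A v h, fun k hk => htau n k hk A v h⟩

end FermatAgent.RT.Ladder
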