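import Fermat.Agent.MF.Mult.Full

/-!
# Eigensystems new at one prime are absent from the lower level

A linear algebra lemma on two modules with maps in both directions after localisation at a prime of
characteristic zero, and the injectivity of `U_q² - 1` at a prime in the support of the lower level.
-/

set_option autoImplicit false

noncomputable section

open scoped MatrixGroups
open CongruenceSubgroup MvPolynomial FermatAgent.HM

namespace FermatAgent.RT.Ladder

section Torsion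

variable {O : Type} [CommRing O] [IsDomain O] [IsPrincipalIdealRing O]
  {P : Type} [CommRing P] [Algebra O P] (Y : Ideal P) [Y.IsPrime]
  (hY : ∀ a : O, a ≠ 0 → algebraMap O P a ∉ Y)
variable {M₁ M₂ : Type} [AddCommGroup M₁] [Module P M₁] [Module O M₁] [IsScalarTower O P M₁]
  [Module.Finite O M₁] [AddCommGroup M₂] [Module P M₂] [Module O M₂] [IsScalarTower O P M₂]
  [Module.Finite O M₂]

omit [IsPrincipalIdealRing O] in
include hY in
/-- An injection with a map back that is injective at a prime of characteristic zero is surjective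
at it. -/
theorem exists_smul_mem_range (J : M₁ →ₗ[P] M₂) (hJ : Function.Injective J) (d : M₂ →ₗ[P] M₁)
    (hd : ∀ c, (∃ s, s ∉ Y ∧ s • d c = 0) → ∃ s, s ∉ Y ∧ s • c = 0) (m : M₂) :
    ∃ s, s ∉ Y ∧ s • m ∈ LinearMap.range J := by
  set T₁ := Submodule.torsion' P M₁ Y.primeCompl
  set T₂ := Submodule.torsion' P M₂ Y.primeCompl
  have hmem₁ : ∀ x, x ∈ T₁ ↔ ∃ s, s ∉ Y ∧ s • x = 0 := fun x =>
    ⟨fun ⟨⟨s, hs⟩, h⟩ => ⟨s, hs, h⟩, fun ⟨s, hs, h⟩ => ⟨⟨s, hs⟩, h⟩⟩
  have hmem₂ : ∀ x, x ∈ T₂ ↔ ∃ s, s ∉ Y ∧ s • x = 0 := fun x =>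
    ⟨fun ⟨⟨s, hs⟩, h⟩ => ⟨s, hs, h⟩, fun ⟨s, hs, h⟩ => ⟨⟨s, hs⟩, h⟩⟩
  let J' : (M₁ ⧸ T₁) →ₗ[P] (M₂ ⧸ T₂) := T₁.mapQ T₂ J fun x hx => by
    obtain ⟨s, hs, h⟩ := (hmem₁ x).mp hx
    exact (hmem₂ _).mpr ⟨s, hs, by rw [← map_smul, h, map_zero]⟩
  let d' : (M₂ ⧸ T₂) →ₗ[P] (M₁ ⧸ T₁) := T₂.mapQ T₁ d fun x hx => by
    obtain ⟨s, hs, h⟩ := (hmem₂ x).mp hx
    exact (hmem₁ _).mpr ⟨s, hs, by rw [← map_smul, h, map_zero]⟩
  have hJ' : Function.Injective J' := (injective_iff_map_eq_zero J').mpr fun x hx => by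
    obtain ⟨x, rfl⟩ := T₁.mkQ_surjective x
    rw [Submodule.mkQ_apply, Submodule.mapQ_apply, Submodule.Quotient.mk_eq_zero, hmem₂] at hx
    obtain ⟨s, hs, h⟩ := hx
    rw [← map_smul] at h
    exact (Submodule.Quotient.mk_eq_zero _).mpr
      ((hmem₁ x).mpr ⟨s, hs, (map_eq_zero_iff J hJ).mp h⟩)
  have hd' : Function.Injective d' := (injective_iff_map_eq_zero d').mpr fun x hx => by
    obtain ⟨x, rfl⟩ := T₂.mkQ_surjective x
    rw [Submodule.mkQ_apply, Submodule.mapQ_apply, Submodule.Quotient.mk_eq_zero, hmem₁] at hx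
    exact (Submodule.Quotient.mk_eq_zero _).mpr ((hmem₂ x).mpr (hd x hx))
  have : Module.Finite O (M₁ ⧸ T₁) :=
    Module.Finite.of_surjective (T₁.mkQ.restrictScalars O) T₁.mkQ_surjective
  have : Module.Finite O (M₂ ⧸ T₂) :=
    Module.Finite.of_surjective (T₂.mkQ.restrictScalars O) T₂.mkQ_surjective
  let JO := J'.restrictScalars O
  have hr : Module.finrank O (M₂ ⧸ T₂) = Module.finrank O (LinearMap.range JO) := by
    rw [LinearMap.finrank_range_of_inj (f := JO) hJ']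
    exact le_antisymm (LinearMap.finrank_le_finrank_of_injective (f := d'.restrictScalars O) hd')
      (LinearMap.finrank_le_finrank_of_injective (f := JO) hJ')
  have h0 : Module.finrank O ((M₂ ⧸ T₂) ⧸ LinearMap.range JO) = 0 := by
    have := Submodule.finrank_quotient_add_finrank (LinearMap.range JO)
    omega
  obtain ⟨⟨a, ha⟩, hax⟩ := Module.finrank_eq_zero_iff_isTorsion.mp h0
    (x := Submodule.Quotient.mk (T₂.mkQ m))
  rw [Submonoid.smul_def, ← Submodule.Quotient.mk_smul, Submodule.Quotient.mk_eq_zero] at hax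
  obtain ⟨c, hc⟩ := hax
  obtain ⟨c, rfl⟩ := T₁.mkQ_surjective c
  have hc' : T₂.mkQ (J c) = T₂.mkQ (algebraMap O P a • m) := by
    rw [map_smul, algebraMap_smul]
    exact hc
  rw [← sub_eq_zero, ← map_sub, Submodule.mkQ_apply, Submodule.Quotient.mk_eq_zero, hmem₂] at hc'
  obtain ⟨s, hs, h⟩ := hc'
  refine ⟨s * algebraMap O P a, fun hp => ((Ideal.IsPrime.mem_or_mem inferInstance hp).elim hs
    (hY a (nonZeroDivisors.ne_zero ha))), s • c, ?_⟩
  rw [map_smul, mul_smul, ← sub_eq_zero, ← smul_sub, h]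

end Torsion

section Extension

variable {O : Type} [CommRing O] [IsNoetherianRing O] {ι : Type} {good : Set ι}
  {K : Type} [Field K] [IsAlgClosed K]

/-- A character of good polynomials killing the good part of an ideal with finite quotient
extends. -/
theorem exists_hom_extension (φ : MvPolynomial good O →+* K) (I : Ideal (MvPolynomial ι O))
    {X : Type} [AddCommGroup X] [Module O X] [Module.Finite O X]
    (f : MvPolynomial ι O →ₗ[O] X) (hf : ∀ P, f P = 0 ↔ P ∈ I)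
    (h : ∀ P : MvPolynomial good O, rename Subtype.val P ∈ I → φ P = 0) :
    ∃ lam : MvPolynomial ι O →+* K, (∀ P, lam (rename Subtype.val P) = φ P) ∧
      ∀ P ∈ I, lam P = 0 := by
  let r : MvPolynomial good O →ₐ[O] MvPolynomial ι O := rename Subtype.val
  set I₀ := I.comap r with hI₀
  let : Algebra (MvPolynomial good O ⧸ I₀) (MvPolynomial ι O ⧸ I) :=
    (Ideal.quotientMap I (r : MvPolynomial good O →+* MvPolynomial ι O) le_rfl).toAlgebra
  have : IsScalarTower O (MvPolynomial good O ⧸ I₀) (MvPolynomial ι O ⧸ I) :=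
    IsScalarTower.of_algebraMap_eq (R := O) (S := MvPolynomial good O ⧸ I₀)
      (A := MvPolynomial ι O ⧸ I) fun o => (congrArg (Ideal.Quotient.mk I) (r.commutes o)).symm
  have : FaithfulSMul (MvPolynomial good O ⧸ I₀) (MvPolynomial ι O ⧸ I) :=
    (faithfulSMul_iff_algebraMap_injective _ _).mpr (Ideal.quotientMap_injective' le_rfl)
  let g : (MvPolynomial ι O ⧸ I) →ₗ[O] X :=
    (Submodule.liftQ (I.restrictScalars O) f fun P hP => (hf P).mpr hP).comp
      (Submodule.Quotient.restrictScalarsEquiv O I).symm.toLinearMap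
  have hg : ∀ P, g (Ideal.Quotient.mk I P) = f P := fun P => rfl
  have : Module.Finite O (MvPolynomial ι O ⧸ I) := Module.Finite.of_injective g
    ((injective_iff_map_eq_zero g).mpr fun x hx => by
      obtain ⟨P, rfl⟩ := Ideal.Quotient.mk_surjective x
      rw [hg, hf] at hx
      exact Ideal.Quotient.eq_zero_iff_mem.mpr hx)
  have : Algebra.IsIntegral O (MvPolynomial ι O ⧸ I) := Algebra.IsIntegral.of_finite _ _
  have : Algebra.IsIntegral (MvPolynomial good O ⧸ I₀) (MvPolynomial ι O ⧸ I) :=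
    Algebra.IsIntegral.tower_top (R := O)
  obtain ⟨Φ, hΦ⟩ := exists_ringHom_extension (T := MvPolynomial ι O ⧸ I)
    (Ideal.Quotient.lift I₀ φ fun P hP => h P hP)
  refine ⟨Φ.comp (Ideal.Quotient.mk I), fun P => ?_, fun P hP => ?_⟩
  · exact (RingHom.congr_fun hΦ (Ideal.Quotient.mk I₀ P)).trans (Ideal.Quotient.lift_mk _ _ _)
  · rw [RingHom.comp_apply, Ideal.Quotient.eq_zero_iff_mem.mpr hP, map_zero]

end Extension

section Square

variable {O : Type} [CommRing O] [IsNoetherianRing O] [IsAddTorsionFree O] [CharZero O] {L : ℕ}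
  {ι : Type} {pr : ι → HPrime L} {M N q : ℕ} [NeZero M] [NeZero N]
  {𝔪 𝔫 : Ideal (MvPolynomial ι O)} [𝔪.IsPrime] [𝔫.IsPrime]
  [Module.Finite O (TrivLoc (M := M) pr 𝔪)] [Module.Finite O (TrivLoc (M := N) pr 𝔫)]

/-- **`U_q² - 1` is injective at a prime of the support of the lower level.** -/
theorem exists_smul_eq_zero_of_sq (hq : q.Prime) (hqM : ¬ q ∣ M) (hN : N = M * q) (iq : ι)
    (hiq : ((pr iq).1.1 : ℕ) = q)
    (i₀ : ι) (hi₀ : (((pr i₀).1.1 : ℕ) : ZMod M) = 1)
    (hne : MvPolynomial.X i₀ - C (((pr i₀).1.1 : ℕ) + 1 : O) ∉ 𝔪)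
    (i₁ : ι) (hi₁ : (((pr i₁).1.1 : ℕ) : ZMod N) = 1)
    (hne₁ : MvPolynomial.X i₁ - C (((pr i₁).1.1 : ℕ) + 1 : O) ∉ 𝔫)
    (good : Set ι) (Pf : Finset ℕ)
    (hcover : ∀ ℓ : ℕ, ℓ.Prime → ℓ ∉ Pf → ¬ ℓ ∣ M * q → ∃ i ∈ good, ((pr i).1.1 : ℕ) = ℓ)
    (Y : Ideal (MvPolynomial good O)) [Y.IsPrime] (hY : ∀ a : O, a ≠ 0 → C a ∉ Y)
    (hlow : ∀ P : MvPolynomial good O,
      (∀ x : TrivLoc (M := M) pr 𝔪, rename Subtype.val P • x = 0) → P ∈ Y)
    (c : TrivLoc (M := N) pr 𝔫)
    (hc : ((MvPolynomial.X iq : MvPolynomial ι O) ^ 2 - 1) • c = 0) :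
    ∃ s : MvPolynomial good O, s ∉ Y ∧ rename Subtype.val s • c = 0 := by
  classical
  subst hN
  by_contra hcon
  push Not at hcon
  obtain ⟨K, _, _, φ, hφ⟩ : ∃ (K : Type) (_ : Field K) (_ : IsAlgClosed K)
      (φ : MvPolynomial good O →+* K), ∀ P, φ P = 0 ↔ P ∈ Y := by
    have : IsDomain (MvPolynomial good O ⧸ Y) := Ideal.Quotient.isDomain Y
    refine ⟨AlgebraicClosure (FractionRing (MvPolynomial good O ⧸ Y)), inferInstance, inferInstance,
      (algebraMap (MvPolynomial good O ⧸ Y) _).comp (Ideal.Quotient.mk Y), fun P => ?_⟩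
    rw [← Ideal.Quotient.eq_zero_iff_mem, RingHom.comp_apply]
    refine map_eq_zero_iff _ ?_
    rw [IsScalarTower.algebraMap_eq _ (FractionRing (MvPolynomial good O ⧸ Y))]
    exact (algebraMap (FractionRing (MvPolynomial good O ⧸ Y)) _).injective.comp
      (IsFractionRing.injective _ _)
  have : CharZero K := charZero_of_inj_zero fun n hn => by
    by_contra h0
    have : (n : MvPolynomial good O) ∈ Y := (hφ _).mp (by rw [map_natCast, hn])
    rw [← map_natCast (C : O →+* MvPolynomial good O)] at this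
    refine hY _ ?_ this
    exact Nat.cast_ne_zero.mpr h0
  -- the two characters
  obtain ⟨n, g, hg⟩ := Module.Finite.exists_fin' O (TrivLoc (M := M) pr 𝔪)
  obtain ⟨lam₀, hlam₀, hlam₀I⟩ := exists_hom_extension φ
    (Module.annihilator (MvPolynomial ι O) (TrivLoc (M := M) pr 𝔪))
    (X := Fin n → TrivLoc (M := M) pr 𝔪)
    { toFun := fun P i => P • g (Pi.single i 1)
      map_add' := fun P P' => funext fun i => add_smul P P' _
      map_smul' := fun a P => funext fun i => smul_assoc a P _ }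
    (fun P => ⟨fun h => Module.mem_annihilator.mpr fun x => by
      obtain ⟨v, rfl⟩ := hg x
      rw [show v = ∑ i, v i • Pi.single i (1 : O) by
        ext j; simp [Pi.single_apply], map_sum, Finset.smul_sum]
      exact Finset.sum_eq_zero fun i _ => by
        rw [map_smul, smul_comm, show P • g (Pi.single i 1) = 0 from congrFun h i, smul_zero],
      fun h => funext fun i => Module.mem_annihilator.mp h _⟩)
    fun P hP => (hφ P).mpr (hlow P fun x => Module.mem_annihilator.mp hP x)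
  obtain ⟨lam₁, hlam₁, hlam₁I⟩ := exists_hom_extension φ
    (Ideal.torsionOf (MvPolynomial ι O) (TrivLoc (M := M * q) pr 𝔫) c)
    ((LinearMap.toSpanSingleton (MvPolynomial ι O) _ c).restrictScalars O)
    (fun P => Iff.rfl)
    fun P hP => (hφ P).mpr (by
      by_contra hn
      exact hcon P hn ((Ideal.mem_torsionOf_iff _ _).mp hP))
  -- the two eigenforms
  have : @FaithfulSMul ℤ (integralClosure ℤ K) Algebra.toSMul :=
    (faithfulSMul_iff_algebraMap_injective _ _).mpr (RingHom.injective_int _)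
  have : Algebra.IsIntegral ℤ (integralClosure ℤ K) :=
    ⟨fun x => (isIntegral_algHom_iff (integralClosure ℤ K).val Subtype.val_injective).mp x.2⟩
  obtain ⟨τ, -⟩ := exists_ringHom_extension (T := integralClosure ℤ K) (Int.castRingHom ℂ)
  obtain ⟨f₀, hf₀, hf₀v⟩ := MF.Mult.exists_eigenform_of_hom i₀ hi₀ hne lam₀
    (fun P hP => hlam₀I P (Module.mem_annihilator.mpr hP)) τ
  obtain ⟨f₁, hf₁, hf₁v⟩ := MF.Mult.exists_eigenform_of_hom i₁ hi₁ hne₁ lam₁
    (fun P hP => hlam₁I P ((Ideal.mem_torsionOf_iff _ _).mpr (hP c))) τ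
  refine MF.Mult.qCoeff_sq_ne_one hq hqM hf₀ hf₁ Pf (fun ℓ hℓ hℓP hd => ?_) ?_
  · obtain ⟨i, hi, rfl⟩ := hcover ℓ hℓ hℓP hd
    obtain ⟨a₀, ha₀, he₀⟩ := hf₀v i
    obtain ⟨a₁, ha₁, he₁⟩ := hf₁v i
    rw [he₀, he₁]
    refine congrArg τ (Subtype.ext ?_)
    have h0 := hlam₀ (MvPolynomial.X ⟨i, hi⟩)
    have h1 := hlam₁ (MvPolynomial.X ⟨i, hi⟩)
    rw [rename_X] at h0 h1
    rw [ha₀, ha₁, h0, h1]
  · obtain ⟨a, ha, he⟩ := hf₁v iq
    rw [hiq] at he
    rw [he, ← map_pow, ← map_one τ]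
    refine congrArg τ (Subtype.ext ?_)
    show (a : K) ^ 2 = 1
    have h := hlam₁I _ ((Ideal.mem_torsionOf_iff _ _).mpr hc)
    rw [map_sub, map_pow, map_one, sub_eq_zero] at h
    rw [ha]
    exact h

end Square

end FermatAgent.RT.Ladder

end
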