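import Fermat.Agent.RT.Ladder.BaseRep
import Fermat.Agent.RT.Ladder.NewSystem

/-!
# The cokernel of raising at the base is new

No prime of characteristic zero of the base ring is in the support of both the lower module and the
cokernel of a step of raising.
-/

set_option autoImplicit false

noncomputable section

open scoped MatrixGroups
open CongruenceSubgroup MvPolynomial IsLocalRing FermatAgent.HM FermatAgent.GaloisBasic Matrix

namespace FermatAgent.RT.Ladder.RaiseBase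

variable {p : ℕ} [hp : Fact p.Prime]
variable {𝒪 : Type} [CommRing 𝒪] [IsDomain 𝒪] [IsDiscreteValuationRing 𝒪]
  [IsAdicComplete (maximalIdeal 𝒪) 𝒪] [Finite (ResidueField 𝒪)] [Algebra ℤ_[p] 𝒪] [CharZero 𝒪]
variable {ν ι : Type} [DecidableEq ι] {L : ℕ} [Fintype ν] [DecidableEq ν]
variable {B : RaiseBase p 𝒪 ν ι L}

omit hp [Algebra ℤ_[p] 𝒪] [IsAdicComplete (maximalIdeal 𝒪) 𝒪] [Finite (ResidueField 𝒪)]
  [CharZero 𝒪] [Fintype ν] [DecidableEq ν] in
/-- On good polynomials the base actions are the Hecke actions. -/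
private lemma baseRep_eq_hecke {rk : Finset ν → ℕ}
    {b₀ : ∀ A, Module.Basis (Fin (rk A)) 𝒪 (B.Triv A)} {R₀ : Type} [CommRing R₀] [Algebra 𝒪 R₀]
    {M₀ : MatRep R₀} {ρ₀ : ∀ A, R₀ →ₐ[𝒪] Matrix (Fin (rk A)) (Fin (rk A)) 𝒪}
    (hρ : B.BaseRep M₀ b₀ ρ₀) {A₀ : Finset ν} {good : Set ι}
    (hgood : ∀ i : good, ¬ B.ell i ∣ B.lvl A₀ ∧ B.ell i ≠ p) {σ : good → GQ}
    (hσ : ∀ i : good, ∃ (P : ValuationSubring Qbar) (_ : P.LiesOverPrime (B.ell i)),
      P.IsFrobeniusAt (σ i) (B.ell i)) (P : MvPolynomial good 𝒪) :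
    ρ₀ A₀ (aeval (fun i => (M₀ (σ i)).trace) P) = LinearMap.toMatrixAlgEquiv (b₀ A₀)
      (Algebra.lsmul 𝒪 𝒪 (B.Triv A₀) (rename Subtype.val P : MvPolynomial ι 𝒪)) :=
  AlgHom.congr_fun (φ₁ := (ρ₀ A₀).comp (aeval fun i => (M₀ (σ i)).trace))
    (φ₂ := (LinearMap.toMatrixAlgEquiv (b₀ A₀)).toAlgHom.comp
      ((Algebra.lsmul 𝒪 𝒪 (B.Triv A₀)).comp (rename Subtype.val)))
    (MvPolynomial.algHom_ext fun i => by
      obtain ⟨F, hF, hFσ⟩ := hσ i
      simp only [AlgHom.comp_apply, aeval_X, rename_X]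
      exact hρ A₀ i (hgood i).1 (hgood i).2 _ _ hF hFσ) P

omit hp [Algebra ℤ_[p] 𝒪] in
/-- An element killed by `U² - 1` vanishes at a prime of the lower support. -/
private lemma exists_smul_eq_zero_new (hw : B.Witness) {A : Finset ν} {v : ν} (hv : v ∉ A)
    (hlvl : B.lvl (insert v A) = B.lvl A * B.ell (B.site v)) {good : Set ι}
    (hgood : ∀ i, ¬ B.ell i ∣ B.lvl (insert v A) → B.ell i ≠ p → i ∈ good)
    (Y : Ideal (MvPolynomial good 𝒪)) [Y.IsPrime] (hY : ∀ a : 𝒪, a ≠ 0 → C a ∉ Y)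
    (hlow : ∀ P : MvPolynomial good 𝒪,
      (∀ x : B.Triv A, rename Subtype.val P • x = 0) → P ∈ Y)
    (c : B.Triv (insert v A))
    (hc : ((MvPolynomial.X (B.site v) : MvPolynomial ι 𝒪) ^ 2 - 1) • c = 0) :
    ∃ s : MvPolynomial good 𝒪, s ∉ Y ∧ rename Subtype.val s • c = 0 := by
  classical
  have : IsAddTorsionFree 𝒪 := .of_isTorsionFree 𝒪 𝒪
  have := fun A₀ => (hw.free A₀).1
  have := fun A₀ => (hw.free A₀).2
  obtain ⟨i₁, hi₁, hi₁', hu₁⟩ := hw.exists_at (insert v A)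
  have hwit : ∀ A₀ : Finset ν, B.lvl A₀ ∣ B.lvl (insert v A) →
      ((B.ell i₁ : ℕ) : ZMod (B.lvl A₀)) = 1 ∧
        MvPolynomial.X i₁ - C (((B.pr i₁).1.1 : ℕ) + 1 : 𝒪) ∉ resIdeal (B.aAt A₀) := by
    intro A₀ h₀
    refine ⟨?_, fun hm => ?_⟩
    · have h1 := congrArg (ZMod.castHom h₀ (ZMod (B.lvl A₀))) hi₁'
      rwa [map_natCast, map_one] at h1
    rw [X_sub_C_mem_resIdeal, B.aAt_of_not_dvd fun h => hi₁ (h.trans h₀)] at hm
    exact (mem_maximalIdeal _).mp hm hu₁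
  obtain ⟨h0, h0'⟩ := hwit A (hlvl ▸ dvd_mul_right _ _)
  obtain ⟨h1, h1'⟩ := hwit (insert v A) dvd_rfl
  exact exists_smul_eq_zero_of_sq (pr := B.pr) (M := B.lvl A) (N := B.lvl (insert v A))
    (q := B.ell (B.site v)) (B.pr (B.site v)).1.2 (B.not_dvd_lvl hv) hlvl (B.site v) rfl i₁ h0 h0'
    i₁ h1 h1' good (B.Sbad ∪ {p})
    (fun ℓ hℓ hS hd => by
      simp only [Finset.mem_union, Finset.mem_singleton, not_or] at hS
      obtain ⟨i, rfl⟩ := B.good ℓ hℓ hS.1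
      exact ⟨i, hgood i (fun h => hd (hlvl ▸ h)) hS.2, rfl⟩)
    Y hY hlow c hc

omit hp [IsDomain 𝒪] [IsDiscreteValuationRing 𝒪] [Algebra ℤ_[p] 𝒪]
  [IsAdicComplete (maximalIdeal 𝒪) 𝒪] [Finite (ResidueField 𝒪)] [CharZero 𝒪] in
/-- A basis vector of the cokernel is killed once its section lands in the image. -/
private lemma cokernel_mulVec_eq_zero {R₀ : Type} [CommRing R₀] [Algebra 𝒪 R₀] {a b sK : ℕ}
    {ρ₁ : R₀ →ₐ[𝒪] Matrix (Fin a) (Fin a) 𝒪} {ρ₂ : R₀ →ₐ[𝒪] Matrix (Fin b) (Fin b) 𝒪}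
    (St : Raise.BaseStep ρ₁ ρ₂ sK) {V W : Type} [AddCommGroup V] [Module 𝒪 V] [AddCommGroup W]
    [Module 𝒪 W] (b₁ : Module.Basis (Fin a) 𝒪 V) (b₂ : Module.Basis (Fin b) 𝒪 W) {r : R₀}
    {E : W →ₗ[𝒪] W} (hE : ρ₂ r = LinearMap.toMatrix b₂ b₂ E) {e : Fin sK → 𝒪} {c : V}
    (hc : Matrix.toLin b₁ b₂ St.J c = E (b₂.equivFun.symm (St.Sec *ᵥ e))) :
    St.ρK r *ᵥ e = 0 := by
  have h : St.J *ᵥ b₁.equivFun c = ρ₂ r *ᵥ (St.Sec *ᵥ e) := by
    have h' := congrArg b₂.equivFun hc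
    rw [hE, ← b₂.equivFun.apply_symm_apply (St.Sec *ᵥ e),
      ← LinearMap.toMatrix_toLin b₁ b₂ St.J]
    exact ((LinearMap.toMatrix_mulVec_repr b₁ b₂ _ _).trans h').trans
      (LinearMap.toMatrix_mulVec_repr b₂ b₂ E _).symm
  rw [Raise.BaseStep.ρK, Raise.cokerHom_apply, ← Matrix.mulVec_mulVec, ← Matrix.mulVec_mulVec,
    ← h, Matrix.mulVec_mulVec, St.Pr_J, Matrix.zero_mulVec]

omit hp [Algebra ℤ_[p] 𝒪] in
/-- **No prime of the lower support lies in the support of the cokernel.** -/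
theorem Witness.ker_cokernel_not_le (hw : B.Witness) (hcrit : B.BaseCriteria) {rk : Finset ν → ℕ}
    (b₀ : ∀ A, Module.Basis (Fin (rk A)) 𝒪 (B.Triv A)) {R₀ : Type} [CommRing R₀] [Algebra 𝒪 R₀]
    (M₀ : MatRep R₀) (ρ₀ : ∀ A, R₀ →ₐ[𝒪] Matrix (Fin (rk A)) (Fin (rk A)) 𝒪)
    (hρ : B.BaseRep M₀ b₀ ρ₀) {A : Finset ν} {v : ν} (hv : v ∉ A) {sK : ℕ}
    (St : Raise.BaseStep (ρ₀ A) (ρ₀ (insert v A)) sK) (y : Ideal R₀) [hy : y.IsPrime]
    (hyA : RingHom.ker (ρ₀ A) ≤ y) (hyK : RingHom.ker St.ρK ≤ y)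
    (hy0 : ∀ a : 𝒪, a ≠ 0 → algebraMap 𝒪 R₀ a ∉ y) : False := by
  classical
  have : IsAddTorsionFree 𝒪 := .of_isTorsionFree 𝒪 𝒪
  set i₀ := B.site v
  set q := B.ell i₀
  have hlvl : B.lvl (insert v A) = B.lvl A * q := by
    simp only [lvl, Finset.prod_insert hv, q, i₀]
    ring
  -- the real degeneracy maps
  obtain ⟨Jr, Tr, hJr, hTr, -, hJT⟩ := hw.exists_step_maps hcrit hv hlvl
  -- the good polynomials
  let good : Set ι := {i | ¬ B.ell i ∣ B.lvl (insert v A) ∧ B.ell i ≠ p}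
  let g : good → {i // i ≠ i₀} := fun i =>
    ⟨i, fun h => i.2.1 (h ▸ hlvl ▸ dvd_mul_left q (B.lvl A))⟩
  have hgP : ∀ P : MvPolynomial good 𝒪,
      rename Subtype.val P = rename Subtype.val (rename g P) := fun P => by
    rw [rename_rename]
    rfl
  choose F hF σ hσ using fun i : good => show ∃ (P : ValuationSubring Qbar) (_ : P.LiesOverPrime
      (B.ell i)) (σ : GQ), P.IsFrobeniusAt σ (B.ell i) from
    ⟨_, (exists_liesOverPrime (B.pr i).1.2).choose_spec,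
      exists_isFrobeniusAt (B.pr i).1.2 (exists_liesOverPrime (B.pr i).1.2).choose_spec⟩
  let x : MvPolynomial good 𝒪 →ₐ[𝒪] R₀ := aeval fun i => (M₀ (σ i)).trace
  have hdvd : B.lvl A ∣ B.lvl (insert v A) := hlvl ▸ dvd_mul_right _ _
  -- the base actions are the Hecke actions
  have hact := fun A₀ (h₀ : B.lvl A₀ ∣ B.lvl (insert v A)) => baseRep_eq_hecke (A₀ := A₀) hρ
    (fun i : good => ⟨fun h => i.2.1 (h.trans h₀), i.2.2⟩) fun i => ⟨F i, hF i, hσ i⟩
  let Y : Ideal (MvPolynomial good 𝒪) := y.comap x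
  have : Y.IsPrime := Ideal.comap_isPrime _ _
  have hY : ∀ a : 𝒪, a ≠ 0 → algebraMap 𝒪 (MvPolynomial good 𝒪) a ∉ Y := fun a ha h => by
    rw [Ideal.mem_comap, AlgHom.commutes] at h
    exact hy0 a ha h
  let (A₀ : Finset ν) : Module (MvPolynomial good 𝒪) (B.Triv A₀) :=
    Module.compHom _ (rename Subtype.val : MvPolynomial good 𝒪 →ₐ[𝒪] MvPolynomial ι 𝒪).toRingHom
  have (A₀ : Finset ν) : IsScalarTower 𝒪 (MvPolynomial good 𝒪) (B.Triv A₀) :=
    ⟨fun a P z => by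
      show rename Subtype.val (a • P) • z = a • rename Subtype.val P • z
      rw [map_smul, smul_assoc]⟩
  have := fun A₀ => (hw.free A₀).2
  -- the two maps
  have hJ : ∀ (P : MvPolynomial good 𝒪) z,
      Matrix.toLin (b₀ A) (b₀ (insert v A)) St.J (rename Subtype.val P • z) =
        rename Subtype.val P • Matrix.toLin (b₀ A) (b₀ (insert v A)) St.J z := fun P z => by
    have h := congrArg (Matrix.toLin (b₀ A) (b₀ (insert v A))) (St.J_comm (x P))
    rw [hact A hdvd, hact (insert v A) dvd_rfl, Matrix.toLin_mul (b₀ A) (b₀ A) (b₀ (insert v A)),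
      Matrix.toLin_mul (b₀ A) (b₀ (insert v A)) (b₀ (insert v A))] at h
    simp only [LinearMap.toMatrixAlgEquiv, AlgEquiv.ofLinearEquiv_apply,
      Matrix.toLin_toMatrix] at h
    exact LinearMap.congr_fun h z
  let Jl : B.Triv A →ₗ[MvPolynomial good 𝒪] B.Triv (insert v A) :=
    { toFun := Matrix.toLin (b₀ A) (b₀ (insert v A)) St.J
      map_add' := map_add _
      map_smul' := hJ }
  let dl : B.Triv (insert v A) →ₗ[MvPolynomial good 𝒪] B.Triv A :=
    { toFun := Tr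
      map_add' := map_add _
      map_smul' := fun P z => by
        show Tr (rename Subtype.val P • z) = rename Subtype.val P • Tr z
        rw [hgP, hTr] }
  have hJinj : Function.Injective Jl := fun z z' h => by
    have h' := congrArg (Matrix.toLin (b₀ (insert v A)) (b₀ A) St.Lam) h
    simp only [Jl, LinearMap.coe_mk, AddHom.coe_mk] at h'
    rwa [← LinearMap.comp_apply, ← LinearMap.comp_apply, ← Matrix.toLin_mul, St.Lam_J,
      Matrix.toLin_one, LinearMap.id_apply, LinearMap.id_apply] at h'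
  -- the injectivity at the prime
  have hd : ∀ c : B.Triv (insert v A), (∃ s, s ∉ Y ∧ s • dl c = 0) → ∃ s, s ∉ Y ∧ s • c = 0 := by
    rintro c ⟨s, hs, hsc⟩
    obtain ⟨s', hs', hs'c⟩ := exists_smul_eq_zero_new hw hv hlvl (good := good)
      (fun i h h' => ⟨h, h'⟩) Y hY
      (fun P hP => hyA (by
        rw [RingHom.mem_ker, hact A hdvd, map_eq_zero_iff _ (AlgEquiv.injective _)]
        exact LinearMap.ext hP))
      (rename Subtype.val s • c) (by
        rw [smul_comm, ← hJT, hgP, ← hJr, ← hgP]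
        show Jr (rename Subtype.val s • dl c) = 0
        rw [show rename Subtype.val s • dl c = s • dl c from rfl, hsc, map_zero])
    refine ⟨s' * s, fun h => (Ideal.IsPrime.mem_or_mem inferInstance h).elim hs' hs, ?_⟩
    show rename Subtype.val (s' * s) • c = 0
    rw [map_mul, mul_smul, hs'c]
  -- the cokernel dies at the prime
  choose s hs c hc using fun j : Fin sK => exists_smul_mem_range Y hY Jl hJinj dl hd
    ((b₀ (insert v A)).equivFun.symm (St.Sec *ᵥ Pi.single j 1))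
  have hs0 : ∀ j, St.ρK (x (s j)) *ᵥ Pi.single j 1 = 0 := fun j =>
    cokernel_mulVec_eq_zero St (b₀ A) (b₀ (insert v A)) (hact (insert v A) dvd_rfl (s j)) (hc j)
  have hprod : x (∏ j, s j) ∈ RingHom.ker St.ρK := by
    rw [RingHom.mem_ker]
    refine Matrix.ext fun a j => ?_
    have h : St.ρK (x (∏ j, s j)) *ᵥ Pi.single j 1 = 0 := by
      rw [← Finset.prod_erase_mul _ _ (Finset.mem_univ j), map_mul, map_mul,
        ← Matrix.mulVec_mulVec, hs0, Matrix.mulVec_zero]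
    simpa [Matrix.mulVec_single] using congrFun h a
  obtain ⟨j, -, hj⟩ := (Ideal.IsPrime.prod_mem_iff (p := Y)).mp
    (show ∏ j, s j ∈ Y from hyK hprod)
  exact hs j hj

end FermatAgent.RT.Ladder.RaiseBase

end
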